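import Fermat.Agent.SSH.InstGal
import Fermat.Agent.Nod.Qbar

/-!
# Inertia and Frobenius at `q` on the function field of level `Γ₀(q) ∩ Γ_H(M)`
-/

set_option autoImplicit false
set_option linter.unusedSectionVars false
set_option linter.style.haveILetI false

open UpperHalfPlane ModularForm Complex Matrix.SpecialLinearGroup
open scoped MatrixGroups Manifold
open Fermat.Agent.AL Fermat.Agent.ALCoh Fermat.Agent.KumG Fermat.Agent.Cov CongruenceSubgroup
  ModularCurve Fermat.Agent.ModPoly Fermat.Agent.GamH Polynomial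
  IntermediateField Fermat.Agent.RedMod Fermat.Agent.Red AlgebraicCurve Fermat.Agent.RR
  Fermat.Agent.Nod

namespace Fermat.Agent.SSH

noncomputable section

section Gen

variable {A K k : Type*} [CommRing A] [IsDomain A] [ValuationRing A]
  [Field K] [IsAlgClosed K] [CharZero K] [Algebra ℚ K] [Algebra A K] [IsFractionRing A K]
  [Field k] [IsAlgClosed k] [Algebra A k] {q M : ℕ} [hq : Fact q.Prime] [NeZero M]
  {H : Subgroup (ZMod M)ˣ} [hH : Fact ((-1 : (ZMod M)ˣ) ∈ H)] [CharP k q] [PerfectRing k q]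

variable (A K k q M H) in
/-- the setting at a place over `q` -/
structure Setting where
  hk : Function.Surjective (algebraMap A k)
  hM : (M : k) ≠ 0
  hqM : ¬ q ∣ M
  hM3 : 3 ≤ M
  D : WData q M H
  ι : K →+* ℂ
  hA : ∃ t : A, t ≠ 0 ∧ ¬ IsUnit t
  hrank : ∀ a c : A, algebraMap A k a = 0 → c ≠ 0 → ∃ n : ℕ, c ∣ a ^ n

namespace Setting

variable (s : Setting A K k q M H)

/-- the semistable structure -/
def S : SSD A (FG (GH M H) K) (FG (Gq q M H) K) (FH k M H) (yF s.hM H) q :=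
  ssd (A := A) (k := k) s.ι s.hk s.hM s.hM3 s.D s.hqM

theorem gal : s.S.Gal := ssd_gal (A := A) (k := k) s.ι s.hk s.hM s.hM3 s.D s.hqM

include s in
theorem ffE : FunField k (FH k M H) := funField_FH s.hM s.hM3 hH.out

include s in
theorem ffM : FunField K (FG (GH M H) K) :=
  haveI : Nonempty (K →+* ℂ) := ⟨s.ι⟩
  inferInstance

include s in
theorem ffq : FunField K (FG (Gq q M H) K) :=
  haveI : Nonempty (K →+* ℂ) := ⟨s.ι⟩
  inferInstance

theorem pol [FunField k (FH k M H)] [FunField K (FG (GH M H) K)]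
    [FunField K (FG (Gq q M H) K)] : s.S.Pol := by
  haveI := funField_FF (k := K) (M := q * M)
    (by exact_mod_cast (NeZero.ne (q * M)))
  refine SSD.pol (M := M) s.S ?_
  exact FF_le_FG (Fact.out : _ ∈ HM (dvd_mul_left M q) H)

theorem sp : SP s.S.G := spF (A := A) s.ι s.hk s.hM s.hM3

include s in
theorem gen [FunField k (FH k M H)] [FunField K (FG (GH M H) K)] :
    rrGenus k (FH k M H) = rrGenus K (FG (GH M H) K) :=
  rrGenus_F (A := A) s.ι s.hk s.hM s.hM3

/-- **Inertia acts unipotently** -/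
theorem unip {R R' : RedAut A K k} (hR : R.σb = 1) (hR' : R'.σb = 1) {m : ℕ} (hm : (m : k) ≠ 0)
    [FunField K (FG (Gq q M H) K)]
    {f : FG (Gq q M H) K} (hf : f ≠ 0)
    (hD : ∀ v : Place K (FG (Gq q M H) K), (m : ℤ) ∣ v.ord f) :
    ∃ x : FG (Gq q M H) K, x ^ m = actF s.gal.cq R'.σ (actF s.gal.cq R.σ f / f) /
      (actF s.gal.cq R.σ f / f) := by
  haveI := s.ffE
  haveI := s.ffM
  exact SSD.unip s.gal s.pol s.sp s.gen s.hA s.hrank hR hR' hm hf hD

/-- **Frobenius on classes with vanishing norms** -/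
theorem frob {R : RedAut A K k} (hR : R.σb = frobeniusEquiv k q * frobeniusEquiv k q)
    {m : ℕ} (hm : (m : k) ≠ 0) [FunField K (FG (Gq q M H) K)]
    {f : FG (Gq q M H) K} (hf : f ≠ 0)
    (hD : ∀ v : Place K (FG (Gq q M H) K), (m : ℤ) ∣ v.ord f)
    {z₁ z₂ : FG (GH M H) K} (hz₁ : s.S.Nm f = z₁ ^ m) (hz₂ : s.S.Nm (s.S.w f) = z₂ ^ m) :
    ∃ x : FG (Gq q M H) K, x ^ m = SSD.gF s.gal R s.S.δ2 • (SSD.gF s.gal R s.S.δ2 • f) *
      f ^ (q * q) / (SSD.gF s.gal R s.S.δ2 • f) ^ (q * q + 1) := by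
  haveI := s.ffE
  haveI := s.ffM
  exact SSD.frob s.gal s.pol s.sp s.gen s.hA s.hrank hR hm hf hD hz₁ hz₂

end Setting

end Gen

section Qb

local notation "Q̄" => AlgebraicClosure ℚ

variable {A : ValuationSubring (AlgebraicClosure ℚ)} {q M : ℕ} [hq : Fact q.Prime] [NeZero M]
  {H : Subgroup (ZMod M)ˣ} [hH : Fact ((-1 : (ZMod M)ˣ) ∈ H)]

/-- the setting for a place of `Q̄` -/
def qset (hA : A.LiesOverPrime q) (hqM : ¬ q ∣ M) (hM3 : 3 ≤ M) (D : WData q M H)
    (ι : Q̄ →+* ℂ) : Setting A Q̄ (IsLocalRing.ResidueField A) q M H where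
  hk := IsLocalRing.residue_surjective
  hM := natCast_residue_ne_zero hA hqM
  hqM := hqM
  hM3 := hM3
  D := D
  ι := ι
  hA := exists_nonunit hA
  hrank a c := rank_one hA a c

/-- **Inertia at `q` acts unipotently on Kummer classes of level `Γ₀(q) ∩ Γ_H(M)`.** -/
theorem unip_FG (hA : A.LiesOverPrime q) (hqM : ¬ q ∣ M) (hM3 : 3 ≤ M) (D : WData q M H)
    (ι : Q̄ →+* ℂ) {σ τ : Q̄ ≃ₐ[ℚ] Q̄}
    (hσ : σ ∈ A.inertiaSubgroupIn ℚ) (hτ : τ ∈ A.inertiaSubgroupIn ℚ) {m : ℕ} (hm : ¬ q ∣ m)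
    {f : FG (Gq q M H) Q̄} (hf : f ≠ 0) (hD : ∀ v : Place Q̄ (FG (Gq q M H) Q̄), (m : ℤ) ∣ v.ord f) :
    ∃ x : FG (Gq q M H) Q̄, x ^ m = galK τ (galK σ f / f) / (galK σ f / f) := by
  haveI : CharP (IsLocalRing.ResidueField A) q := RedMod.charP_residue hA
  haveI : IsAlgClosed (IsLocalRing.ResidueField A) := inferInstance
  haveI : PerfectRing (IsLocalRing.ResidueField A) q := inferInstance
  obtain ⟨R, hR, hR1⟩ := exists_decAut_inertia hσ
  obtain ⟨R', hR', hR1'⟩ := exists_decAut_inertia hτ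
  haveI := (qset hA hqM hM3 D ι).ffq
  have h := (qset hA hqM hM3 D ι).unip hR1 hR1' (natCast_residue_ne_zero hA hm) hf hD
  have e1 : ∀ x : FG (Gq q M H) Q̄, actF (qset hA hqM hM3 D ι).gal.cq R.σ x = galK σ x := by
    intro x
    apply Subtype.ext
    rw [coe_actF, hR]
    rfl
  have e2 : ∀ x : FG (Gq q M H) Q̄, actF (qset hA hqM hM3 D ι).gal.cq R'.σ x = galK τ x := by
    intro x
    apply Subtype.ext
    rw [coe_actF, hR']
    rfl
  rw [e2, e1] at h
  exact h

end Qb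

end

end Fermat.Agent.SSH
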