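import Fermat.Agent.SSH.KumX

/-!
# Transfers and the Atkin-Lehner involution commute with the Hecke operators
-/

set_option autoImplicit false
set_option linter.unusedSectionVars false
set_option linter.style.haveILetI false

open Matrix.SpecialLinearGroup CongruenceSubgroup
open scoped MatrixGroups Manifold
open Fermat.Agent.AL Fermat.Agent.ALCoh Fermat.Agent.KumG Fermat.Agent.Cov Fermat.Agent.GamH

namespace Fermat.Agent.SSH

noncomputable section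

variable {q M l : ℕ} [hq : Fact q.Prime] [NeZero M] {H : Subgroup (ZMod M)ˣ}
  {A : Type*} [AddCommGroup A] {γ δ : SL(2, ℤ)}

theorem bot_of_bot {N : ℕ} (h : M ∣ N) {B : M2} {e : ZMod N} (hB : Bot N e B) :
    Bot M (ZMod.castHom h (ZMod M) e) B where
  c := (Int.natCast_dvd_natCast.2 h).trans hB.c
  d := by
    rw [← hB.d]
    simp

theorem adp_of_adp (h : Adp (q * M) l γ) : Adp M l γ where
  mem := Gamma0_le (dvd_mul_left M q) h.mem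
  dd := by
    rw [← dd_cast (dvd_mul_left M q), h.dd]
    simp

/-- general commutation with `T_ℓ` for families starting from the level `Gq` -/
theorem op_rT_comm_gen {ι : Type*} [Fintype ι] {rep : ι → M2} {e : ZMod M} (he : IsUnit e)
    {Γ' : Subgroup SL(2, ℤ)} (hF : Fam (Gq q M H) Γ' rep)
    (hF0 : ∀ δ ∈ GG (q * M), ∃ σ g, Tr (GG (q * M)) rep δ σ g)
    (hB : ∀ i, ∃ u ∈ H, Bot M ((u : (ZMod M)ˣ) * e) (rep i))
    (hl : l.Prime) (hlN : ¬ l ∣ q * M) (hγ : Adp (q * M) l γ)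
    (hT : Fam (Gq q M H) (Gq q M H) (rT l γ)) (hT' : Fam Γ' Γ' (rT l γ))
    {D : ℤ} (hD : ∀ i, (rep i).det = D) (hlD : ¬ (l : ℤ) ∣ D) {S : Set M2} (hS : Stab l S)
    (hrep : ∀ i, rep i ∈ S)
    (hcov : ∀ B ∈ S, ∃ i, ∃ γ : GG (q * M), B = ((γ : SL(2, ℤ)) : M2) * rep i)
    (hinj : ∀ i j, ∀ γ : GG (q * M), rep i = ((γ : SL(2, ℤ)) : M2) * rep j → i = j)
    (φ : Additive (Gq q M H) →+ A) :
    hF.op A (hT.op A φ) = hT'.op A (hF.op A φ) := by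
  have hlM : ¬ l ∣ M := fun h => hlN (h.mul_left q)
  obtain ⟨Φ, hΦ⟩ := exists_comm hl hlN hD hlD hS hrep hcov hinj
  choose σ g hg using fun y : Option (Fin l) => hF0 (aT l γ y) (aT_mem hγ y)
  let Ψ : ι × Option (Fin l) ≃ ι × Option (Fin l) :=
    ⟨fun z => (σ z.2 z.1, z.2), fun z => ((σ z.2).symm z.1, z.2), fun z => by simp,
      fun z => by simp⟩
  rw [Fam.op_op, Fam.op_op]
  refine DFunLike.congr_fun (Fam.op_eq' _ _ (Φ.trans Ψ.symm) fun z => ?_) φ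
  obtain ⟨h, hh⟩ := hΦ z
  set w := (Φ.trans Ψ.symm) z with hw
  have hΦw : Φ z = Ψ w := by rw [hw]; simp
  have h1 : (Φ z).1 = σ w.2 w.1 := by rw [hΦw]; rfl
  have h2 : (Φ z).2 = w.2 := by rw [hΦw]; rfl
  rw [h1, h2] at hh
  -- the comparison element
  let c : SL(2, ℤ) := aT l γ z.1 * h * (g w.2 w.1 : SL(2, ℤ))⁻¹
  have hc : c ∈ GG (q * M) := mul_mem (mul_mem (aT_mem hγ _) h.2) (inv_mem (g w.2 w.1).2)
  have key : rT l γ z.1 * rep z.2 = (c : M2) * (rep w.1 * rT l γ w.2) := by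
    have h3 := hg w.2 w.1
    rw [rT, rT, Matrix.mul_assoc, hh, ← Matrix.mul_assoc (rep w.1), h3]
    change _ = ((aT l γ z.1 * h * (g w.2 w.1 : SL(2, ℤ))⁻¹ : SL(2, ℤ)) : M2) *
      (((g w.2 w.1 : SL(2, ℤ)) : M2) * rep (σ w.2 w.1) * dl l w.2)
    rw [Matrix.mul_assoc, coe_mul_inv_mul_SL, coe_mul_mul_SL]
  have hγM := adp_of_adp hγ
  have hcM : c ∈ GH M H := by
    obtain ⟨u₁, hu₁, b₁⟩ := hB w.1
    obtain ⟨u₂, hu₂, b₂⟩ := hB z.2
    refine mem_GH_of_mul (u := u₂ * u₁⁻¹) ((u₁.isUnit.mul he).mul (isUnit_natCast hl hlM)) ?_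
      (mul_mem hu₂ (inv_mem hu₁))
      (Gamma0_le (dvd_mul_left M q) hc) (b₁.mul (bot_rT hγM w.2)) key
    have h4 := (bot_rT hγM z.1).mul b₂
    have e5 : ((u₂ * u₁⁻¹ : (ZMod M)ˣ) : ZMod M) * ((u₁ : ZMod M) * e * (l : ZMod M)) =
        (l : ZMod M) * ((u₂ : ZMod M) * e) := by
      have h5 : ((u₁⁻¹ : (ZMod M)ˣ) : ZMod M) * (u₁ : ZMod M) = 1 := Units.inv_mul u₁
      rw [Units.val_mul]
      linear_combination ((u₂ : ZMod M) * e * l) * h5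
    rw [e5]
    exact h4
  exact ⟨⟨c, mem_Gq.2 ⟨hc, hcM⟩⟩, key⟩

section W

variable (D : WData q M H)

theorem W_mem_WS : D.W ∈ WS (q * M) q := by
  refine ⟨det_WQ D.h, ?_, ?_, ?_⟩
  · exact ⟨D.x, rfl⟩
  · exact ⟨1, by rw [mul_one]; push_cast; rfl⟩
  · exact ⟨D.v, rfl⟩

theorem isUnit_qv : IsUnit ((q * D.v : ℤ) : ZMod M) := by
  have h := congrArg (Int.cast : ℤ → ZMod M) D.h
  push_cast at h
  rw [ZMod.natCast_self, zero_mul, sub_zero, mul_comm] at h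
  push_cast
  exact IsUnit.of_mul_eq_one _ h

theorem bot_W : Bot M ((q * D.v : ℤ) : ZMod M) D.W where
  c := ⟨q, by change (q * M : ℤ) = _; ring⟩
  d := rfl

variable [hH : Fact ((-1 : (ZMod M)ˣ) ∈ H)]

theorem WH_TH (hl : l.Prime) (hlN : ¬ l ∣ q * M) (φ : LZ (Gq q M H)) :
    WH D (TH (q * M) (HM (dvd_mul_left M q) H) hl hlN φ) =
      TH (q * M) (HM (dvd_mul_left M q) H) hl hlN (WH D φ) := by
  obtain ⟨γ, hγ⟩ := exists_adp hl hlN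
  rw [TH_eq hl hlN hγ]
  apply Subtype.ext
  have hQ : q ≠ 0 := hq.out.ne_zero
  have hN : q ∣ q * M := dvd_mul_right q M
  have hQN : (q : ℤ) ∣ (q * M : ℕ) := Int.natCast_dvd_natCast.mpr hN
  exact op_rT_comm_gen (e := ((q * D.v : ℤ) : ZMod M)) (isUnit_qv D) D.ad.fam
    (fun δ hδ => (famW hN hQ (W_mem_WS D)).tr δ hδ)
    (fun _ => ⟨1, one_mem _, by rw [Units.val_one, one_mul]; exact bot_W D⟩) hl hlN hγ
    (fam_rT _ hl hlN hγ) (fam_rT _ hl hlN hγ) (D := q) (fun _ => det_WQ D.h)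
    (fun h => hlN ((Int.natCast_dvd_natCast.mp h).trans hN))
    (stab_WW (D := q) (Q := q) (R := (q * M : ℕ)) (S := q) hl.ne_zero hQN hQN
      (isCoprime_of_not_dvd hl hlN)) (fun _ => W_mem_WS D)
    (fun C hC => by
      obtain ⟨γ, h1, h2, h3⟩ := WS_mul_adj hN hC (W_mem_WS D) hQ
      exact ⟨(), mkG γ h1 h2, h3⟩) (fun _ _ _ _ => rfl) φ.1

theorem WH_DH (d : (ZMod (q * M))ˣ) (φ : LZ (Gq q M H)) :
    WH D (DH (q * M) (HM (dvd_mul_left M q) H) d φ) =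
      DH (q * M) (HM (dvd_mul_left M q) H) d (WH D φ) := by
  obtain ⟨γ, hγ, hd⟩ := exists_dd_unit d
  rw [DH_eq hγ hd]
  apply Subtype.ext
  change (D.ad.fam).op ℤ ((fam_diaH _ hγ).op ℤ φ.1) = (fam_diaH _ hγ).op ℤ ((D.ad.fam).op ℤ φ.1)
  rw [Fam.op_op, Fam.op_op]
  refine DFunLike.congr_fun (Fam.op_eq' _ _ (Equiv.refl _) fun z => ?_) φ.1
  obtain ⟨δ, hδ, ε, hε, h1, h2⟩ := WQ_comm hq.out.ne_zero D.h H hγ
  refine ⟨⟨ε⁻¹, inv_mem hε⟩, ?_⟩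
  change (γ : M2) * D.W = ((ε⁻¹ : SL(2, ℤ)) : M2) * (D.W * (γ : M2))
  rw [h1, h2, ← Matrix.mul_assoc, ← Matrix.SpecialLinearGroup.coe_mul, inv_mul_cancel_left]

theorem WH_WH (φ : LZ (Gq q M H)) : WH D (WH D φ) = φ := by
  apply Subtype.ext
  change (D.ad.fam).op ℤ ((D.ad.fam).op ℤ φ.1) = φ.1
  rw [Fam.op_op]
  conv_rhs => rw [← Fam.one_op φ.1]
  have hq0 : (q : ℤ) ≠ 0 := by exact_mod_cast hq.out.ne_zero
  obtain ⟨u, hu, hu2⟩ := D.sq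
  refine DFunLike.congr_fun (Fam.op_eq _ _ (Equiv.prodUnique Unit Unit) (c := 1) (c' := q)
    one_ne_zero fun _ => ⟨⟨gQ D.h, gQ_mem D.h hu hu2⟩, ?_⟩) φ.1
  rw [one_smul, Matrix.mul_one]
  exact WQ_sq D.h

end W

section Tr

variable (hqM : ¬ q ∣ M) [hH : Fact ((-1 : (ZMod M)ˣ) ∈ H)]

/-- the transfer on lattices -/
def trL : LZ (Gq q M H) →ₗ[ℤ] LZ (GH M H) :=
  AddMonoidHom.toIntLinearMap
    { toFun := fun φ => ⟨trG Gq_le ℤ φ.1, isParabolicHom_op _ φ.2⟩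
      map_zero' := Subtype.ext (map_zero (trG Gq_le ℤ))
      map_add' := fun φ ψ => Subtype.ext (map_add (trG Gq_le ℤ) φ.1 ψ.1) }

theorem trL_coe (φ : LZ (Gq q M H)) : (trL φ).1 = trG Gq_le ℤ φ.1 := rfl

variable (D : WData q M H)

include hqM in
theorem isReps_aux {g : SL(2, ℤ)} (hg : g ∈ Gamma0 (q * M)) :
    IsRepsG (GG (q * M)) (GG M) (rQ (q := q) D.h g) := by
  have h1 := isRepsG_rQ (H := (⊤ : Subgroup (ZMod M)ˣ)) D.h hqM hg (by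
    have h2 := mul_mem (Gamma0_le (dvd_mul_left M q) hg) (sQ_mem D.h)
    rw [mem_GH_dd h2]
    obtain ⟨u, hu⟩ := isUnit_dd h2
    exact ⟨u, Subgroup.mem_top _, hu.symm⟩)
  have e1 : ∀ γ : SL(2, ℤ), γ ∈ GG M ↔ γ ∈ GH M (⊤ : Subgroup (ZMod M)ˣ) := by
    intro γ
    refine ⟨fun h => ?_, fun h => GH_le _ _ h⟩
    rw [mem_GH_dd h]
    obtain ⟨u, hu⟩ := isUnit_dd h
    exact ⟨u, Subgroup.mem_top _, hu.symm⟩
  have e2 : ∀ γ : SL(2, ℤ), γ ∈ GG (q * M) ↔ γ ∈ Gq q M (⊤ : Subgroup (ZMod M)ˣ) := by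
    intro γ
    rw [mem_Gq, ← e1]
    exact ⟨fun h => ⟨h, Gamma0_le (dvd_mul_left M q) h⟩, fun h => h.1⟩
  refine ⟨fun i => (e1 _).2 (h1.mem i), fun i j h => h1.inj i j ((e2 _).1 h), fun γ hγ => ?_⟩
  obtain ⟨i, hi⟩ := h1.surj γ ((e1 _).1 hγ)
  exact ⟨i, (e2 _).2 hi⟩

include hqM D in
theorem trG_rT (hl : l.Prime) (hlN : ¬ l ∣ q * M) (hlM : ¬ l ∣ M) (hγ : Adp (q * M) l γ)
    (hγM : Adp M l γ) (φ : Additive (Gq q M H) →+ A) :
    trG Gq_le A ((fam_rT (HM (dvd_mul_left M q) H) hl hlN hγ).op A φ) =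
      (fam_rT H hl hlM hγM).op A (trG Gq_le A φ) := by
  have hg := inv_mem (exists_γ0 D).choose_spec.1
  have hr := isRepsG_rQ (H := H) D.h hqM hg γ0_inv_mul
  have hr0 := isReps_aux hqM D hg
  rw [trG_eq _ hr]
  refine op_rT_comm_gen (e := 1) isUnit_one (famTrG hr) (fun δ hδ => ?_) (fun i => ?_) hl hlN hγ
    (fam_rT _ hl hlN hγ) (fam_rT H hl hlM hγM) (D := 1) (fun _ => det_coe' _) ?_
    (stab_WW (D := 1) (Q := 1) (R := M) (S := 1) hl.ne_zero (one_dvd _) (one_dvd _)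
      (isCoprime_of_not_dvd hl hlM))
    (fun i => ⟨det_coe' _, one_dvd _, dvd_of_mem (hr0.mem i), one_dvd _⟩)
    (fun B hB => ?_) (fun i j γ h => ?_) φ
  · exact (famTrG hr0).tr δ (Gamma0_le (dvd_mul_left M q) hδ)
  · obtain ⟨u, hu, h⟩ := (mem_GH_dd (hr0.mem i)).1 (hr.mem i)
    refine ⟨u, hu, ?_⟩
    rw [mul_one, ← h]
    exact bot_of_mem (hr0.mem i)
  · exact fun h => (Nat.prime_iff_prime_int.mp hl).not_isUnit (isUnit_of_dvd_one h)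
  · obtain ⟨i, hi⟩ := hr0.surj (mkSL B hB.1) (mkSL_mem hB.1 hB.2.2.1)
    exact ⟨i, ⟨_, hi⟩, by
      rw [← Matrix.SpecialLinearGroup.coe_mul, inv_mul_cancel_right, coe_mkSL]⟩
  · rw [← Matrix.SpecialLinearGroup.coe_mul] at h
    apply hr0.inj i j
    have h1 : rQ (q := q) D.h (exists_γ0 D).choose⁻¹ i =
        (γ : SL(2, ℤ)) * rQ (q := q) D.h (exists_γ0 D).choose⁻¹ j := Subtype.ext h
    rw [h1, mul_inv_cancel_right]
    exact γ.2

include hqM D in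
/-- the transfer commutes with `T_ℓ` -/
theorem trL_TH (hl : l.Prime) (hlN : ¬ l ∣ q * M) (hlM : ¬ l ∣ M) (φ : LZ (Gq q M H)) :
    trL (TH (q * M) (HM (dvd_mul_left M q) H) hl hlN φ) = TH M H hl hlM (trL φ) := by
  obtain ⟨γ, hγ⟩ := exists_adp hl hlN
  have hγM := adp_of_adp hγ
  rw [TH_eq hl hlN hγ, TH_eq hl hlM hγM]
  apply Subtype.ext
  exact trG_rT hqM D hl hlN hlM hγ hγM φ.1

include hqM D in
/-- the transfer commutes with the diamonds -/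
theorem trL_DH (d : (ZMod (q * M))ˣ) (φ : LZ (Gq q M H)) :
    trL (DH (q * M) (HM (dvd_mul_left M q) H) d φ) =
      DH M H (ZMod.unitsMap (dvd_mul_left M q) d) (trL φ) := by
  obtain ⟨γ, hγ, hd⟩ := exists_dd_unit d
  have hγM : γ ∈ GG M := Gamma0_le (dvd_mul_left M q) hγ
  have hdM : dd M γ = (ZMod.unitsMap (dvd_mul_left M q) d : (ZMod M)ˣ) := by
    rw [← dd_cast (dvd_mul_left M q), hd]
    rfl
  rw [DH_eq hγ hd, DH_eq hγM hdM]
  apply Subtype.ext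
  change trG Gq_le ℤ ((fam_diaH _ hγ).op ℤ φ.1) = (fam_diaH _ hγM).op ℤ (trG Gq_le ℤ φ.1)
  have hg := inv_mem (exists_γ0 D).choose_spec.1
  have hr := isRepsG_rQ (H := H) D.h hqM hg γ0_inv_mul
  rw [trG_eq _ hr, Fam.op_op, Fam.op_op]
  -- `γ r_i = c r_{σ i} γ`
  choose σ hσ using fun i => hr.surj (γ * rQ (q := q) D.h (exists_γ0 D).choose⁻¹ i * γ⁻¹)
    (conj_mem_GH hγM _ (hr.mem i))
  have hinj : Function.Injective σ := by
    intro i j hij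
    apply hr.inj
    have h1 := mul_mem (hσ i) (inv_mem (hσ j))
    rw [hij] at h1
    have e : γ * rQ (q := q) D.h (exists_γ0 D).choose⁻¹ i * γ⁻¹ *
        (rQ (q := q) D.h (exists_γ0 D).choose⁻¹ (σ j))⁻¹ *
        (γ * rQ (q := q) D.h (exists_γ0 D).choose⁻¹ j * γ⁻¹ *
        (rQ (q := q) D.h (exists_γ0 D).choose⁻¹ (σ j))⁻¹)⁻¹ =
        γ * (rQ (q := q) D.h (exists_γ0 D).choose⁻¹ i *
          (rQ (q := q) D.h (exists_γ0 D).choose⁻¹ j)⁻¹) * γ⁻¹ := by group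
    rw [e] at h1
    have h2 := conj_mem_GH (H := HM (dvd_mul_left M q) H) (inv_mem hγ) _ h1
    rw [inv_inv] at h2
    have e' : γ⁻¹ * (γ * (rQ (q := q) D.h (exists_γ0 D).choose⁻¹ i *
          (rQ (q := q) D.h (exists_γ0 D).choose⁻¹ j)⁻¹) * γ⁻¹) * γ =
        rQ (q := q) D.h (exists_γ0 D).choose⁻¹ i *
          (rQ (q := q) D.h (exists_γ0 D).choose⁻¹ j)⁻¹ := by group
    rwa [e'] at h2
  have hbij : Function.Bijective σ := Finite.injective_iff_bijective.1 hinj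
  refine DFunLike.congr_fun (Fam.op_eq' _ _
    ((Equiv.prodComm _ _).trans (Equiv.prodCongr (Equiv.ofBijective σ hbij) (Equiv.refl Unit)))
    fun z => ?_) φ.1
  refine ⟨⟨_, hσ z.2⟩, ?_⟩
  change (γ : M2) * (rQ (q := q) D.h (exists_γ0 D).choose⁻¹ z.2 : M2) =
    ((γ * rQ (q := q) D.h (exists_γ0 D).choose⁻¹ z.2 * γ⁻¹ *
      (rQ (q := q) D.h (exists_γ0 D).choose⁻¹ (σ z.2))⁻¹ : SL(2, ℤ)) : M2) *
      ((rQ (q := q) D.h (exists_γ0 D).choose⁻¹ (σ z.2) : M2) * (γ : M2))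
  rw [← Matrix.SpecialLinearGroup.coe_mul, ← Matrix.SpecialLinearGroup.coe_mul,
    ← Matrix.SpecialLinearGroup.coe_mul]
  congr 1
  simp only [mul_assoc, inv_mul_cancel_left, inv_mul_cancel, mul_one]
  all_goals rfl

end Tr

end

end Fermat.Agent.SSH
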