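import Fermat.Agent.SSH.TrG

/-!
# Norms and transfers
-/

set_option autoImplicit false
set_option linter.unusedSectionVars false
set_option linter.style.haveILetI false

open UpperHalfPlane ModularForm Complex Matrix.SpecialLinearGroup
open scoped MatrixGroups Manifold
open Fermat.Agent.AL Fermat.Agent.ALCoh Fermat.Agent.KumG Fermat.Agent.Cov CongruenceSubgroup
  ModularCurve Fermat.Agent.ModPoly Fermat.Agent.GamH Fermat.Agent.MFLib Polynomial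
  IntermediateField Fermat.Agent.RedMod Fermat.Agent.HeckeProd
open Fermat.Agent.Kum (ql ql_eq_zero ql_smul ql_mul ql_add)

namespace Fermat.Agent.SSH

noncomputable section

variable {q M : ℕ} [hq : Fact q.Prime] [NeZero M] {H : Subgroup (ZMod M)ˣ}
  [hH : Fact ((-1 : (ZMod M)ˣ) ∈ H)] (D : WData q M H) {g : SL(2, ℤ)} {x : LaurentSeries ℂ}

theorem W_mul_dl (b : Fin q) : (q : ℤ) • ((sQ D.h * ModularGroup.T ^ (b : ℕ) : SL(2, ℤ)) : M2) =
    D.W * dl q (some b) := by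
  have hT := ModularGroup.coe_T_zpow ((b : ℕ) : ℤ)
  rw [zpow_natCast] at hT
  rw [WData.W, ← sQ_mul_dg D.h, Matrix.SpecialLinearGroup.coe_mul, hT, coe_sQ]
  ext i j
  fin_cases i <;> fin_cases j <;>
    simp [dl, Matrix.mul_apply, Fin.sum_univ_two] <;> ring

theorem sl_rQ (k : ℤ) (f : ℍ → ℂ) (b : Fin q) :
    sl k ((rQ (q := q) D.h g (some b) : SL(2, ℤ)) : M2) f =
      ((q : ℂ) ^ (k - 2))⁻¹ • sl k (dl q (some b)) (sl k D.W (f ∣[k] g)) := by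
  have hq0 : (q : ℤ) ≠ 0 := by exact_mod_cast hq.out.ne_zero
  have hqC : (q : ℂ) ≠ 0 := by exact_mod_cast hq.out.ne_zero
  have h1 : ((sQ D.h * ModularGroup.T ^ (b : ℕ) : SL(2, ℤ)) : M2).det ≠ 0 := by
    rw [Matrix.SpecialLinearGroup.det_coe]; exact one_ne_zero
  have h2 : 0 < ((sQ D.h * ModularGroup.T ^ (b : ℕ) : SL(2, ℤ)) : M2).det := by
    rw [Matrix.SpecialLinearGroup.det_coe]; exact one_pos
  have e1 : sl k ((rQ (q := q) D.h g (some b) : SL(2, ℤ)) : M2) f =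
      sl k ((sQ D.h * ModularGroup.T ^ (b : ℕ) : SL(2, ℤ)) : M2) (f ∣[k] g) := by
    rw [← sl_SL g, ← sl_mul (by rw [g.det_coe]; exact one_ne_zero) h1,
      ← Matrix.SpecialLinearGroup.coe_mul, ← mul_assoc]
    rfl
  have e2 := sl_zsmul (k := k) hq0 h2 (f ∣[k] g)
  rw [W_mul_dl, sl_mul D.ad.det.ne' (det_dl_ne hq.out.ne_zero _)] at e2
  rw [e1, e2, smul_smul, Int.cast_natCast, inv_mul_cancel₀ (zpow_ne_zero _ hqC), one_smul]

/-- the constant -/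
def cQ (q : ℕ) (k : ℤ) : ℂ := (((q : ℂ) ^ (k - 2))⁻¹) ^ q * (((q : ℂ))⁻¹) ^ q

theorem cQ_ne_zero (k : ℤ) : cQ q k ≠ 0 := by
  have hqC : (q : ℂ) ≠ 0 := by exact_mod_cast hq.out.ne_zero
  exact mul_ne_zero (pow_ne_zero _ (inv_ne_zero (zpow_ne_zero _ hqC)))
    (pow_ne_zero _ (inv_ne_zero hqC))

theorem prodSl_rQ (k : ℤ) (f : ℍ → ℂ) :
    prodSl k (fun i => ((rQ (q := q) D.h g i : SL(2, ℤ)) : M2)) f =
      cQ q k • (f * HeckeProd.nrm q (sl k D.W (f ∣[k] g))) := by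
  have h1 : ((rQ (q := q) D.h g none : SL(2, ℤ)) : M2) = ((1 : SL(2, ℤ)) : M2) := rfl
  rw [prodSl, Fintype.prod_option, h1, sl_SL, SlashAction.slash_one]
  simp only [sl_rQ]
  rw [Finset.prod_smul, Finset.prod_const, Finset.card_univ, Fintype.card_fin]
  have h2 := prodSl_U (q := q) (k := k) (sl k D.W (f ∣[k] g))
  rw [prodSl] at h2
  rw [h2, smul_smul, mul_smul_comm]
  rfl

/-- the norm in analytic terms -/
theorem mop_rQ (hqM : ¬ q ∣ M) (hg : g ∈ Gamma0 (q * M)) (hgs : g * sQ D.h ∈ GH M H) {ζ : ℂˣ}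
    (hζ : IsPrimitiveRoot ζ q) (hx : x ∈ MFunG (Gq q M H)) :
    mop (Gq q M H) (fun i => ((rQ (q := q) D.h g i : SL(2, ℤ)) : M2)) x =
      x * NN q ζ (slF (Gq q M H) D.W (diaF (Γ := Gq q M H) g x)) := by
  have hdet : ∀ i, 0 < ((rQ (q := q) D.h g i : SL(2, ℤ)) : M2).det := fun i => by
    rw [Matrix.SpecialLinearGroup.det_coe]; exact one_pos
  have hn : Nz (Gq q M H) g := nz_Gq (H := H) hg
  obtain ⟨k, f, f', hr⟩ := hx
  have h1 := repF_mop (famTrG (isRepsG_rQ (H := H) D.h hqM hg hgs)) hdet hr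
  have h4 := slF_rep D.ad (diaF_rep hn hr)
  have h3 : ql (prodSl k (fun i => ((rQ (q := q) D.h g i : SL(2, ℤ)) : M2)) f') ≠ 0 := by
    rw [ne_eq, ql_eq_zero h1.mg.qgG]
    exact h1.g0
  have key : ∀ f : ℍ → ℂ, QG f → QG (sl k D.W (f ∣[k] g)) →
      ql (prodSl k (fun i => ((rQ (q := q) D.h g i : SL(2, ℤ)) : M2)) f) =
        HahnSeries.C (cQ q k) * (ql f * NN q ζ (ql (sl k D.W (f ∣[k] g)))) := by
    intro f hf hf'
    rw [prodSl_rQ, ql_smul _ (hf.mul (qg_nrm (ℓ := q) hf')), ql_mul hf (qg_nrm (ℓ := q) hf'), ql_nrm hf',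
      NN_indep zt_primitive hζ]
  refine mul_right_cancel₀ h3 ?_
  rw [h1.eq, key f hr.mf.qgG h4.mf.qgG, key f' hr.mg.qgG h4.mg.qgG, ← hr.eq, ← h4.eq, NN_mul hζ]
  ring

/-- **The norm represents the transfer.** -/
theorem rep_trG {m : ℕ} [NeZero m] {φ : Additive (Gq q M H) →+ ZMod m} (hqM : ¬ q ∣ M)
    (hg : g ∈ Gamma0 (q * M)) (hgs : g * sQ D.h ∈ GH M H) {ζ : ℂˣ}
    (hζ : IsPrimitiveRoot ζ q) (h : Rep (Gq q M H) x φ) :
    Rep (GH M H) (x * NN q ζ (slF (Gq q M H) D.W (diaF (Γ := Gq q M H) g x)))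
      (trG Gq_le (ZMod m) φ) := by
  rw [← mop_rQ D hqM hg hgs hζ h.mem, trG_eq _ (isRepsG_rQ (H := H) D.h hqM hg hgs)]
  exact rep_mop _ (fun i => by rw [Matrix.SpecialLinearGroup.det_coe]; exact one_pos) h

end

end Fermat.Agent.SSH
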