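import Fermat.Agent.SSH.Setting
import Fermat.Agent.SSH.RepTr

/-!
# Inertia and Frobenius at `q` on the Hecke modules of level `Γ₀(q) ∩ Γ_H(M)`
-/

set_option autoImplicit false
set_option linter.unusedSectionVars false
set_option linter.style.haveILetI false

open UpperHalfPlane ModularForm Complex Matrix.SpecialLinearGroup
open scoped MatrixGroups Manifold
open Fermat.Agent.AL Fermat.Agent.ALCoh Fermat.Agent.KumG Fermat.Agent.Cov CongruenceSubgroup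
  ModularCurve Fermat.Agent.ModPoly Fermat.Agent.GamH Fermat.Agent.MFLib Polynomial
  IntermediateField Fermat.Agent.RedMod AlgebraicCurve Fermat.Agent.Nod

namespace Fermat.Agent.SSH

noncomputable section

section NormP

variable {A K k : Type*} [CommRing A] [IsDomain A] [ValuationRing A]
  [Field K] [IsAlgClosed K] [CharZero K] [Algebra ℚ K] [Algebra A K] [IsFractionRing A K]
  [Field k] [IsAlgClosed k] [Algebra A k] {q M : ℕ} [hq : Fact q.Prime] [NeZero M]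
  {H : Subgroup (ZMod M)ˣ} [hH : Fact ((-1 : (ZMod M)ˣ) ∈ H)] [CharP k q] [PerfectRing k q]
  (s : Setting A K k q M H)

variable {D : WData q M H} in
theorem γ0_inv_mul : (exists_γ0 D).choose⁻¹ * sQ D.h ∈ GH M H := by
  have h1 := (exists_γ0 D).choose_spec.2
  have h0 := mem_M (exists_γ0 D).choose_spec.1
  set γ := (exists_γ0 D).choose
  have h2 := nz_GH (H := H) (inv_mem h0) _ (inv_mem h1)
  have e : γ⁻¹ * (γ * (D.s)⁻¹)⁻¹ * γ⁻¹⁻¹ = γ⁻¹ * sQ D.h := by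
    rw [WData.s]
    group
  rwa [e] at h2

theorem coeffMap_D_symm (x : FG (Gq q M H) K) :
    coeffMap s.ι (s.S.δ.D.symm x : LaurentSeries K) =
      diaF (Γ := Gq q M H) (exists_γ0 s.D).choose⁻¹ (coeffMap s.ι x.1) :=
  coe_diaK s.ι (inv_mem (exists_γ0 s.D).choose_spec.1) x

theorem coeffMap_w_D (x : FG (Gq q M H) K) :
    coeffMap s.ι (s.S.w (s.S.δ.D.symm x) : LaurentSeries K) =
      slF (Gq q M H) s.D.W (diaF (Γ := Gq q M H) (exists_γ0 s.D).choose⁻¹ (coeffMap s.ι x.1)) := by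
  rw [← coeffMap_D_symm]
  exact coe_wE s.ι s.D s.hM3 _

/-- the algebraic norm in analytic terms -/
theorem coeffMap_Nm (x : FG (Gq q M H) K) {ζ : ℂˣ} (hζ : IsPrimitiveRoot ζ q) :
    coeffMap s.ι (s.S.Nm x : LaurentSeries K) = coeffMap s.ι (x : LaurentSeries K) *
      HeckeProd.NN q ζ (slF (Gq q M H) s.D.W
        (diaF (Γ := Gq q M H) (exists_γ0 s.D).choose⁻¹ (coeffMap s.ι x.1))) := by
  obtain ⟨ξ, hξ⟩ := Cusp.exists_zeta (k := K) (N := q) (SemiSt.natCast_ne_zero_K K q)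
  apply qExpand_injective q
  rw [← coeffMap_w_D, ← ModularCurve.coeffMap_qExpand, s.S.qExpand_Nm hξ, map_mul, map_mul,
    ModularCurve.coeffMap_qExpand, HeckeProd.qExpand_NN hζ, map_prod]
  congr 1
  have hξ' : IsPrimitiveRoot (Units.map (s.ι : K →* ℂ) ξ) q :=
    hξ.map_of_injective (f := Units.map (s.ι : K →* ℂ)) (Units.map_injective s.ι.injective)
  rw [HeckeProd.PP_indep hζ hξ', HeckeProd.PP,
    ← prod_fin_val (fun j => twist (Units.map (s.ι : K →* ℂ) ξ ^ j)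
      (coeffMap s.ι (s.S.w (s.S.δ.D.symm x) : LaurentSeries K)))]
  refine Finset.prod_congr rfl fun b _ => ?_
  rw [HeckeProd.coeffMap_twist, map_pow]

variable {m : ℕ} [NeZero m] {φ : Additive (Gq q M H) →+ ZMod m}

/-- the norm of a function whose character has vanishing transfer is an `m`-th power -/
theorem exists_Nm_pow {x : FG (Gq q M H) K}
    (h : Rep (Gq q M H) (coeffMap s.ι (x : LaurentSeries K)) φ)
    (htr : trG Gq_le (ZMod m) φ = 0) : ∃ z : FG (GH M H) K, s.S.Nm x = z ^ m := by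
  obtain ⟨ζ, hζ⟩ := Kum.exists_primitive q
  apply exists_pow_of_rep_zero s.ι
  rw [coeffMap_Nm s x hζ, ← htr]
  exact rep_trG s.D s.hqM (inv_mem (exists_γ0 s.D).choose_spec.1) γ0_inv_mul hζ h

theorem rep_w {x : FG (Gq q M H) K}
    (h : Rep (Gq q M H) (coeffMap s.ι (x : LaurentSeries K)) φ) :
    Rep (Gq q M H) (coeffMap s.ι (s.S.w x : LaurentSeries K))
      ((s.D.ad.fam).op (ZMod m) φ) := by
  have h1 : coeffMap s.ι (s.S.w x : LaurentSeries K) =
      slF (Gq q M H) s.D.W (coeffMap s.ι x.1) := coe_wE s.ι s.D s.hM3 x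
  rw [h1]
  exact rep_mop s.D.ad.fam (fun _ => s.D.ad.det) h

end NormP

section KDsmul

variable {Γ : Subgroup SL(2, ℤ)} [LvlG Γ] [RatG Γ] {K : Type*} [Field K] [Algebra ℚ K]
  [IsAlgClosed K] [CharZero K]

theorem KD_smul {n : ℕ} {x : FG Γ K} (hx : KD n x) (g : SemilinearAut K (FG Γ K)) :
    KD n (g • x) := by
  refine ⟨(smul_ne_zero_iff_ne g).2 hx.1, fun v => ?_⟩
  have h1 := SemilinearAut.ord_smul g (g⁻¹ • v) x
  rw [smul_inv_smul] at h1
  have h2 : v.ord (g • x) = (g⁻¹ • v).ord x := h1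
  rw [h2]
  exact hx.2 _

theorem KD_dia {n : ℕ} {x : FG Γ K} (hx : KD n x) (e : FG Γ K ≃ₐ[K] FG Γ K) : KD n (e x) :=
  KD_smul hx (SemilinearAut.ofAlgAut e)

end KDsmul

section X

local notation "Q̄" => AlgebraicClosure ℚ

variable {A : ValuationSubring (AlgebraicClosure ℚ)} {q M : ℕ} [hq : Fact q.Prime] [NeZero M]
  {H : Subgroup (ZMod M)ˣ} [hH : Fact ((-1 : (ZMod M)ˣ) ∈ H)]

variable {m : ℕ} [NeZero m]

theorem dvd_ord_of_good {x : FG (Gq q M H) Q̄} (hx : Good m x) (v : Place Q̄ (FG (Gq q M H) Q̄)) :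
    (m : ℤ) ∣ v.ord x :=
  (Dvd.intro _ (Nat.cast_mul m (tb (Gq q M H))).symm).trans (hx.2 v)

/-- **Inertia at `q` acts unipotently** -/
theorem rhoF_unipH (hA : A.LiesOverPrime q) (hqM : ¬ q ∣ M) (hM3 : 3 ≤ M) (D : WData q M H)
    (ι : Q̄ →+* ℂ) {σ τ : Q̄ ≃ₐ[ℚ] Q̄}
    (hσ : σ ∈ A.inertiaSubgroupIn ℚ) (hτ : τ ∈ A.inertiaSubgroupIn ℚ) (hm : ¬ q ∣ m)
    (ξ : XL (Gq q M H) m) :
    rhoF ι m τ (rhoF ι m σ ξ) - rhoF ι m τ ξ - rhoF ι m σ ξ + ξ = 0 := by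
  obtain ⟨x, hx, rfl⟩ := exists_cls_eq' (K := Q̄) ι ξ
  have h1 : Good m (galK σ x) := KD.gal σ hx
  have h2 : Good m (galK τ (galK σ x)) := KD.gal τ h1
  have h3 : Good m (galK τ x) := KD.gal τ hx
  obtain ⟨z, hz⟩ := unip_FG hA hqM hM3 D ι hσ hτ hm hx.1 (dvd_ord_of_good hx)
  rw [rhoF_cls ι σ hx, rhoF_cls ι τ h1, rhoF_cls ι τ hx]
  have e0 : galK τ (galK σ x) * x = galK τ x * galK σ x * z ^ m := by
    rw [hz, map_div₀]
    have n1 := hx.1
    have n2 := h1.1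
    have n3 := h3.1
    field_simp
  have e1 : cls ι m (galK τ (galK σ x) * x) = cls ι m (galK τ x * galK σ x) := by
    rw [e0]
    apply cls_eq_of_mul_pow ι (h3.mul h1)
    rw [← e0]
    exact h2.mul hx
  rw [cls_mul ι h2 hx, cls_mul ι h3 h1] at e1
  have e2 : cls ι m (galK τ (galK σ x)) =
      cls ι m (galK τ x) + cls ι m (galK σ x) - cls ι m x := eq_sub_of_add_eq e1
  rw [e2]
  abel

variable (D : WData q M H)

/-- the Atkin-Lehner involution on the lattice -/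
def WH : Module.End ℤ (LZ (Gq q M H)) := opL D.ad.fam

theorem redI_WH (φ : LZ (Gq q M H)) :
    redI m (WH D φ) = (D.ad.fam).op (ZMod m) (redI m φ) := redI_opL _ φ

theorem trG_redI (φ : LZ (Gq q M H)) : trG Gq_le (ZMod m) (redI m φ) =
    (Int.castAddHom (ZMod m)).comp (trG (Gq_le (q := q) (H := H)) ℤ φ.1) := by
  rw [redI, trG, trG, Fam.comp_op]

/-- the class of the distinguished diamond -/
theorem exists_unit_γ0 : ∃ d : (ZMod (q * M))ˣ, dd (q * M) (exists_γ0 D).choose⁻¹ = d ∧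
    ∀ e : (ZMod (q * M))ˣ, (hco : q.Coprime M) →
      ZMod.unitsMap (dvd_mul_left M q) e * ZMod.unitOfCoprime q hco ∈ H →
        DH (q * M) (HM (dvd_mul_left M q) H) e = DH (q * M) (HM (dvd_mul_left M q) H) d *
          DH (q * M) (HM (dvd_mul_left M q) H) d := by
  have hγ := (exists_γ0 D).choose_spec.1
  have hγs := (exists_γ0 D).choose_spec.2
  set γ := (exists_γ0 D).choose
  obtain ⟨d, hd⟩ := isUnit_dd (inv_mem hγ)
  refine ⟨d, hd.symm, fun e hco he => ?_⟩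
  obtain ⟨u, hu, hu2⟩ := D.sq
  -- `d ≡ (q v)⁻¹`
  have h0 := mem_M hγ
  obtain ⟨w, hw, hw'⟩ := (mem_GH_dd (mul_mem h0 (inv_mem (sQ_mem D.h)))).1 hγs
  have h1 : dd M γ⁻¹ * dd M γ = 1 := dd_inv_mul h0
  have h2 : dd M γ = w * (q * D.v : ℤ) := by
    rw [← dd_sQ D.h, ← hw', ← dd_mul (mul_mem h0 (inv_mem (sQ_mem D.h))) (sQ_mem D.h),
      inv_mul_cancel_right]
  have h3 : dd M γ⁻¹ = ((ZMod.unitsMap (dvd_mul_left M q) d : (ZMod M)ˣ) : ZMod M) := by
    rw [← dd_cast (dvd_mul_left M q), ← hd]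
    rfl
  set d' := ZMod.unitsMap (dvd_mul_left M q) d with hd'
  -- `q v` as a unit
  have h4 : (d' : ZMod M) * (w * (q * D.v : ℤ)) = 1 := by rw [← h3, ← h2, h1]
  have h5 : (d' * d') * (w * w) * (u * ZMod.unitOfCoprime q hco) = 1 := by
    apply Units.ext
    have e1 : (d' : ZMod M) * d' * (w * w) * (q * (D.v : ZMod M) ^ 2 * q) =
        ((d' : ZMod M) * (w * (q * D.v : ℤ))) ^ 2 := by
      push_cast
      ring
    rw [h4, hu2] at e1
    simp only [Units.val_mul, ZMod.coe_unitOfCoprime, Units.val_one]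
    rw [e1, one_pow]
  -- the class of `e`
  rw [← DH_mul]
  have h6 : e * (d * d)⁻¹ ∈ HM (dvd_mul_left M q) H := by
    rw [HM, Subgroup.mem_comap, map_mul, map_inv, map_mul]
    have e2 : ZMod.unitsMap (dvd_mul_left M q) e * (d' * d')⁻¹ =
        (ZMod.unitsMap (dvd_mul_left M q) e * ZMod.unitOfCoprime q hco) * (u * (w * w)) := by
      have e3 : (d' * d')⁻¹ = (w * w) * (u * ZMod.unitOfCoprime q hco) := by
        rw [inv_eq_iff_mul_eq_one, ← mul_assoc]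
        exact h5
      rw [e3]
      simp only [mul_comm, mul_left_comm, mul_assoc]
    rw [← hd', e2]
    exact mul_mem he (mul_mem hu (mul_mem hw hw))
  have h7 : e = (e * (d * d)⁻¹) * (d * d) := by rw [inv_mul_cancel_right]
  rw [h7, DH_mul, DH_of_mem h6, one_mul]

section Main

variable (hA : A.LiesOverPrime q) (hqM : ¬ q ∣ M) (hM3 : 3 ≤ M) (ι : Q̄ →+* ℂ)
  {Φ : Q̄ ≃ₐ[ℚ] Q̄} (hΦ : A.IsFrobeniusAt Φ q) (hm : ¬ q ∣ m)

/-- the twisted square of Frobenius on Kummer classes -/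
theorem cls_diaK2 {γ : SL(2, ℤ)} (hγ : γ ∈ Gamma0 (q * M)) {d : (ZMod (q * M))ˣ}
    (hd : dd (q * M) γ = d) {x : FG (Gq q M H) Q̄}
    (hx : KD (6 * wd (Gq q M H) * (m * tb (Gq q M H))) x) :
    cls ι m (diaE (Γ := Gq q M H) ι hγ (diaE (Γ := Gq q M H) ι hγ x)) =
      actE (Gq q M H) m (DH (q * M) (HM (dvd_mul_left M q) H) d *
        DH (q * M) (HM (dvd_mul_left M q) H) d) (cls ι m x) := by
  have h1 := (cls_diaK (Γ := Gq q M H) (m := m) ι hγ hx).2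
  have h2 := (cls_diaK (Γ := Gq q M H) (m := m) ι hγ
    (KD_dia hx (diaE (Γ := Gq q M H) ι hγ))).2
  have h3 : DH (q * M) (HM (dvd_mul_left M q) H) d =
      opL (fam_dia (nz_of_mem (Gq q M H) hγ)) := DH_eq hγ hd
  rw [map_mul, h3]
  exact h2.trans (congrArg _ h1)

/-- the twisted square of Frobenius -/
def Th (ι : Q̄ →+* ℂ) (m : ℕ) [NeZero m] (Φ : Q̄ ≃ₐ[ℚ] Q̄) (d : (ZMod (q * M))ˣ)
    (ξ : XL (Gq q M H) m) : XL (Gq q M H) m :=
  rhoF ι m Φ (rhoF ι m Φ (actE (Gq q M H) m (DH (q * M) (HM (dvd_mul_left M q) H) d) ξ))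

include hA hqM hM3 hΦ hm in
/-- **Frobenius at `q` on classes with vanishing transfers** -/
theorem rhoF_frob_toricH (φ : LZ (Gq q M H))
    (h1 : trG (Gq_le (q := q) (H := H)) ℤ φ.1 = 0)
    (h2 : trG (Gq_le (q := q) (H := H)) ℤ (WH D φ).1 = 0)
    {d : (ZMod (q * M))ˣ} (hco : q.Coprime M)
    (hd : ZMod.unitsMap (dvd_mul_left M q) d * ZMod.unitOfCoprime q hco ∈ H) :
    Th ι m Φ d (Th ι m Φ d (mkX φ)) - (q ^ 2 + 1) • Th ι m Φ d (mkX φ) +
      q ^ 2 • (mkX φ : XL (Gq q M H) m) = 0 := by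
  haveI : CharP (IsLocalRing.ResidueField A) q := RedMod.charP_residue hA
  haveI : IsAlgClosed (IsLocalRing.ResidueField A) := inferInstance
  haveI : PerfectRing (IsLocalRing.ResidueField A) q := inferInstance
  set s := qset hA hqM hM3 D ι with hs
  haveI := s.ffq
  obtain ⟨x, hx0, hxφ⟩ := exists_cls_eq (K := Q̄) ι (mkX φ : XL (Gq q M H) m)
    (6 * wd (Gq q M H))
  have hx : Good m x := hx0.of_dvd (dvd_mul_right _ _)
  rw [mul_comm (m * tb (Gq q M H))] at hx0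
  have hrep : Rep (Gq q M H) (coeffMap ι x.1) (redI m φ) := by
    obtain ⟨ψ, hψ⟩ := hx.exists_mk ι
    have e1 := cls_eq ι hx hψ
    rw [hxφ, mkX_eq_iff] at e1
    rw [e1]
    exact hψ
  obtain ⟨z₁, hz₁⟩ := exists_Nm_pow s (x := x) hrep (by
    rw [trG_redI, h1, AddMonoidHom.comp_zero])
  obtain ⟨z₂, hz₂⟩ := exists_Nm_pow s (rep_w s (x := x) hrep) (by
    have e : (s.D.ad.fam).op (ZMod m) (redI m φ) = redI m (WH D φ) := (redI_WH D φ).symm
    rw [e, trG_redI, h2, AddMonoidHom.comp_zero])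
  obtain ⟨R₀, hR₀, hR₀1⟩ := exists_decAut_frob hΦ
  let R := R₀.comp R₀
  have hRσ : R.σ = (Φ : Q̄ ≃+* Q̄) * (Φ : Q̄ ≃+* Q̄) := by
    change R₀.σ * R₀.σ = _
    rw [hR₀]
  have hRb : R.σb = frobeniusEquiv (IsLocalRing.ResidueField A) q *
      frobeniusEquiv (IsLocalRing.ResidueField A) q := by
    change R₀.σb * R₀.σb = _
    rw [hR₀1]
  obtain ⟨z, hz⟩ := s.frob hRb (natCast_residue_ne_zero hA hm) hx.1 (dvd_ord_of_good hx) hz₁ hz₂
  set G := SSD.gF s.gal R s.S.δ2 with hG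
  obtain ⟨e, he, he'⟩ := exists_unit_γ0 D
  have hγ := (exists_γ0 D).choose_spec.1
  have hGx : ∀ y : FG (Gq q M H) Q̄, G • y = galK Φ (galK Φ
      (diaE (Γ := Gq q M H) ι (inv_mem hγ) (diaE (Γ := Gq q M H) ι (inv_mem hγ) y))) := by
    intro y
    change actF s.gal.cq R.σ (s.S.δ2.D y) = _
    rw [hRσ, actF_mul]
    rfl
  have hcls : ∀ y : FG (Gq q M H) Q̄, KD (6 * wd (Gq q M H) * (m * tb (Gq q M H))) y →
      cls ι m (G • y) = Th ι m Φ d (cls ι m y) := by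
    intro y hy
    have hy0 : Good m y := hy.of_dvd (Dvd.intro_left (6 * wd (Gq q M H)) rfl)
    have hy1 : Good m (diaE (Γ := Gq q M H) ι (inv_mem hγ)
        (diaE (Γ := Gq q M H) ι (inv_mem hγ) y)) := KD_dia (KD_dia hy0 _) _
    rw [hGx, Th, he' d hco hd, ← cls_diaK2 ι (inv_mem hγ) he hy, rhoF_cls ι Φ hy1,
      rhoF_cls ι Φ (KD.gal Φ hy1)]
  have g0 : KD (6 * wd (Gq q M H) * (m * tb (Gq q M H))) (G • x) := KD_smul hx0 G
  have g1 : Good m (G • x) := KD_smul hx G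
  have g2 : Good m (G • (G • x)) := KD_smul g1 G
  rw [← hxφ, ← hcls x hx0, ← hcls _ g0]
  have e0 : G • (G • x) * x ^ (q * q) = (G • x) ^ (q * q + 1) * z ^ m := by
    rw [hz, mul_div_cancel₀ _ (pow_ne_zero _ g1.1)]
  have e1 : cls ι m (G • (G • x) * x ^ (q * q)) = cls ι m ((G • x) ^ (q * q + 1)) := by
    rw [e0]
    apply cls_eq_of_mul_pow ι (g1.pow _)
    rw [← e0]
    exact g2.mul (hx.pow _)
  rw [cls_mul ι g2 (hx.pow _), cls_pow ι g1, cls_pow ι hx] at e1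
  rw [pow_two, ← e1]
  abel

end Main

end X

end

end Fermat.Agent.SSH
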