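import Fermat.Agent.SSH.Norm
import Fermat.Agent.Nod.FrobKum

/-!
# Inertia and Frobenius on Kummer classes of a semistable structure
-/

set_option autoImplicit false
set_option linter.style.haveILetI false
set_option linter.unusedSectionVars false

noncomputable section

namespace Fermat.Agent.SSH

open ModularCurve Polynomial IntermediateField Fermat.Agent.ModPoly Fermat.Agent.Red
  Fermat.Agent.RedMod Fermat.Agent.Cov Fermat.Agent.SemiSt AlgebraicCurve Fermat.Agent.Nod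
  Fermat.Agent.Curve Fermat.Agent.RR

variable {A K k : Type*} [CommRing A] [IsDomain A] [ValuationRing A]
  [Field K] [IsAlgClosed K] [CharZero K] [Algebra A K] [IsFractionRing A K]
  [Field k] [IsAlgClosed k] [Algebra A k]
  {FM Fq : IntermediateField K (LaurentSeries K)} {E : IntermediateField k (LaurentSeries k)}
  {ι : Type*} [Fintype ι] {y : ι → LaurentSeries ℤ} {q : ℕ} [hq : Fact q.Prime]
  {S : SSD A FM Fq E y q} [CharP k q] [PerfectRing k q]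
  [FunField k E] [FunField K FM] [FunField K Fq]
  (Γ : S.Gal) (P : S.Pol) (hS : SP S.G) (hgen : rrGenus k E = rrGenus K FM)
  (hA : ∃ t : A, t ≠ 0 ∧ ¬ IsUnit t)
  (hrank : ∀ a c : A, algebraMap A k a = 0 → c ≠ 0 → ∃ n : ℕ, c ∣ a ^ n)

namespace SSD

include P hS hgen hA hrank in
/-- **Inertia acts unipotently on Kummer classes.** -/
theorem unip {R R' : RedAut A K k} (hR : R.σb = 1) (hR' : R'.σb = 1) {m : ℕ} (hm : (m : k) ≠ 0)
    {f : Fq} (hf : f ≠ 0) (hD : ∀ v : Place K Fq, (m : ℤ) ∣ v.ord f) :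
    ∃ x : Fq, x ^ m = actF Γ.cq R'.σ (actF Γ.cq R.σ f / f) / (actF Γ.cq R.σ f / f) := by
  letI := algA A Fq
  haveI := tower_algA A Fq
  letI := algA A E
  haveI := tower_algA A E
  haveI := S.nonempty_ι'
  have hm0 : m ≠ 0 := by rintro rfl; simp at hm
  have hq1 := hq.out.one_lt
  obtain ⟨b', hb'⟩ := exists_pow_ne k (n := q * q) (by nlinarith)
  obtain ⟨b, rfl⟩ := S.G.hk b'
  have H := nodMod_ng P hS hgen b hb'
  obtain ⟨g, hg, hW, h1, h2⟩ := exists_scale_kummer (S := S) hrank hm0 hf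
  have hΘ := nodAut_isInertial Γ b R hR (fix_of_eq_one hR)
  have hΘ' := nodAut_isInertial Γ b R' hR' (fix_of_eq_one hR')
  obtain ⟨x, hx⟩ := NodAut.IsInertial.unip (S.ng_hspan b) H hA hrank
    hΘ hΘ' hm (f := f * g ^ m) hW h1 h2 (by
      intro v
      rw [v.ord_mul hf (pow_ne_zero _ hg), ord_pow]
      exact dvd_add (hD v) (dvd_mul_right _ _))
  have hx' : x ^ m = actF Γ.cq R'.σ (actF Γ.cq R.σ (f * g ^ m) / (f * g ^ m)) /
      (actF Γ.cq R.σ (f * g ^ m) / (f * g ^ m)) := hx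
  have hid := kummer_identity (actF Γ.cq R.σ : Fq ≃+* Fq).toRingHom
    (actF Γ.cq R'.σ : Fq ≃+* Fq).toRingHom f g m
  have hid' : actF Γ.cq R'.σ (actF Γ.cq R.σ (f * g ^ m) / (f * g ^ m)) /
      (actF Γ.cq R.σ (f * g ^ m) / (f * g ^ m)) =
      (actF Γ.cq R'.σ (actF Γ.cq R.σ f / f) / (actF Γ.cq R.σ f / f)) *
      (actF Γ.cq R'.σ (actF Γ.cq R.σ g / g) / (actF Γ.cq R.σ g / g)) ^ m := hid
  rw [hid'] at hx'
  have hne : actF Γ.cq R'.σ (actF Γ.cq R.σ g / g) / (actF Γ.cq R.σ g / g) ≠ 0 := by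
    have e1 : actF Γ.cq R.σ g ≠ 0 := (_root_.map_ne_zero _).2 hg
    exact div_ne_zero ((_root_.map_ne_zero _).2 (div_ne_zero e1 hg)) (div_ne_zero e1 hg)
  refine ⟨x / (actF Γ.cq R'.σ (actF Γ.cq R.σ g / g) / (actF Γ.cq R.σ g / g)), ?_⟩
  rw [div_pow, hx', mul_div_cancel_right₀ _ (pow_ne_zero _ hne)]

set_option maxHeartbeats 1000000 in
include P hS hgen hA hrank in
/-- **Frobenius acts as `q²` on Kummer classes with vanishing norms.** -/
theorem frob {R : RedAut A K k} (hR : R.σb = frobeniusEquiv k q * frobeniusEquiv k q)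
    {m : ℕ} (hm : (m : k) ≠ 0)
    {f : Fq} (hf : f ≠ 0) (hD : ∀ v : Place K Fq, (m : ℤ) ∣ v.ord f)
    {z₁ z₂ : FM} (hz₁ : S.Nm f = z₁ ^ m) (hz₂ : S.Nm (S.w f) = z₂ ^ m) :
    ∃ x : Fq, x ^ m = gF Γ R S.δ2 • (gF Γ R S.δ2 • f) * f ^ (q * q) /
      (gF Γ R S.δ2 • f) ^ (q * q + 1) := by
  letI := algA A Fq
  haveI := tower_algA A Fq
  letI := algA A E
  haveI := tower_algA A E
  haveI := S.nonempty_ι'
  have hm0 : m ≠ 0 := by rintro rfl; simp at hm
  have hq1 := hq.out.one_lt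
  obtain ⟨b', hb'⟩ := exists_pow_ne k (n := q * q) (by nlinarith)
  obtain ⟨b, rfl⟩ := S.G.hk b'
  have H := nodMod_ng P hS hgen b hb'
  obtain ⟨g, hg, hW, h1, h2⟩ := exists_scale_kummer (S := S) hrank hm0 hf
  have hfix := fix_of_eq_sq Γ hR
  set f' := f * g ^ m with hf'
  have hn1 : S.Nm f' = (z₁ * S.Nm g) ^ m := by
    rw [hf', map_mul, map_pow, hz₁, mul_pow]
  have hn2 : S.Nm (S.w f') = (z₂ * S.Nm (S.w g)) ^ m := by
    rw [hf', map_mul, map_pow, map_mul, map_pow, hz₂, mul_pow]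
  have hr := S.hasRed_sred hW
  set α := (S.sred ⟨f', hW⟩).1 with hα
  set β := (S.sred ⟨f', hW⟩).2 with hβ
  obtain ⟨s₁, hs₁⟩ := red_of_Nm Γ hr h1 h2 hm0 hn1
  obtain ⟨s₂, hs₂⟩ := red_of_Nm Γ hr.w h2 h1 hm0 hn2
  let gg : E →+* E := (SemilinearAut.toRingAut S.fd.g : E ≃+* E).toRingHom
  obtain ⟨t1, t2⟩ := toric_aux gg h1 h2 hs₁ hs₂
  let Θ := nodAut Γ b R S.δ2 hfix
  have g1 : ∀ x : E, Θ.g₁ • x = gg (gg x) := by
    intro x
    change S.gE R S.δ2 • x = _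
    rw [gE_sq Γ hR]
    rfl
  have g2 : ∀ x : E, Θ.g₂ • x = gg (gg x) := g1
  obtain ⟨x, hx⟩ := NodAut.frob_toric' (S.ng_hspan b) H hA hrank Θ rfl
    (Q := q * q) (by
      intro z
      change R.σb z = _
      rw [hR, RingAut.mul_apply, frobeniusEquiv_apply, frobeniusEquiv_apply, frobenius_def,
        frobenius_def, ← pow_mul])
    hm (f := f') hW h1 h2 (by rw [g1]; exact t1) (by rw [g2]; exact t2) (by
      intro v
      rw [hf', v.ord_mul hf (pow_ne_zero _ hg), ord_pow]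
      exact dvd_add (hD v) (dvd_mul_right _ _))
  have hx' : x ^ m = gF Γ R S.δ2 • (gF Γ R S.δ2 • f' / f') /
      (gF Γ R S.δ2 • f' / f') ^ (q * q) := hx
  have hid := frob_identity (SemilinearAut.toRingAut (gF Γ R S.δ2) : Fq ≃+* Fq).toRingHom hf hg m
    (q * q)
  have hid' : gF Γ R S.δ2 • (gF Γ R S.δ2 • f' / f') / (gF Γ R S.δ2 • f' / f') ^ (q * q) =
      (gF Γ R S.δ2 • (gF Γ R S.δ2 • f) * f ^ (q * q) / (gF Γ R S.δ2 • f) ^ (q * q + 1)) *
      (gF Γ R S.δ2 • (gF Γ R S.δ2 • g / g) / (gF Γ R S.δ2 • g / g) ^ (q * q)) ^ m := hid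
  rw [hid'] at hx'
  set θ := gF Γ R S.δ2 with hθ
  have hne : θ • (θ • g / g) / (θ • g / g) ^ (q * q) ≠ 0 := by
    have e1 : θ • g ≠ 0 := (smul_ne_zero_iff_ne θ).2 hg
    exact div_ne_zero ((smul_ne_zero_iff_ne θ).2 (div_ne_zero e1 hg))
      (pow_ne_zero _ (div_ne_zero e1 hg))
  refine ⟨x / (θ • (θ • g / g) / (θ • g / g) ^ (q * q)), ?_⟩
  rw [div_pow, hx', mul_div_cancel_right₀ _ (pow_ne_zero _ hne)]

end SSD

end Fermat.Agent.SSH
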