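import Fermat.Agent.SSH.Gal

/-!
# The Frobenius model of a semistable structure
-/

set_option autoImplicit false
set_option linter.style.haveILetI false
set_option linter.unusedSectionVars false

noncomputable section

namespace Fermat.Agent.SSH

open ModularCurve Polynomial IntermediateField Fermat.Agent.ModPoly Fermat.Agent.Red
  Fermat.Agent.RedMod Fermat.Agent.Cov Fermat.Agent.SemiSt AlgebraicCurve Fermat.Agent.Nod
  Fermat.Agent.Curve Fermat.Agent.RR

section Lift

variable {A K k : Type*} [CommRing A] [IsDomain A] [ValuationRing A]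
  [Field K] [IsAlgClosed K] [Algebra A K] [IsFractionRing A K]
  [Field k] [IsAlgClosed k] [Algebra A k]
  {FM : IntermediateField K (LaurentSeries K)} {E : IntermediateField k (LaurentSeries k)}
  {ι : Type*} [Fintype ι] {y : ι → LaurentSeries ℤ} {G : GP A FM E y}
  [FunField k E] [FunField K FM]

/-- Lifting functions with bounded poles at the cusps. -/
theorem exists_lift (S : SP G) (hgen : rrGenus k E = rrGenus K FM) :
    ∃ n₀ : ℕ, ∀ n, n₀ ≤ n →
      ∀ c ∈ riemannRochSpace (n • poleDiv k (⟨jqModC k, G.jk⟩ : E)),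
      ∃ x : FM, LR A (x : LaurentSeries K) (c : LaurentSeries k) ∧
        x ∈ riemannRochSpace (DD K (⟨jqModC K, G.jK⟩ : FM) n 0) := by
  letI := algA A FM
  haveI := tower_algA A FM
  letI := algA A E
  haveI := tower_algA A E
  have H := fibreHypG S
  rw [hgen] at H
  obtain ⟨n₀, h0⟩ := Spec.rd_eq_LL H
  refine ⟨n₀, fun n hn c hc => ?_⟩
  have h1 := h0 n 0 (by omega)
  have h2 : c ∈ LL (poleDiv k (⟨jqModC k, G.jk⟩ : E)) (zeroDiv k (⟨jqModC k, G.jk⟩ : E)) 0 n 0 := by
    rw [LL, zero_smul, add_zero, add_zero]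
    exact hc
  rw [← h1] at h2
  obtain ⟨x, hx, h3⟩ := h2
  refine ⟨x, ⟨hx.1, ?_⟩, ?_⟩
  · rw [← h3]
    rfl
  · have h4 := hx.2
    rw [LL, zero_smul, add_zero, add_zero] at h4
    rw [DD, zero_smul, add_zero]
    exact h4

end Lift

variable {A K k : Type*} [CommRing A] [IsDomain A] [ValuationRing A]
  [Field K] [IsAlgClosed K] [CharZero K] [Algebra A K] [IsFractionRing A K]
  [Field k] [IsAlgClosed k] [Algebra A k]
  {FM Fq : IntermediateField K (LaurentSeries K)} {E : IntermediateField k (LaurentSeries k)}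
  {ι : Type*} [Fintype ι] {y : ι → LaurentSeries ℤ} {q : ℕ} [hq : Fact q.Prime]
  (S : SSD A FM Fq E y q) [CharP k q]

/-- poles of `j` and `j(q τ)` -/
structure SSD.Pol : Prop where
  cases : ∀ v : Place K Fq, v.ord S.jq < 0 → (v.ord S.jq = q * v.ord (S.be S.jM)) ∨
    (v.ord (S.be S.jM) = q * v.ord S.jq ∧
      Ge v (((q : ℤ) - 1) * v.ord S.jq) (S.jq ^ q - S.be S.jM))
  reg : ∀ v : Place K Fq, 0 ≤ v.ord S.jq → 0 ≤ v.ord (S.be S.jM)

namespace SSD

variable [FunField k E] [FunField K FM] [FunField K Fq]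

theorem trans_jM : Transcendental K S.jM := transcendental_of FM S.G.jK

theorem trans_jq : Transcendental K S.jq := transcendental_of Fq (S.hle S.G.jK)

theorem reg_inc {x : FM} (hx : Reg K S.jM x) : Reg K S.jq (S.inc x) := by
  have h := reg_map S.inc S.trans_jM hx
  rw [inc_jM] at h
  exact h

theorem mem_L_inc {x : FM} {n : ℕ} (hx : x ∈ riemannRochSpace (DD K S.jM n 0)) :
    S.inc x ∈ riemannRochSpace (DD K S.jq n 0) := by
  rw [mem_DD_iff S.trans_jM, pow_zero, one_mul] at hx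
  rw [mem_DD_iff S.trans_jq, pow_zero, one_mul]
  refine ⟨S.reg_inc hx.1, ?_⟩
  have := reg_map S.inc (RR.transcendental_inv S.trans_jM) hx.2
  rwa [map_mul, map_pow, map_inv₀, inc_jM] at this

variable {S} (P : S.Pol)

include P in
theorem reg_be {x : FM} (hx : Reg K S.jM x) : Reg K S.jq (S.be x) := by
  have := reg_map S.be S.trans_jM hx
  intro v hv
  exact this v (P.reg v hv)

/-- poles of `x(q τ)` -/
theorem ge_be {x : FM} {n : ℕ} (hx : x ∈ riemannRochSpace (DD K S.jM n 0))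
    {v : Place K Fq} (hv : v.ord (S.be S.jM) < 0) :
    Ge v (n * v.ord (S.be S.jM)) (S.be x) := by
  rw [mem_DD_iff S.trans_jM] at hx
  have h := reg_map S.be (RR.transcendental_inv S.trans_jM) hx.2
  have h1 := h v (by rw [map_inv₀, v.ord_inv]; linarith)
  rw [map_mul, map_pow, map_inv₀] at h1
  have h0 : S.be S.jM ≠ 0 := by
    intro h0
    rw [h0, v.ord_zero] at hv
    exact lt_irrefl _ hv
  have h2 := (Ge.of_le (le_refl (v.ord (S.be S.jM ^ n)))).mul h1
  rw [← mul_assoc, ← mul_pow, mul_inv_cancel₀ h0, one_pow, one_mul, ord_pow, add_zero] at h2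
  exact h2

include P in
/-- poles of the elements used to generate the functions supported on the second component -/
theorem mem_L_key {x : FM} {n m : ℕ} (hnm : q * q * n ≤ m)
    (hx : x ∈ riemannRochSpace (DD K S.jM (q * n) 0)) :
    S.be x * (S.jq ^ q - S.be S.jM) ^ m ∈ riemannRochSpace (DD K S.jq (n + m * q) 0) := by
  have hq1 : (1 : ℤ) ≤ q := by exact_mod_cast hq.out.one_lt.le
  have hnm' : (q : ℤ) * q * n ≤ m := by exact_mod_cast hnm
  have hn0 : (0 : ℤ) ≤ n := by positivity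
  have hm0 : (0 : ℤ) ≤ m := by positivity
  rw [mem_L_DD_zero]
  constructor
  · intro v hv
    have h1 : Ge v 0 (S.jq ^ q) := ge_zero_pow (Ge.of_le hv) q
    have h2 : Ge v 0 (S.be S.jM) := Ge.of_le (P.reg v hv)
    have h3 := (reg_be P (reg_of_mem_DD hx) v hv).mul (ge_zero_pow (h1.sub h2) m)
    rwa [add_zero] at h3
  · intro v hv
    rcases P.cases v hv with h1 | ⟨h1, h2⟩
    · have hv' : v.ord (S.be S.jM) < 0 := by
        by_contra hcon
        push Not at hcon
        nlinarith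
      have h3 := ge_be hx hv'
      have h4 : Ge v (q * v.ord S.jq) (S.jq ^ q) := by
        apply Ge.of_le
        rw [ord_pow]
      have h5 : Ge v (q * v.ord S.jq) (S.be S.jM) := by
        apply Ge.of_le
        rw [h1]
        nlinarith
      have h6 := h3.mul ((h4.sub h5).pow m)
      refine h6.mono ?_
      rw [h1]
      push_cast
      nlinarith
    · have hv' : v.ord (S.be S.jM) < 0 := by
        rw [h1]
        nlinarith
      have h3 := ge_be hx hv'
      have h6 := h3.mul (h2.pow m)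
      refine h6.mono ?_
      rw [h1]
      push_cast
      nlinarith

variable (S)
variable [Algebra A Fq] [IsScalarTower A K Fq] [Algebra A E] [IsScalarTower A k E]

/-- the translated Gauss data -/
def ng (b : A) : GaussData A K Fq k (E × E) (ι ⊕ (ι × Fin q)) := shift S.sgauss b

theorem ng_W (b : A) : (S.ng b).W = S.WW := rfl

theorem ng_t (b : A) : (S.ng b).t = S.jq - algebraMap K Fq (algebraMap A K b) := by
  rw [← IsScalarTower.algebraMap_apply A K Fq]
  rfl

theorem ng_π (b : A) (x : Fq) (hx : x ∈ S.WW) : (S.ng b).π ⟨x, hx⟩ = S.sred ⟨x, hx⟩ := rfl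

theorem ng_tb (b : A) : tb (S.ng b) = (S.jE - algebraMap k E (algebraMap A k b),
    S.jE ^ q - algebraMap k E (algebraMap A k b)) := by
  refine (shift_πt S.sgauss b).trans ?_
  rw [sgauss_πt]
  rfl

theorem ng_hspan (b : A) (x : Fq) : ∃ P : K[X], P ≠ 0 ∧
    ∃ Q : ι ⊕ (ι × Fin q) → K[X], aeval (S.ng b).t P * x = (S.ng b).comb Q :=
  shift_hspan _ S.sgauss_span b x

theorem ng_trans (b : A) : Transcendental K (S.ng b).t := by
  haveI := S.nonempty_ι'
  exact (S.ng b).transcendental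

theorem reg_ng (b : A) {x : Fq} : Reg K (S.ng b).t x ↔ Reg K S.jq x := by
  rw [ng_t]
  exact reg_sub_const _

theorem DD_ng (b : A) (n : ℕ) : DD K (S.ng b).t n 0 = DD K S.jq n 0 := by
  rw [ng_t]
  exact DD_sub_const _ _ n

theorem mem_BB_ng (b : A) {x : Fq} (hx : x ∈ S.WW) (hr : Reg K S.jq x) :
    S.sred ⟨x, hx⟩ ∈ BB (S.ng b) S.G.hk (S.ng b).t := by
  refine ⟨x, hx, ?_, rfl⟩
  rw [← reg_iff_isIntegralElem (S.ng_trans b)]
  exact (S.reg_ng b).2 hr

variable [Nonempty (ι ⊕ (ι × Fin q))]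

theorem mem_RS_ng (b : A) {x : Fq} {n : ℕ} (hx : x ∈ S.WW)
    (hr : x ∈ riemannRochSpace (DD K S.jq n 0)) :
    S.sred ⟨x, hx⟩ ∈ RS (S.ng b) S.G.hk (S.ng_hspan b) n 0 := by
  rw [mem_RS]
  refine ⟨x, hx, ?_, rfl⟩
  rw [DD_ng]
  exact hr

variable [PerfectRing k q]

omit [FunField k E] [FunField K FM] [FunField K Fq] [Nonempty (ι ⊕ (ι × Fin q))] in
theorem hasRed_dd : S.HasRed (S.jq ^ q - S.be S.jM) (0 : E) (S.fd.δ : E) := by
  have h1 := (hasRed_jq (S := S)).pow q
  have h2 := hasRed_be (S := S) (x := S.jM) (a := S.jE) LR.jq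
  have h3 := h1.sub h2
  rw [sg_jE] at h3
  have e1 : jqModC k ^ q - ((S.jE ^ q : E) : LaurentSeries k) = ((0 : E) : LaurentSeries k) := by
    have : ((S.jE ^ q : E) : LaurentSeries k) = jqModC k ^ q := rfl
    rw [this, sub_self]
    rfl
  have e2 : (jqModC k ^ q) ^ q - (S.jE : LaurentSeries k) = (S.fd.δ : E) := by
    rw [FrobData.δ, fd_j, ← pow_mul]
    rfl
  rwa [e1, e2] at h3

omit [FunField k E] [FunField K FM] [FunField K Fq] [Nonempty (ι ⊕ (ι × Fin q))] in
theorem hasRed_mul_dd {x : FM} {c : E} (h : LR A (x : LaurentSeries K) (c : LaurentSeries k))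
    {m : ℕ} (hm : 1 ≤ m) : S.HasRed (S.be x * (S.jq ^ q - S.be S.jM) ^ m) (0 : E)
      ((c * S.fd.δ ^ m : E) : LaurentSeries k) := by
  have h1 := (hasRed_be (S := S) h).mul (S.hasRed_dd.pow m)
  have e : ((S.sg c : E) : LaurentSeries k) * ((0 : E) : LaurentSeries k) ^ m =
      ((0 : E) : LaurentSeries k) := by
    have : ((0 : E) : LaurentSeries k) = 0 := rfl
    rw [this, zero_pow (by omega), mul_zero]
  rw [e] at h1
  exact h1

variable {S}

include P in
/-- **the Frobenius model** of a semistable structure -/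
theorem frobModel (hS : SP S.G) (hgen : rrGenus k E = rrGenus K FM) (b : A)
    (hb : (algebraMap A k b) ^ (q * q) ≠ algebraMap A k b) :
    FrobModel (S.ng b) S.G.hk (S.ng_hspan b) S.fd := by
  obtain ⟨n₀, h0⟩ := exists_lift hS hgen
  have hlift : ∀ c, Reg k S.jE c → ∃ x : FM, LR A (x : LaurentSeries K) (c : LaurentSeries k) ∧
      Reg K S.jM x := by
    intro c hc
    obtain ⟨n, hn⟩ := exists_mem_DD (transcendental_of E S.G.jk) hc
    obtain ⟨x, h1, h3⟩ := h0 (max n n₀) (le_max_right _ _) c (by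
      have := L_mono (DD_mono (k := k) (S.jE) (le_max_left n n₀) (le_refl 0)) hn
      rw [DD, zero_smul, add_zero] at this
      exact this)
    exact ⟨x, h1, reg_of_mem_DD h3⟩
  refine ⟨⟨algebraMap A k b, hb, ?_⟩, ?_, ?_, ?_, ?_⟩
  · rw [ng_tb, fd_σ, fd_j, sg_jE]
  · intro c hc
    obtain ⟨x, h1, h3⟩ := hlift c hc
    have h4 := (hasRed_inc (S := S) h1).mem
    rw [fd_σ, ← S.sred_inc h1 h4]
    exact S.mem_BB_ng b h4 (S.reg_inc h3)
  · intro c hc
    obtain ⟨x, h1, h3⟩ := hlift c hc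
    have h4 := (hasRed_be (S := S) h1).mem
    rw [fd_σ, ← S.sred_be h1 h4]
    exact S.mem_BB_ng b h4 (reg_be P h3)
  · refine ⟨n₀, fun n hn c hc => ?_⟩
    obtain ⟨x, h1, h3⟩ := h0 n hn c hc
    have h4 := (hasRed_inc (S := S) h1).mem
    rw [fd_σ, ← S.sred_inc h1 h4]
    exact S.mem_RS_ng b h4 (S.mem_L_inc h3)
  · refine ⟨n₀, fun n m hn hm hnm c hc => ?_⟩
    obtain ⟨x, h1, h3⟩ := h0 (q * n) (by
      have := hq.out.one_lt
      nlinarith) c hc
    have h5 := S.hasRed_mul_dd h1 hm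
    have h6 := HasRed.sred (a := 0) (b := c * S.fd.δ ^ m) h5 h5.mem
    rw [← h6]
    exact S.mem_RS_ng b h5.mem (mem_L_key P hnm h3)

include P in
/-- **the nodal model** of a semistable structure -/
theorem nodMod_ng (hS : SP S.G) (hgen : rrGenus k E = rrGenus K FM) (b : A)
    (hb : (algebraMap A k b) ^ (q * q) ≠ algebraMap A k b) :
    NodMod (S.ng b) S.G.hk (S.ng_hspan b) S.fd.nodes :=
  (frobModel P hS hgen b hb).nodMod

end SSD

end Fermat.Agent.SSH
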