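import Fermat.Agent.SSH.Desc

/-!
# Semistable structures
-/

set_option autoImplicit false
set_option linter.style.haveILetI false
set_option linter.unusedSectionVars false

noncomputable section

namespace Fermat.Agent.SSH

open ModularCurve Polynomial IntermediateField Fermat.Agent.ModPoly Fermat.Agent.Red
  Fermat.Agent.RedMod Fermat.Agent.Cov Fermat.Agent.SemiSt

/-- stability under coefficientwise maps -/
def CStab {L : Type*} [Field L] (F : IntermediateField L (LaurentSeries L)) : Prop :=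
  ∀ (σ : L →+* L) {x : LaurentSeries L}, x ∈ F → coeffMap σ x ∈ F

section Def

variable (A : Type*) {K k : Type*} [CommRing A] [IsDomain A] [ValuationRing A]
  [Field K] [Algebra A K] [IsFractionRing A K] [Field k] [Algebra A k]
  (FM Fq : IntermediateField K (LaurentSeries K)) (E : IntermediateField k (LaurentSeries k))
  {ι : Type*} [Fintype ι] {y : ι → LaurentSeries ℤ}

variable {A FM E} in
/-- compatible automorphisms of `FM`, `Fq` and the special fibre -/
structure Dia (G : GP A FM E y) (hle : FM ≤ Fq) (w : Fq ≃ₐ[K] Fq) where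
  D : Fq ≃ₐ[K] Fq
  θ : FM ≃ₐ[K] FM
  θb : E ≃ₐ[k] E
  D_inc : ∀ x : FM, D (IntermediateField.inclusion hle x) = IntermediateField.inclusion hle (θ x)
  D_w : ∀ x, D (w x) = w (D x)
  θ_j : θ ⟨jqModC K, G.jK⟩ = ⟨jqModC K, G.jK⟩
  red : ∀ (x : FM) (h : (x : LaurentSeries K) ∈ WL A K k),
    ∃ h' : (θ x : LaurentSeries K) ∈ WL A K k,
      πL A K k ⟨θ x, h'⟩ = (θb ⟨πL A K k ⟨x, h⟩, G.πL_mem x⟩ : LaurentSeries k)
  red' : ∀ (x : FM) (h : (x : LaurentSeries K) ∈ WL A K k),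
    ∃ h' : (θ.symm x : LaurentSeries K) ∈ WL A K k,
      πL A K k ⟨θ.symm x, h'⟩ = (θb.symm ⟨πL A K k ⟨x, h⟩, G.πL_mem x⟩ : LaurentSeries k)

variable (y) in
/-- a semistable structure: fields `FM ≤ Fq` of Laurent series with an Atkin-Lehner involution -/
structure SSD (q : ℕ) [NeZero q] where
  G : GP A FM E y
  hle : FM ≤ Fq
  w : Fq ≃ₐ[K] Fq
  w_w : ∀ x, w (w x) = x
  δ : Dia Fq G hle w
  w_inc : ∀ x : FM, (w (IntermediateField.inclusion hle x) : LaurentSeries K) =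
    qExpand K q (δ.θ x : LaurentSeries K)
  E_exp : ∀ {x : LaurentSeries k}, x ∈ E → qExpand k q x ∈ E
  E_gal : CStab E
  finq : FiniteDimensional K⟮(⟨jqModC K, hle G.jK⟩ : Fq)⟯ Fq
  rkq : Module.finrank K⟮(⟨jqModC K, hle G.jK⟩ : Fq)⟯ Fq = Fintype.card ι * (q + 1)

end Def

namespace Dia

variable {A K k : Type*} [CommRing A] [IsDomain A] [ValuationRing A]
  [Field K] [Algebra A K] [IsFractionRing A K] [Field k] [Algebra A k]
  {FM Fq : IntermediateField K (LaurentSeries K)} {E : IntermediateField k (LaurentSeries k)}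
  {ι : Type*} [Fintype ι] {y : ι → LaurentSeries ℤ} {G : GP A FM E y} {hle : FM ≤ Fq}
  {w : Fq ≃ₐ[K] Fq}

/-- inverse -/
def symm (d : Dia Fq G hle w) : Dia Fq G hle w where
  D := d.D.symm
  θ := d.θ.symm
  θb := d.θb.symm
  D_inc x := by
    rw [AlgEquiv.symm_apply_eq, d.D_inc, AlgEquiv.apply_symm_apply]
  D_w x := by
    rw [AlgEquiv.symm_apply_eq, d.D_w, AlgEquiv.apply_symm_apply]
  θ_j := by rw [AlgEquiv.symm_apply_eq, d.θ_j]
  red := d.red'
  red' := d.red

/-- composition -/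
def mul (d d' : Dia Fq G hle w) : Dia Fq G hle w where
  D := d'.D.trans d.D
  θ := d'.θ.trans d.θ
  θb := d'.θb.trans d.θb
  D_inc x := by
    rw [AlgEquiv.trans_apply, d'.D_inc, d.D_inc]
    rfl
  D_w x := by
    rw [AlgEquiv.trans_apply, d'.D_w, d.D_w]
    rfl
  θ_j := by rw [AlgEquiv.trans_apply, d'.θ_j, d.θ_j]
  red x h := by
    obtain ⟨h1, h2⟩ := d'.red x h
    obtain ⟨h3, h4⟩ := d.red (d'.θ x) h1
    refine ⟨h3, h4.trans ?_⟩
    rw [AlgEquiv.trans_apply]
    congr 2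
    exact Subtype.ext h2
  red' x h := by
    obtain ⟨h1, h2⟩ := d.red' x h
    obtain ⟨h3, h4⟩ := d'.red' (d.θ.symm x) h1
    refine ⟨h3, h4.trans ?_⟩
    rw [AlgEquiv.symm_trans_apply]
    congr 2
    exact Subtype.ext h2

end Dia

section LR

variable {A K k : Type*} [CommRing A] [IsDomain A] [ValuationRing A]
  [Field K] [Algebra A K] [IsFractionRing A K] [Field k] [Algebra A k]

theorem πL_congr {x x' : LaurentSeries K} (e : x = x') (h : x ∈ WL A K k) (h' : x' ∈ WL A K k) :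
    πL A K k ⟨x, h⟩ = πL A K k ⟨x', h'⟩ := by
  subst e; rfl

variable (A) in
/-- `x` is integral with reduction `a` -/
def LR (x : LaurentSeries K) (a : LaurentSeries k) : Prop :=
  ∃ h : x ∈ WL A K k, πL A K k ⟨x, h⟩ = a

theorem LR.of_eq {x x' : LaurentSeries K} {a a' : LaurentSeries k} (h : LR A x a) (e : x = x')
    (e' : a = a') : LR A x' a' := by subst e e'; exact h

theorem LR.unique {x : LaurentSeries K} {a a' : LaurentSeries k} (h : LR A x a) (h' : LR A x a') :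
    a = a' := h.2.symm.trans h'.2

theorem LR.mul {x x' : LaurentSeries K} {a a' : LaurentSeries k} (h : LR A x a)
    (h' : LR A x' a') : LR A (x * x') (a * a') := by
  obtain ⟨h1, rfl⟩ := h
  obtain ⟨g1, rfl⟩ := h'
  refine ⟨mul_mem h1 g1, ?_⟩
  have e : (⟨x * x', mul_mem h1 g1⟩ : WL A K k) = ⟨x, h1⟩ * ⟨x', g1⟩ := Subtype.ext rfl
  rw [e, map_mul]

theorem LR.add {x x' : LaurentSeries K} {a a' : LaurentSeries k} (h : LR A x a)
    (h' : LR A x' a') : LR A (x + x') (a + a') := by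
  obtain ⟨h1, rfl⟩ := h
  obtain ⟨g1, rfl⟩ := h'
  refine ⟨add_mem h1 g1, ?_⟩
  have e : (⟨x + x', add_mem h1 g1⟩ : WL A K k) = ⟨x, h1⟩ + ⟨x', g1⟩ := Subtype.ext rfl
  rw [e, map_add]

theorem LR.sub {x x' : LaurentSeries K} {a a' : LaurentSeries k} (h : LR A x a)
    (h' : LR A x' a') : LR A (x - x') (a - a') := by
  obtain ⟨h1, rfl⟩ := h
  obtain ⟨g1, rfl⟩ := h'
  refine ⟨sub_mem h1 g1, ?_⟩
  have e : (⟨x - x', sub_mem h1 g1⟩ : WL A K k) = ⟨x, h1⟩ - ⟨x', g1⟩ := Subtype.ext rfl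
  rw [e, map_sub]

theorem LR.pow {x : LaurentSeries K} {a : LaurentSeries k} (h : LR A x a) (n : ℕ) :
    LR A (x ^ n) (a ^ n) := by
  obtain ⟨h1, rfl⟩ := h
  refine ⟨pow_mem h1 n, ?_⟩
  have e : (⟨x ^ n, pow_mem h1 n⟩ : WL A K k) = ⟨x, h1⟩ ^ n := Subtype.ext rfl
  rw [e, map_pow]

theorem LR.const (a : A) :
    LR A (HahnSeries.C (algebraMap A K a)) (HahnSeries.C (algebraMap A k a) : LaurentSeries k) :=
  ⟨const_mem_WL a, πL_const a _⟩

theorem LR.exp {q : ℕ} [NeZero q] {x : LaurentSeries K} {a : LaurentSeries k} (h : LR A x a) :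
    LR A (qExpand K q x) (qExpand k q a) := by
  obtain ⟨h1, rfl⟩ := h
  exact ⟨qExpand_mem_WL h1, πL_qExpand h1 _⟩

theorem LR.jq : LR A (jqModC K) (jqModC k) := by
  have h : incL A K (jqModC A) ∈ WL A K k := incL_mem _
  refine LR.of_eq ⟨h, πL_incL _ h⟩ (coeffMap_jqModC (algebraMap A K)) (coeffMap_jqModC _)

theorem LR.cst (z : LaurentSeries ℤ) : LR A (Fermat.Agent.ModPoly.cst K z)
    (Fermat.Agent.ModPoly.cst k z) := by
  have h : incL A K (Fermat.Agent.ModPoly.cst A z) ∈ WL A K k := incL_mem _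
  refine LR.of_eq ⟨h, πL_incL _ h⟩ (coeffMap_cst (algebraMap A K) z) (coeffMap_cst _ z)

end LR

section Main

variable {A K k : Type*} [CommRing A] [IsDomain A] [ValuationRing A]
  [Field K] [Algebra A K] [IsFractionRing A K] [Field k] [Algebra A k]
  {FM Fq : IntermediateField K (LaurentSeries K)} {E : IntermediateField k (LaurentSeries k)}
  {ι : Type*} [Fintype ι] {y : ι → LaurentSeries ℤ} {q : ℕ} [hq : Fact q.Prime]
  (S : SSD A FM Fq E y q)

namespace SSD

/-- the inclusion -/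
def inc : FM →ₐ[K] Fq := IntermediateField.inclusion S.hle

theorem coe_inc (x : FM) : (S.inc x : LaurentSeries K) = x := rfl

/-- `j` at level `M` -/
def jM : FM := ⟨jqModC K, S.G.jK⟩

/-- `j` at level `q M` -/
def jq : Fq := ⟨jqModC K, S.hle S.G.jK⟩

/-- `j` on the special fibre -/
def jE : E := ⟨jqModC k, S.G.jk⟩

theorem coe_jM : (S.jM : LaurentSeries K) = jqModC K := rfl

theorem coe_jq : (S.jq : LaurentSeries K) = jqModC K := rfl

theorem coe_jE : (S.jE : LaurentSeries k) = jqModC k := rfl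

theorem inc_jM : S.inc S.jM = S.jq := rfl

/-- the second degeneracy map -/
def be : FM →ₐ[K] Fq := (S.w : Fq →ₐ[K] Fq).comp S.inc

theorem be_apply (x : FM) : S.be x = S.w (S.inc x) := rfl

theorem coe_be (x : FM) : (S.be x : LaurentSeries K) = qExpand K q (S.δ.θ x : LaurentSeries K) :=
  S.w_inc x

theorem w_be (x : FM) : S.w (S.be x) = S.inc x := S.w_w _

theorem θ_jM : S.δ.θ S.jM = S.jM := S.δ.θ_j

theorem coe_be_jM : (S.be S.jM : LaurentSeries K) = qExpand K q (jqModC K) := by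
  rw [coe_be, θ_jM, coe_jM]

theorem D_be (x : FM) : S.δ.D (S.be x) = S.be (S.δ.θ x) := by
  rw [be_apply, S.δ.D_w, be_apply]
  congr 1
  exact S.δ.D_inc x

/-- the function `j - j(q^q)^q` -/
def uu : Fq := S.jq - S.be S.jM ^ q

theorem coe_uu : (S.uu : LaurentSeries K) = jqModC K - qExpand K q (jqModC K) ^ q := by
  rw [← S.coe_be_jM]
  rfl

theorem map_w_add (x x' : Fq) : S.w (x + x') = S.w x + S.w x' :=
  S.w.toRingEquiv.toRingHom.map_add x x'

theorem map_w_sub (x x' : Fq) : S.w (x - x') = S.w x - S.w x' :=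
  S.w.toRingEquiv.toRingHom.map_sub x x'

theorem w_uu : S.w S.uu = S.be S.jM - S.jq ^ q := by
  rw [uu, map_w_sub, map_pow, w_be, ← inc_jM, be_apply]

theorem coe_w_uu : (S.w S.uu : LaurentSeries K) = qExpand K q (jqModC K) - jqModC K ^ q := by
  rw [w_uu, ← S.coe_be_jM]
  rfl

/-! ### reductions -/

theorem coe_w_mul (x x' : Fq) :
    (S.w (x * x') : LaurentSeries K) = (S.w x : LaurentSeries K) * S.w x' := by
  rw [map_mul]; rfl

theorem coe_w_add (x x' : Fq) :
    (S.w (x + x') : LaurentSeries K) = (S.w x : LaurentSeries K) + S.w x' := by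
  rw [map_w_add]; rfl

theorem coe_w_sub (x x' : Fq) :
    (S.w (x - x') : LaurentSeries K) = (S.w x : LaurentSeries K) - S.w x' := by
  rw [map_w_sub]; rfl

theorem coe_w_pow (x : Fq) (n : ℕ) :
    (S.w (x ^ n) : LaurentSeries K) = (S.w x : LaurentSeries K) ^ n := by
  rw [map_pow]; rfl

theorem coe_algebraMap (c : K) :
    ((algebraMap K Fq c : Fq) : LaurentSeries K) = HahnSeries.C c := by
  rw [← algebraMap_eq_C]
  rfl

theorem coe_w_algebraMap (c : K) :
    (S.w (algebraMap K Fq c) : LaurentSeries K) = HahnSeries.C c := by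
  rw [AlgEquiv.commutes, coe_algebraMap]

/-- reductions of both expansions -/
def HasRed (x : Fq) (a b : LaurentSeries k) : Prop :=
  LR A (x : LaurentSeries K) a ∧ LR A (S.w x : LaurentSeries K) b

variable {S}

theorem HasRed.mul {x x' : Fq} {a b a' b' : LaurentSeries k} (h : S.HasRed x a b)
    (h' : S.HasRed x' a' b') : S.HasRed (x * x') (a * a') (b * b') :=
  ⟨h.1.mul h'.1, (h.2.mul h'.2).of_eq (S.coe_w_mul x x').symm rfl⟩

theorem HasRed.add {x x' : Fq} {a b a' b' : LaurentSeries k} (h : S.HasRed x a b)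
    (h' : S.HasRed x' a' b') : S.HasRed (x + x') (a + a') (b + b') :=
  ⟨h.1.add h'.1, (h.2.add h'.2).of_eq (S.coe_w_add x x').symm rfl⟩

theorem HasRed.sub {x x' : Fq} {a b a' b' : LaurentSeries k} (h : S.HasRed x a b)
    (h' : S.HasRed x' a' b') : S.HasRed (x - x') (a - a') (b - b') :=
  ⟨h.1.sub h'.1, (h.2.sub h'.2).of_eq (S.coe_w_sub x x').symm rfl⟩

theorem HasRed.pow {x : Fq} {a b : LaurentSeries k} (h : S.HasRed x a b) (n : ℕ) :
    S.HasRed (x ^ n) (a ^ n) (b ^ n) :=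
  ⟨h.1.pow n, (h.2.pow n).of_eq (S.coe_w_pow x n).symm rfl⟩

theorem HasRed.w {x : Fq} {a b : LaurentSeries k} (h : S.HasRed x a b) :
    S.HasRed (S.w x) b a :=
  ⟨h.2, by rw [S.w_w]; exact h.1⟩

theorem HasRed.const (a : A) : S.HasRed (algebraMap K Fq (algebraMap A K a))
    (HahnSeries.C (algebraMap A k a)) (HahnSeries.C (algebraMap A k a)) :=
  ⟨(LR.const a).of_eq (coe_algebraMap _).symm rfl,
    (LR.const a).of_eq (S.coe_w_algebraMap _).symm rfl⟩

/-- reduction of `θ` -/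
theorem LR.dia {G : GP A FM E y} {hle : FM ≤ Fq} {w : Fq ≃ₐ[K] Fq} (d : Dia Fq G hle w) {x : FM}
    {a : E} (h : LR A (x : LaurentSeries K) (a : LaurentSeries k)) :
    LR A (d.θ x : LaurentSeries K) (d.θb a : LaurentSeries k) := by
  obtain ⟨h1, h2⟩ := h
  obtain ⟨h3, h4⟩ := d.red x h1
  refine ⟨h3, h4.trans ?_⟩
  congr 2
  exact Subtype.ext h2

/-- elements of level `M` -/
theorem HasRed.inc {x : FM} {a : E} (h : LR A (x : LaurentSeries K) (a : LaurentSeries k)) :
    S.HasRed (S.inc x) a (qExpand k q (S.δ.θb a : LaurentSeries k)) :=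
  ⟨h, ((LR.dia S.δ h).exp).of_eq (S.w_inc x).symm rfl⟩

theorem θb_j {G : GP A FM E y} {hle : FM ≤ Fq} {w : Fq ≃ₐ[K] Fq} (d : Dia Fq G hle w) :
    d.θb ⟨jqModC k, G.jk⟩ = ⟨jqModC k, G.jk⟩ := by
  have h1 := LR.dia d (x := ⟨jqModC K, G.jK⟩) (a := ⟨jqModC k, G.jk⟩) LR.jq
  rw [d.θ_j] at h1
  exact Subtype.ext (h1.unique LR.jq)

theorem θb_jE : S.δ.θb S.jE = S.jE := θb_j S.δ

theorem hasRed_jq [CharP k q] : S.HasRed S.jq (jqModC k) (jqModC k ^ q) := by
  have h := HasRed.inc (S := S) (x := S.jM) (a := S.jE) LR.jq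
  rw [θb_jE, coe_jE, qExpand_jqModC] at h
  exact h

theorem hasRed_uu [CharP k q] : S.HasRed S.uu (ub k q) 0 := by
  have h := (hasRed_jq (S := S)).sub (((hasRed_jq (S := S)).w).pow q)
  rw [← pow_mul, sub_self] at h
  exact h

theorem hasRed_cst (i : ι) : S.HasRed (S.inc ⟨cst K (y i), S.G.yK i⟩) (cst k (y i))
    (qExpand k q (S.δ.θb ⟨cst k (y i), S.G.yk i⟩ : LaurentSeries k)) :=
  HasRed.inc (S := S) (a := ⟨cst k (y i), S.G.yk i⟩) (LR.cst (y i))

variable (S) in
/-- the family of generators -/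
def yy : ι ⊕ (ι × Fin q) → Fq
  | Sum.inl i => S.uu * S.inc ⟨cst K (y i), S.G.yK i⟩
  | Sum.inr (i, a) => S.w (S.uu * S.inc ⟨cst K (y i), S.G.yK i⟩ * S.jq ^ (a : ℕ))

variable (k q y) in
/-- reductions of the generators -/
def yr : ι ⊕ (ι × Fin q) → LaurentSeries k × LaurentSeries k :=
  Sum.elim (fun i => (ub k q * cst k (y i), 0))
    (fun x => (0, ub k q * cst k (y x.1) * jqModC k ^ (x.2 : ℕ)))

theorem hasRed_y [CharP k q] (i : ι ⊕ (ι × Fin q)) :
    S.HasRed (S.yy i) (yr k y q i).1 (yr k y q i).2 := by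
  rcases i with i | ⟨i, a⟩
  · have := hasRed_uu.mul (hasRed_cst (S := S) i)
    rw [zero_mul] at this
    exact this
  · have := ((hasRed_uu.mul (hasRed_cst (S := S) i)).mul (hasRed_jq.pow a)).w
    rw [zero_mul, zero_mul] at this
    exact this

/-- independence of the reductions -/
theorem indep_aux [CharP k q] (hy : LIZ k y) (P : ι ⊕ (ι × Fin q) → k[X])
    (h : ∑ i, aeval ((jqModC k, jqModC k ^ q) : LaurentSeries k × LaurentSeries k) (P i) *
      yr k y q i = 0) : P = 0 := by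
  rw [Fintype.sum_sum_type] at h
  simp only [SemiSt.aeval_prod, yr, Sum.elim_inl, Sum.elim_inr, Prod.mk_mul_mk, mul_zero] at h
  have h1 := congrArg Prod.fst h
  have h2 := congrArg Prod.snd h
  simp only [Prod.fst_add, Prod.snd_add, Prod.fst_sum, Prod.snd_sum, Finset.sum_const_zero,
    add_zero, zero_add, Prod.fst_zero, Prod.snd_zero] at h1 h2
  have hub := ub_ne_zero (k := k) (q := q)
  funext i
  rcases i with i | ⟨i, a⟩
  · refine hy (fun i => P (Sum.inl i)) ?_ i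
    apply mul_left_cancel₀ hub
    rw [mul_zero, ← h1, Finset.mul_sum]
    refine Finset.sum_congr rfl fun i _ => ?_
    rw [evT_eq_aeval]
    ring
  · have h3 : ∀ i, ∑ a, expand k q (P (Sum.inr (i, a))) * X ^ (a : ℕ) = 0 := by
      refine hy (fun i => ∑ a, expand k q (P (Sum.inr (i, a))) * X ^ (a : ℕ)) ?_
      apply mul_left_cancel₀ hub
      rw [mul_zero, ← h2, Finset.mul_sum, Fintype.sum_prod_type]
      refine Finset.sum_congr rfl fun i _ => ?_
      rw [evT_eq_aeval, map_sum, Finset.sum_mul, Finset.mul_sum]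
      refine Finset.sum_congr rfl fun a _ => ?_
      rw [map_mul, map_pow, aeval_X, expand_aeval]
      ring
    exact eq_zero_of_sum_expand hq.out.pos _ (h3 i) a

end SSD

end Main

end Fermat.Agent.SSH
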