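import Fermat.Agent.SSH.CommQ

/-!
# Existence of the involution when `H` has odd index
-/

set_option autoImplicit false

namespace Fermat.Agent.SSH

/-- the involution exists if `H` has odd index -/
theorem exists_WData_of_odd {q M : ℕ} [NeZero q] [NeZero M] {H : Subgroup (ZMod M)ˣ}
    (hco : q.Coprime M) (hodd : Odd H.index) : Nonempty (WData q M H) := by
  refine exists_WData hco ?_
  obtain ⟨n, hn⟩ := hodd
  refine ⟨ZMod.unitOfCoprime q hco ^ n, ?_⟩
  have h1 : ZMod.unitOfCoprime q hco * (ZMod.unitOfCoprime q hco ^ n) ^ 2 =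
      ZMod.unitOfCoprime q hco ^ H.index := by
    rw [hn, ← pow_mul, pow_succ, mul_comm n 2, mul_comm]
  rw [h1]
  exact Subgroup.pow_index_mem H _

end Fermat.Agent.SSH
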