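import Fermat.Agent.Cov.Good
import Fermat.Agent.SemiSt.Norm
import Fermat.Agent.Nod.Modular

/-!
# Homomorphisms of fields with Gauss data, and their reductions
-/

set_option autoImplicit false
set_option linter.style.haveILetI false
set_option linter.unusedSectionVars false

noncomputable section

namespace Fermat.Agent.SSH

open ModularCurve Polynomial IntermediateField Fermat.Agent.ModPoly Fermat.Agent.Red
  Fermat.Agent.RedMod Fermat.Agent.Cov

section Hom

variable {A K F F' k R R' : Type*} [CommRing A] [IsDomain A] [ValuationRing A]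
  [Field K] [Algebra A K] [IsFractionRing A K] [Field F] [Algebra K F] [Algebra A F]
  [IsScalarTower A K F] [Field F'] [Algebra K F'] [Algebra A F']
  [IsScalarTower A K F'] [Field k] [Algebra A k] [CommRing R] [Algebra k R] [Algebra A R]
  [IsScalarTower A k R] [CommRing R'] [Algebra k R'] [Algebra A R']
  [IsScalarTower A k R'] {ι : Type*} [Fintype ι] (G : GaussData A K F k R ι)
  (hk : Function.Surjective (algebraMap A k))
  (hspan : ∀ x : F, ∃ q : K[X], q ≠ 0 ∧ ∃ P : ι → K[X], aeval G.t q * x = G.comb P)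

include hk hspan in
/-- integral representation of the elements of `W` -/
theorem exists_repr {x : F} (hx : x ∈ G.W) : ∃ q : A[X], q.map (algebraMap A k) ≠ 0 ∧
    ∃ Q : ι → A[X], aeval (⟨G.t, G.ht⟩ : G.W) q * ⟨x, hx⟩ = G.combW Q := by
  obtain ⟨q, hq, P, hP⟩ := G.exists_primitive_repr hspan x
  obtain ⟨Q, hQ⟩ := G.exists_of_mem hk hx hq hP
  have hP' : P = fun i => (Q i).map (algebraMap A K) := funext hQ
  refine ⟨q, hq, Q, ?_⟩
  apply Subtype.ext
  rw [MulMemClass.coe_mul, G.coe_aeval, G.coe_combW, hP, hP']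

variable (W' : Subalgebra A F') (π' : W' →ₐ[A] R') (hu : ∀ x : W', IsUnit (π' x) → IsUnit x)
  (φ : F →ₐ[K] F')

/-- `φ` is linear over `A` -/
theorem map_algA (a : A) : φ (algebraMap A F a) = algebraMap A F' a := by
  rw [IsScalarTower.algebraMap_apply A K F, AlgHom.commutes,
    ← IsScalarTower.algebraMap_apply A K F']

theorem map_aeval (x : F) (q : A[X]) : φ (aeval x q) = aeval (φ x) q := by
  rw [aeval_def, aeval_def]
  refine (hom_eval₂ q (algebraMap A F) φ.toRingHom x).trans ?_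
  have e : φ.toRingHom.comp (algebraMap A F) = algebraMap A F' :=
    RingHom.ext fun a => map_algA φ a
  rw [e]
  rfl

include hk hspan in
theorem hom_mem₀ (ht : ∀ q : A[X], q.map (algebraMap A k) ≠ 0 → ∃ u ∈ W', aeval (φ G.t) q * u = 1)
    (ht' : φ G.t ∈ W') (hy : ∀ i, φ (G.y i) ∈ W') {x : F} (hx : x ∈ G.W) : φ x ∈ W' := by
  obtain ⟨q, hq, Q, hQ⟩ := exists_repr G hk hspan hx
  obtain ⟨u, hu, hu'⟩ := ht q hq
  have h1 := congrArg (fun z : G.W => φ (z : F)) hQ
  simp only [MulMemClass.coe_mul, G.coe_aeval, map_mul, map_aeval] at h1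
  have h2 : φ x = u * φ (G.combW Q : F) := by
    rw [← h1]
    linear_combination (-φ x) * hu'
  rw [h2]
  refine mul_mem hu ?_
  rw [GaussData.combW]
  push_cast
  rw [map_sum]
  refine sum_mem fun i _ => ?_
  rw [map_mul, map_aeval]
  refine mul_mem ?_ (hy i)
  rw [aeval_eq_sum_range]
  exact sum_mem fun j _ => W'.smul_mem (pow_mem ht' j) _

include hk hspan in
theorem hom_ker {π' : W' →ₐ[A] R'} (h : ∀ x : F, x ∈ G.W → φ x ∈ W') {x : F} (hx : x ∈ G.W)
    (h0 : G.π ⟨x, hx⟩ = 0) : π' ⟨φ x, h x hx⟩ = 0 := by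
  obtain ⟨a, ha, y, hy⟩ := G.ker_mem hk hspan ⟨x, hx⟩ h0
  have h1 : (⟨φ x, h x hx⟩ : W') = a • ⟨φ y, h _ y.2⟩ := by
    apply Subtype.ext
    have h2 := congrArg (fun z : G.W => φ (z : F)) hy
    refine h2.trans ?_
    change φ (a • (y : F)) = a • φ y
    rw [Algebra.smul_def, Algebra.smul_def, map_mul, map_algA]
  rw [h1, map_smul, ← algebraMap_smul k a, ha, zero_smul]

include hk hspan hu in
/-- **reduction of homomorphisms** -/
theorem hom_mem (φb : R →ₐ[k] R')
    (ht : ∃ h : φ G.t ∈ W', π' ⟨_, h⟩ = φb (G.π ⟨G.t, G.ht⟩))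
    (hy : ∀ i, ∃ h : φ (G.y i) ∈ W', π' ⟨_, h⟩ = φb (G.π ⟨G.y i, G.hy i⟩)) {x : F}
    (hx : x ∈ G.W) : ∃ h : φ x ∈ W', π' ⟨_, h⟩ = φb (G.π ⟨x, hx⟩) := by
  obtain ⟨ht1, ht2⟩ := ht
  have hcoe : ∀ q : A[X], ((aeval (⟨φ G.t, ht1⟩ : W') q : W') : F') = aeval (φ G.t) q := by
    intro q
    exact (Polynomial.aeval_algHom_apply W'.val (⟨φ G.t, ht1⟩ : W') q).symm
  have hπ : ∀ q : A[X], π' (aeval (⟨φ G.t, ht1⟩ : W') q) =
      φb (aeval (G.π ⟨G.t, G.ht⟩) (q.map (algebraMap A k))) := by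
    intro q
    rw [← Polynomial.aeval_algHom_apply, ht2, ← Polynomial.aeval_algHom_apply,
      aeval_map_algebraMap]
  have hunit : ∀ q : A[X], q.map (algebraMap A k) ≠ 0 →
      IsUnit (aeval (⟨φ G.t, ht1⟩ : W') q) := by
    intro q hq
    apply hu
    rw [hπ]
    exact (G.isUnit_t _ hq).map φb
  have hmem := hom_mem₀ G hk hspan W' φ (fun q hq => by
    obtain ⟨u, hu⟩ := hunit q hq
    refine ⟨((↑u⁻¹ : W') : F'), Subtype.prop _, ?_⟩
    rw [← hcoe, ← hu, ← MulMemClass.coe_mul, Units.mul_inv]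
    rfl) ht1 (fun i => (hy i).choose) hx
  refine ⟨hmem, ?_⟩
  obtain ⟨q, hq, Q, hQ⟩ := exists_repr G hk hspan hx
  have h3 : aeval (⟨φ G.t, ht1⟩ : W') q * ⟨φ x, hmem⟩ =
      ∑ i, aeval (⟨φ G.t, ht1⟩ : W') (Q i) * ⟨φ (G.y i), (hy i).choose⟩ := by
    apply Subtype.ext
    have h1 := congrArg (fun z : G.W => φ (z : F)) hQ
    simp only [MulMemClass.coe_mul, G.coe_aeval, map_mul, map_aeval] at h1
    rw [MulMemClass.coe_mul, hcoe, h1, GaussData.combW]
    push_cast
    rw [map_sum]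
    refine Finset.sum_congr rfl fun i _ => ?_
    rw [map_mul, map_aeval]
  have h4 := congrArg π' h3
  have h5 := congrArg (fun z => φb (G.π z)) hQ
  rw [map_mul, hπ, map_sum] at h4
  simp only [map_mul, G.π_aeval, G.π_combW, map_sum] at h5
  apply (((G.isUnit_t _ hq).map φb).mul_right_injective)
  change φb (aeval (G.π ⟨G.t, G.ht⟩) (q.map (algebraMap A k))) * π' ⟨φ x, hmem⟩ =
    φb (aeval (G.π ⟨G.t, G.ht⟩) (q.map (algebraMap A k))) * φb (G.π ⟨x, hx⟩)
  rw [h4, h5]
  refine Finset.sum_congr rfl fun i _ => ?_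
  rw [map_mul, hπ, (hy i).choose_spec]

end Hom

section Desc

variable {A K k : Type*} [CommRing A] [IsDomain A] [ValuationRing A]
  [Field K] [Algebra A K] [IsFractionRing A K] [Field k] [Algebra A k]
  {FK : IntermediateField K (LaurentSeries K)} {Fk : IntermediateField k (LaurentSeries k)}
  {ι : Type*} [Fintype ι] {y : ι → LaurentSeries ℤ}

/-- the reduction map of a pair of fields is surjective -/
theorem redG_surjective [Algebra A FK] [IsScalarTower A K FK] [Algebra A Fk] [IsScalarTower A k Fk]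
    (G : GP A FK Fk y) (fink : FiniteDimensional k⟮(⟨jqModC k, G.jk⟩ : Fk)⟯ Fk)
    (rkk : Module.finrank k⟮(⟨jqModC k, G.jk⟩ : Fk)⟯ Fk = Fintype.card ι) :
    Function.Surjective (redG G) := by
  intro z
  obtain ⟨P, hP, Q, hQ⟩ := exists_repr_of_finrank (K := k) (⟨jqModC k, G.jk⟩ : Fk)
    (transcendental_of Fk G.jk) (fun i => (⟨cst k (y i), G.yk i⟩ : Fk)) (by
      intro P hP
      funext i
      refine G.indep P ?_ i
      have h1 := congrArg Fk.val hP
      rw [map_sum, map_zero] at h1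
      rw [← h1]
      refine Finset.sum_congr rfl fun i _ => ?_
      rw [map_mul, ← coe_aeval_of Fk G.jk]
      rfl) rkk z
  obtain ⟨P', rfl⟩ := Polynomial.map_surjective _ G.hk P
  choose Q' hQ' using fun i => Polynomial.map_surjective _ G.hk (Q i)
  have hu := (gaussG G).isUnit_aeval hP
  obtain ⟨u, hu⟩ := hu
  have h1 : (gaussG G).π (u : (gaussG G).W) * z = (gaussG G).π ((gaussG G).combW Q') := by
    rw [hu, (gaussG G).π_aeval, (gaussG G).π_combW, gaussG_πt, hQ]
    refine Finset.sum_congr rfl fun i _ => ?_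
    rw [hQ']
    congr 1
    exact (redG_y G i _).symm
  refine ⟨(↑u⁻¹ : (gaussG G).W) * (gaussG G).combW Q', ?_⟩
  change (gaussG G).π _ = z
  rw [map_mul, ← h1, ← mul_assoc, ← map_mul, Units.inv_mul, map_one, one_mul]

end Desc

end Fermat.Agent.SSH
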