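import Fermat.Agent.SSH.Aut

/-!
# Reduction of automorphisms
-/

set_option autoImplicit false
set_option linter.style.haveILetI false
set_option linter.unusedSectionVars false

noncomputable section

namespace Fermat.Agent.SSH

open ModularCurve Polynomial IntermediateField Fermat.Agent.ModPoly Fermat.Agent.Red
  Fermat.Agent.RedMod Fermat.Agent.Cov

section Lift

variable {A k W R : Type*} [CommRing A] [Field k] [Algebra A k] [CommRing W] [Algebra A W]
  [CommRing R] [Algebra k R] [Algebra A R] [IsScalarTower A k R]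

/-- descending an `A`-algebra homomorphism along a surjection onto a `k`-algebra -/
def descHom (hk : Function.Surjective (algebraMap A k)) (π f : W →ₐ[A] R)
    (hπ : Function.Surjective π) (h : ∀ x, π x = 0 → f x = 0) : R →ₐ[k] R where
  __ := RingHom.liftOfSurjective (π : W →+* R) hπ ⟨(f : W →+* R), fun x hx => h x hx⟩
  commutes' c := by
    obtain ⟨a, rfl⟩ := hk c
    have h1 : algebraMap k R (algebraMap A k a) = (π : W →+* R) (algebraMap A W a) := by
      rw [← IsScalarTower.algebraMap_apply A k R]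
      exact (π.commutes a).symm
    rw [h1]
    have h2 := RingHom.liftOfRightInverse_comp_apply (π : W →+* R) (Function.surjInv hπ)
      (Function.rightInverse_surjInv hπ) ⟨(f : W →+* R), fun x hx => h x hx⟩ (algebraMap A W a)
    refine h2.trans ?_
    change f (algebraMap A W a) = π (algebraMap A W a)
    rw [f.commutes, π.commutes]

theorem descHom_apply (hk : Function.Surjective (algebraMap A k)) (π f : W →ₐ[A] R)
    (hπ : Function.Surjective π) (h : ∀ x, π x = 0 → f x = 0) (x : W) :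
    descHom hk π f hπ h (π x) = f x :=
  RingHom.liftOfRightInverse_comp_apply (π : W →+* R) (Function.surjInv hπ)
    (Function.rightInverse_surjInv hπ) ⟨(f : W →+* R), fun x hx => h x hx⟩ x

end Lift

section Abs

variable {A K F k R : Type*} [CommRing A] [IsDomain A] [ValuationRing A]
  [Field K] [Algebra A K] [IsFractionRing A K] [Field F] [Algebra K F] [Algebra A F]
  [IsScalarTower A K F] [Field k] [Algebra A k] [CommRing R] [Algebra k R] [Algebra A R]
  [IsScalarTower A k R] {ι : Type*} [Fintype ι] (G : GaussData A K F k R ι)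
  (hk : Function.Surjective (algebraMap A k))
  (hspan : ∀ x : F, ∃ q : K[X], q ≠ 0 ∧ ∃ P : ι → K[X], aeval G.t q * x = G.comb P)

/-- restriction of an automorphism to `W` -/
def resW (W : Subalgebra A F) (θ : F ≃ₐ[K] F) (h : ∀ x ∈ W, θ x ∈ W) : W →ₐ[A] W where
  toFun x := ⟨θ x, h x x.2⟩
  map_one' := Subtype.ext (map_one θ)
  map_zero' := Subtype.ext (map_zero θ)
  map_mul' x y := Subtype.ext (map_mul θ (x : F) y)
  map_add' x y := Subtype.ext (map_add θ (x : F) y)
  commutes' a := Subtype.ext (map_algA (θ : F →ₐ[K] F) a)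

include hk hspan in
theorem exists_desc_abs (θ : F ≃ₐ[K] F) (hs : Function.Surjective G.π)
    (m1 : ∀ x ∈ G.W, θ x ∈ G.W) (m2 : ∀ x ∈ G.W, θ.symm x ∈ G.W) :
    ∃ θb : R ≃ₐ[k] R, ∀ x (h : x ∈ G.W), G.π ⟨θ x, m1 x h⟩ = θb (G.π ⟨x, h⟩) := by
  have k1 : ∀ x : G.W, G.π x = 0 → (G.π.comp (resW G.W θ m1)) x = 0 := by
    rintro ⟨x, hx⟩ h0
    exact hom_ker G hk hspan G.W (θ : F →ₐ[K] F) (π' := G.π) m1 hx h0
  have k2 : ∀ x : G.W, G.π x = 0 → (G.π.comp (resW G.W θ.symm m2)) x = 0 := by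
    rintro ⟨x, hx⟩ h0
    exact hom_ker G hk hspan G.W (θ.symm : F →ₐ[K] F) (π' := G.π) m2 hx h0
  have hg : ∀ x, descHom hk G.π _ hs k1 (G.π x) = G.π (resW G.W θ m1 x) := fun x =>
    descHom_apply _ _ _ _ _ x
  have hg' : ∀ x, descHom hk G.π _ hs k2 (G.π x) = G.π (resW G.W θ.symm m2 x) := fun x =>
    descHom_apply _ _ _ _ _ x
  have e1 : (descHom hk G.π _ hs k1).comp (descHom hk G.π _ hs k2) = AlgHom.id k R := by
    apply AlgHom.ext
    intro z
    obtain ⟨x, rfl⟩ := hs z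
    rw [AlgHom.comp_apply, hg', hg]
    exact congrArg G.π (Subtype.ext (θ.apply_symm_apply (x : F)))
  have e2 : (descHom hk G.π _ hs k2).comp (descHom hk G.π _ hs k1) = AlgHom.id k R := by
    apply AlgHom.ext
    intro z
    obtain ⟨x, rfl⟩ := hs z
    rw [AlgHom.comp_apply, hg, hg']
    exact congrArg G.π (Subtype.ext (θ.symm_apply_apply (x : F)))
  exact ⟨AlgEquiv.ofAlgHom _ _ e1 e2, fun x h => (hg ⟨x, h⟩).symm⟩

end Abs

variable {A K k : Type*} [CommRing A] [IsDomain A] [ValuationRing A]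
  [Field K] [Algebra A K] [IsFractionRing A K] [Field k] [Algebra A k]
  {FK : IntermediateField K (LaurentSeries K)} {Fk : IntermediateField k (LaurentSeries k)}
  {ι : Type*} [Fintype ι] {y : ι → LaurentSeries ℤ}

theorem desc_mem (G : GP A FK Fk y) (θ : FK →ₐ[K] FK)
    (hj : θ ⟨jqModC K, G.jK⟩ = ⟨jqModC K, G.jK⟩)
    (hy : ∀ i, (θ ⟨cst K (y i), G.yK i⟩ : LaurentSeries K) ∈ WL A K k) {x : FK}
    (hx : (x : LaurentSeries K) ∈ WL A K k) : (θ x : LaurentSeries K) ∈ WL A K k := by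
  letI := algA A FK
  haveI := tower_algA A FK
  letI := algA A Fk
  haveI := tower_algA A Fk
  have h := hom_mem₀ (gaussG G) G.hk (gaussG_span G) (gaussG G).W θ (by
    intro q hq
    have hu := (gaussG G).isUnit_aeval hq
    obtain ⟨u, hu⟩ := hu
    refine ⟨((↑u⁻¹ : (gaussG G).W) : FK), Subtype.prop _, ?_⟩
    rw [gaussG_t, hj, ← gaussG_t G, ← (gaussG G).coe_aeval, ← hu, ← MulMemClass.coe_mul,
      Units.mul_inv]
    rfl) (by rw [gaussG_t, hj]; exact (gaussG G).ht) hy (x := x) hx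
  exact h

theorem exists_desc (G : GP A FK Fk y) (fink : FiniteDimensional k⟮(⟨jqModC k, G.jk⟩ : Fk)⟯ Fk)
    (rkk : Module.finrank k⟮(⟨jqModC k, G.jk⟩ : Fk)⟯ Fk = Fintype.card ι) (θ : FK ≃ₐ[K] FK)
    (hj : θ ⟨jqModC K, G.jK⟩ = ⟨jqModC K, G.jK⟩)
    (hy : ∀ i, (θ ⟨cst K (y i), G.yK i⟩ : LaurentSeries K) ∈ WL A K k)
    (hy' : ∀ i, (θ.symm ⟨cst K (y i), G.yK i⟩ : LaurentSeries K) ∈ WL A K k) :
    ∃ θb : Fk ≃ₐ[k] Fk, ∀ (x : FK) (h : (x : LaurentSeries K) ∈ WL A K k),
      ∃ h' : (θ x : LaurentSeries K) ∈ WL A K k,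
        πL A K k ⟨θ x, h'⟩ = (θb ⟨πL A K k ⟨x, h⟩, G.πL_mem x⟩ : LaurentSeries k) := by
  letI := algA A FK
  haveI := tower_algA A FK
  letI := algA A Fk
  haveI := tower_algA A Fk
  have hj' : θ.symm ⟨jqModC K, G.jK⟩ = ⟨jqModC K, G.jK⟩ := by
    rw [AlgEquiv.symm_apply_eq, hj]
  obtain ⟨θb, h⟩ := exists_desc_abs (gaussG G) G.hk (gaussG_span G) θ
    (redG_surjective G fink rkk) (fun x hx => desc_mem G (θ : FK →ₐ[K] FK) hj hy hx)
    (fun x hx => desc_mem G (θ.symm : FK →ₐ[K] FK) hj' hy' hx)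
  exact ⟨θb, fun x hx => ⟨desc_mem G (θ : FK →ₐ[K] FK) hj hy hx,
    congrArg (fun z : Fk => (z : LaurentSeries k)) (h x hx)⟩⟩

end Fermat.Agent.SSH
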