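import Fermat.Agent.SSH.Mem
import Fermat.Agent.Nod.GalAut

/-!
# Coefficientwise automorphisms, and the Frobenius data of the special fibre
-/

set_option autoImplicit false
set_option linter.style.haveILetI false
set_option linter.unusedSectionVars false

noncomputable section

namespace Fermat.Agent.SSH

open ModularCurve Polynomial IntermediateField Fermat.Agent.ModPoly Fermat.Agent.Red
  Fermat.Agent.RedMod Fermat.Agent.Cov Fermat.Agent.SemiSt AlgebraicCurve Fermat.Agent.Nod

section Act

variable {L : Type*} [Field L] {F : IntermediateField L (LaurentSeries L)}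

/-- the coefficientwise action of an automorphism -/
def actF (hF : CStab F) (σ : L ≃+* L) : F ≃+* F where
  toFun x := ⟨coeffMap (σ : L →+* L) x, hF _ x.2⟩
  invFun x := ⟨coeffMap (σ.symm : L →+* L) x, hF _ x.2⟩
  left_inv x := by
    apply Subtype.ext
    change coeffMap (σ.symm : L →+* L) (coeffMap (σ : L →+* L) x.1) = x.1
    rw [coeffMap_coeffMap]
    have : ((σ.symm : L →+* L).comp (σ : L →+* L)) = RingHom.id L := by
      ext x; simp
    rw [this]
    ext n
    rfl
  right_inv x := by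
    apply Subtype.ext
    change coeffMap (σ : L →+* L) (coeffMap (σ.symm : L →+* L) x.1) = x.1
    rw [coeffMap_coeffMap]
    have : ((σ : L →+* L).comp (σ.symm : L →+* L)) = RingHom.id L := by
      ext x; simp
    rw [this]
    ext n
    rfl
  map_mul' x y := Subtype.ext (map_mul (coeffMap (σ : L →+* L)) x.1 y.1)
  map_add' x y := Subtype.ext (map_add (coeffMap (σ : L →+* L)) x.1 y.1)

theorem coe_actF (hF : CStab F) (σ : L ≃+* L) (x : F) :
    (actF hF σ x : LaurentSeries L) = coeffMap (σ : L →+* L) (x : LaurentSeries L) := rfl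

theorem actF_algebraMap (hF : CStab F) (σ : L ≃+* L) (c : L) :
    actF hF σ (algebraMap L F c) = algebraMap L F (σ c) := by
  apply Subtype.ext
  rw [coe_actF]
  change coeffMap (σ : L →+* L) (algebraMap L (LaurentSeries L) c) =
    algebraMap L (LaurentSeries L) (σ c)
  rw [algebraMap_eq_C, coeffMap_C, ← algebraMap_eq_C]
  rfl

theorem actF_one_apply (hF : CStab F) (x : F) : actF hF (1 : L ≃+* L) x = x := by
  apply Subtype.ext
  rw [coe_actF]
  ext n
  rfl

theorem actF_mul (hF : CStab F) (σ τ : L ≃+* L) (x : F) :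
    actF hF (σ * τ) x = actF hF σ (actF hF τ x) := by
  apply Subtype.ext
  rw [coe_actF, coe_actF, coe_actF]
  ext n
  rfl

/-- the coefficientwise action as a semilinear automorphism -/
def galF (hF : CStab F) (σ : L ≃+* L) : SemilinearAut L F :=
  ⟨(actF hF σ, σ), fun a => actF_algebraMap hF σ a⟩

theorem galF_smul (hF : CStab F) (σ : L ≃+* L) (x : F) : galF hF σ • x = actF hF σ x := rfl

theorem baseAut_galF (hF : CStab F) (σ : L ≃+* L) : SemilinearAut.baseAut (galF hF σ) = σ := rfl

theorem galF_mul (hF : CStab F) (σ τ : L ≃+* L) : galF hF (σ * τ) = galF hF σ * galF hF τ := by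
  apply Subtype.ext
  apply Prod.ext
  · apply RingEquiv.ext
    intro x
    exact actF_mul hF σ τ x
  · rfl

theorem galF_one (hF : CStab F) : galF hF (1 : L ≃+* L) = 1 := by
  apply Subtype.ext
  apply Prod.ext
  · apply RingEquiv.ext
    intro x
    exact actF_one_apply hF x
  · rfl

theorem ofAlgAut_smul {K F : Type*} [Field K] [Field F] [Algebra K F] (σ : F ≃ₐ[K] F) (x : F) :
    SemilinearAut.ofAlgAut σ • x = σ x := rfl

theorem baseAut_ofAlgAut {K F : Type*} [Field K] [Field F] [Algebra K F] (σ : F ≃ₐ[K] F) :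
    SemilinearAut.baseAut (SemilinearAut.ofAlgAut σ) = 1 := rfl

theorem ofAlgAut_comm {K F : Type*} [Field K] [Field F] [Algebra K F] (σ : F ≃ₐ[K] F)
    (g : SemilinearAut K F) (h : ∀ x : F, g • (σ x) = σ (g • x)) :
    g * SemilinearAut.ofAlgAut σ = SemilinearAut.ofAlgAut σ * g := by
  apply Subtype.ext
  apply Prod.ext
  · apply RingEquiv.ext
    intro x
    exact h x
  · exact mul_one _

end Act

variable {A K k : Type*} [CommRing A] [IsDomain A] [ValuationRing A]
  [Field K] [Algebra A K] [IsFractionRing A K] [Field k] [Algebra A k]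
  {FM Fq : IntermediateField K (LaurentSeries K)} {E : IntermediateField k (LaurentSeries k)}
  {ι : Type*} [Fintype ι] {y : ι → LaurentSeries ℤ} {q : ℕ} [hq : Fact q.Prime]
  (S : SSD A FM Fq E y q) [CharP k q]

/-- Galois compatibility of a semistable structure -/
structure SSD.Gal (S : SSD A FM Fq E y q) : Prop where
  cM : CStab FM
  cq : CStab Fq
  w_gal : ∀ (σ : K ≃+* K) (x : Fq), actF cq σ (S.w x) = S.w (actF cq σ x)
  b_gal : ∀ (σ : k ≃+* k) (x : E), actF S.E_gal σ (S.δ.θb x) =
    S.δ.θb (actF S.E_gal σ x)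

namespace SSD

variable {S} in
theorem g_comm (Γ : S.Gal) (σ : k ≃+* k) : galF S.E_gal σ * SemilinearAut.ofAlgAut S.δ.θb.symm =
    SemilinearAut.ofAlgAut S.δ.θb.symm * galF S.E_gal σ := by
  apply ofAlgAut_comm
  intro x
  rw [galF_smul, galF_smul]
  apply S.δ.θb.injective
  rw [AlgEquiv.apply_symm_apply, ← Γ.b_gal, AlgEquiv.apply_symm_apply]

section Fd

variable [PerfectRing k q]

/-- the Frobenius data of the special fibre -/
def fd : FrobData k E q where
  σ := S.sg
  g := SemilinearAut.ofAlgAut S.δ.θb.symm * galF S.E_gal (frobeniusEquiv k q)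
  hq := hq.out.one_lt
  hσ x := by
    rw [mul_smul, galF_smul, ofAlgAut_smul, sg_apply, AlgEquiv.apply_symm_apply]
    apply Subtype.ext
    rw [coe_Fr]
    refine (HeckeProd.pow_eq_qExpand q (x : LaurentSeries k)).symm.trans ?_
    rfl
  j := S.jE
  hj := transcendental_of E S.G.jk
  hjσ := S.sg_jE

theorem fd_j : S.fd.j = S.jE := rfl

theorem fd_σ (x : E) : S.fd.σ x = S.sg x := rfl

theorem fd_g : S.fd.g = SemilinearAut.ofAlgAut S.δ.θb.symm *
    galF S.E_gal (frobeniusEquiv k q) := rfl

end Fd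

section Red

variable (R : RedAut A K k)

include R in
theorem LR.act {x : LaurentSeries K} {a : LaurentSeries k} (h : LR A x a) :
    LR A (coeffMap (R.σ : K →+* K) x) (coeffMap (R.σb : k →+* k) a) := by
  obtain ⟨h1, rfl⟩ := h
  exact coeffMap_mem_WL (R.τ : A →+* A) (R.σ : K →+* K) (R.σb : k →+* k) R.h1 R.h2 h1

variable {S}

theorem HasRed.act (Γ : S.Gal) {x : Fq} {a b : LaurentSeries k} (h : S.HasRed x a b) :
    S.HasRed (actF Γ.cq R.σ x) (coeffMap (R.σb : k →+* k) a) (coeffMap (R.σb : k →+* k) b) := by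
  refine ⟨LR.act R h.1, ?_⟩
  rw [← Γ.w_gal]
  exact LR.act R h.2

end Red

end SSD

/-! ### diamonds -/

section Dia

variable {S}

/-- reduction of the diamond operators on the ring at infinity -/
theorem hasRed_dia_y (d : Dia Fq S.G S.hle S.w) (i : ι ⊕ (ι × Fin q)) :
    ∃ a b : E, S.HasRed (S.yy i) (a : LaurentSeries k) (b : LaurentSeries k) ∧
      S.HasRed (d.D (S.yy i)) (d.θb a : LaurentSeries k) (d.θb b : LaurentSeries k) := by
  have hu : d.D S.uu = S.uu := by
    have h1 : d.D S.jq = S.jq := by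
      rw [← S.inc_jM]
      refine (d.D_inc S.jM).trans ?_
      congr 1
      exact d.θ_j
    rw [SSD.uu, ← S.inc_jM]
    have h2 : d.D (S.be S.jM) = S.be S.jM := by
      rw [SSD.be_apply, d.D_w, S.inc_jM, h1]
    have h3 := d.D.toRingEquiv.toRingHom.map_sub (S.inc S.jM) (S.be S.jM ^ q)
    refine h3.trans ?_
    change d.D (S.inc S.jM) - d.D (S.be S.jM ^ q) = _
    rw [map_pow, h2, S.inc_jM, h1]
  have hmono : ∀ z : E, d.θb (S.uE * z) = S.uE * d.θb z := by
    intro z
    have h1 : d.θb S.jE = S.jE := SSD.θb_j d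
    have h2 : d.θb S.uE = S.uE := by
      have h3 := d.θb.toRingEquiv.toRingHom.map_sub S.jE (S.jE ^ (q * q))
      refine h3.trans ?_
      change d.θb S.jE - d.θb (S.jE ^ (q * q)) = _
      rw [map_pow, h1]
      rfl
    rw [map_mul, h2]
  have hy := SSD.hasRed_cst (S := S) (hq := hq)
  rcases i with i | ⟨i, a⟩
  · set c : E := ⟨cst k (y i), S.G.yk i⟩ with hc
    refine ⟨S.uE * c, 0, ?_, ?_⟩
    · exact SSD.hasRed_y (S := S) (Sum.inl i)
    · have e : d.D (S.yy (Sum.inl i)) = S.uu * S.inc (d.θ ⟨cst K (y i), S.G.yK i⟩) := by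
        change d.D (S.uu * S.inc _) = _
        rw [map_mul, hu]
        congr 1
        exact d.D_inc _
      rw [e, hmono, map_zero]
      have h1 : LR A (d.θ ⟨cst K (y i), S.G.yK i⟩ : LaurentSeries K) (d.θb c : LaurentSeries k) :=
        SSD.LR.dia d (a := c) (LR.cst (y i))
      have h2 := (SSD.hasRed_uu (S := S)).mul (SSD.HasRed.inc (S := S) h1)
      rw [zero_mul] at h2
      exact h2
  · set c : E := ⟨cst k (y i), S.G.yk i⟩ with hc
    refine ⟨0, S.uE * c * S.jE ^ (a : ℕ), ?_, ?_⟩
    · exact SSD.hasRed_y (S := S) (Sum.inr (i, a))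
    · have e : d.D (S.yy (Sum.inr (i, a))) =
          S.w (S.uu * S.inc (d.θ ⟨cst K (y i), S.G.yK i⟩) * S.jq ^ (a : ℕ)) := by
        change d.D (S.w (S.uu * S.inc _ * S.jq ^ (a : ℕ))) = _
        have h1 : d.D S.jq = S.jq := by
          rw [← S.inc_jM]
          refine (d.D_inc S.jM).trans ?_
          congr 1
          exact d.θ_j
        have h2 : d.D (S.uu * S.inc ⟨cst K (y i), S.G.yK i⟩ * S.jq ^ (a : ℕ)) =
            S.uu * S.inc (d.θ ⟨cst K (y i), S.G.yK i⟩) * S.jq ^ (a : ℕ) := by
          rw [map_mul d.D, map_mul d.D, hu, map_pow, h1]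
          congr 2
          exact d.D_inc _
        rw [d.D_w, h2]
      have h1 : d.θb S.jE = S.jE := SSD.θb_j d
      have e' : d.θb (S.uE * c * S.jE ^ (a : ℕ)) = S.uE * d.θb c * S.jE ^ (a : ℕ) := by
        rw [map_mul, hmono, map_pow, h1]
      rw [e, e', map_zero]
      have h1 : LR A (d.θ ⟨cst K (y i), S.G.yK i⟩ : LaurentSeries K) (d.θb c : LaurentSeries k) :=
        SSD.LR.dia d (a := c) (LR.cst (y i))
      have h2 := (((SSD.hasRed_uu (S := S)).mul (SSD.HasRed.inc (S := S) h1)).mul
        ((SSD.hasRed_jq (S := S)).pow a)).w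
      rw [zero_mul, zero_mul] at h2
      exact h2

end Dia

end Fermat.Agent.SSH
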