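import Fermat.Agent.SSH.LevQ
import Fermat.Agent.KumG.HeckeAlg

/-!
# Generators of the field of modular functions of level `Γ₀(q) ∩ Γ_H(M)`
-/

set_option autoImplicit false
set_option linter.unusedSectionVars false
set_option linter.style.haveILetI false

open UpperHalfPlane ModularForm Complex Matrix.SpecialLinearGroup
open scoped MatrixGroups Manifold
open Fermat.Agent.AL Fermat.Agent.ALCoh Fermat.Agent.KumG Fermat.Agent.Cov CongruenceSubgroup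
  ModularCurve Fermat.Agent.ModPoly Fermat.Agent.GamH Fermat.Agent.MFLib Polynomial
  IntermediateField Fermat.Agent.RedMod
open Fermat.Agent.Kum (ql ql_eq_zero ql_smul ql_mul ql_add ql_pow)

namespace Fermat.Agent.SSH

noncomputable section

section mono

variable {Γ Γ' : Subgroup SL(2, ℤ)} [LvlG Γ] [LvlG Γ'] {γ : SL(2, ℤ)} {x : LaurentSeries ℂ}

theorem diaF_mono (h : Γ' ≤ Γ) (n : Nz Γ γ) (n' : Nz Γ' γ) (hx : x ∈ MFunG Γ) :
    diaF (Γ := Γ') γ x = diaF (Γ := Γ) γ x := by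
  rw [← slF_SL n hx, ← slF_SL n' (MFunG_mono h hx),
    slF_mono (Ad.of_nz n) h (Ad.of_nz n') h hx]

end mono

section levelN

variable {N : ℕ} [NeZero N] {H : Subgroup (ZMod N)ˣ}

theorem lvl0 : LvlG (Gamma0 N) where
  T_mem := by rw [Gamma0_mem]; simp [ModularGroup.T]
  neg_mem := by rw [Gamma0_mem]; simp
  fin := inferInstance

theorem Jc_mem_MFunG {Γ : Subgroup SL(2, ℤ)} [LvlG Γ] (hΓ : Γ ≤ Gamma0 N) {m : ℕ+}
    (hm : (m : ℕ) ∣ N) : (Jc 1 m : LaurentSeries ℂ) ∈ MFunG Γ := by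
  obtain ⟨A, hA⟩ := exists_valuationSubring_charP (p := 0) (Or.inr rfl)
  haveI : NeZero (m : ℕ) := ⟨m.ne_zero⟩
  have h1 : (Jc 1 m : LaurentSeries ℂ) = cst ℂ (qExpand ℤ m (jqModC ℤ)) := by
    rw [cst, coeffMap_qExpand, coeffMap_jqModC, Jc_one_eq]
  rw [h1]
  refine cst_mem_MFunG (N := N) (A := A) (x := jdB N A m hm)
    (fun γ hγ => smul_jdB_of_mem hm (hΓ hγ)) ?_
  have h2 : cst A (qExpand ℤ m (jqModC ℤ)) = qExpand A m (jqModC A) := by
    rw [cst, coeffMap_qExpand, coeffMap_jqModC]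
  rw [h2]
  exact hasExp_jdH_one m

theorem C_mem_MFunG {Γ : Subgroup SL(2, ℤ)} [LvlG Γ] (c : ℂ) :
    algebraMap ℂ (LaurentSeries ℂ) c ∈ MFunG Γ := by
  rw [algebraMap_laurentSeries_eq_single]
  exact const_mem_MFunG c

theorem FF_le_MFunG {Γ : Subgroup SL(2, ℤ)} [LvlG Γ] (hΓ : Γ ≤ Gamma0 N) {x : LaurentSeries ℂ}
    (hx : x ∈ FF ℂ N) : x ∈ MFunG Γ := by
  have h1 : FF ℂ N ≤ (MFunG Γ).toIntermediateField C_mem_MFunG := by
    rw [FF_eq_adjoin, IntermediateField.adjoin_le_iff]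
    rintro _ ⟨m, hm, rfl⟩
    exact Jc_mem_MFunG hΓ hm
  exact h1 hx

variable [hH : Fact ((-1 : (ZMod N)ˣ) ∈ H)]

theorem repF_z (hN2 : 2 ≤ N) (a : (ZMod N)ˣ) : RepF (GH N H) (cst ℂ (zs H a)) 12
    (Ea H a * (⇑E₄ : ℍ → ℂ) ^ 2) discriminant where
  mf := ((isMF_Ea a).mul (((isMF_E (k := 4) (by norm_num)).mono le_top).pow 2)).congr_weight
    (by norm_num)
  mg := isMF_disc.mono le_top
  g0 := disc_ne_zero
  eq := by
    have hE : IsMF (GH N H) 4 (⇑E₄ : ℍ → ℂ) := (isMF_E (k := 4) (by norm_num)).mono le_top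
    have h1 : ql (discriminant : ℍ → ℂ) = deltaC ℂ := GenusRR.qL_disc
    have h2 : ql (⇑E₄ : ℍ → ℂ) = eisC ℂ := GenusRR.qL_E4
    have h3 : ql (Ea H a) = coeffMap (Int.castRingHom ℂ)
        (HahnSeries.ofPowerSeries ℤ ℤ (fa H a)) := by
      rw [coeffMap_ofPowerSeries, ← qe_Ea hN2 hH.out]
      rfl
    rw [h1, ql_mul (isMF_Ea a).qgG (hE.pow 2).qgG, ql_pow hE.qgG, h2, h3, zs, cst, map_mul,
      coeffMap_wZ, wZ]
    rw [mul_assoc, mul_assoc, mul_comm (deltaInvC ℂ), deltaC_mul_inv, mul_one]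

theorem z_mem_MFunG (hN2 : 2 ≤ N) (a : (ZMod N)ˣ) : cst ℂ (zs H a) ∈ MFunG (GH N H) :=
  ⟨_, _, _, repF_z hN2 a⟩

theorem nz_GH {γ : SL(2, ℤ)} (hγ : γ ∈ Gamma0 N) : Nz (GH N H) γ := fun _ hδ => GH_norm H hγ hδ

/-- diamonds on `z_a` -/
theorem diaF_z (hN2 : 2 ≤ N) {γ : SL(2, ℤ)} (hγ : γ ∈ Gamma0 N) {u : (ZMod N)ˣ}
    (hu : dd N γ = u) (a : (ZMod N)ˣ) :
    diaF (Γ := GH N H) γ (cst ℂ (zs H a)) = cst ℂ (zs H (a * u⁻¹)) := by
  have h1 := diaF_rep (nz_GH (H := H) hγ) (repF_z (H := H) hN2 a)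
  have hE : (E₄ : ℍ → ℂ) ∣[(4 : ℤ)] γ = E₄ :=
    (isMF_E (k := 4) (by norm_num)).slash γ (Subgroup.mem_top γ)
  have hE2 : ((E₄ : ℍ → ℂ) ^ 2) ∣[(8 : ℤ)] γ = (E₄ : ℍ → ℂ) ^ 2 := by
    rw [pow_two]
    have := mul_slash_SL2 4 4 γ (E₄ : ℍ → ℂ) (E₄ : ℍ → ℂ)
    rw [hE] at this
    exact this
  have h12 : (discriminant : ℍ → ℂ) ∣[(12 : ℤ)] γ = discriminant :=
    isMF_disc.slash γ (Subgroup.mem_top γ)
  have h3 : (Ea H a * (⇑E₄ : ℍ → ℂ) ^ 2) ∣[(12 : ℤ)] γ = Ea H (a * u⁻¹) * (⇑E₄ : ℍ → ℂ) ^ 2 := by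
    have := mul_slash_SL2 4 8 γ (Ea H a) ((E₄ : ℍ → ℂ) ^ 2)
    rw [hE2, Ea_slash hγ hu.symm] at this
    exact this
  rw [h3, h12] at h1
  exact h1.unique (repF_z hN2 _)

end levelN

section mixed

instance factHM {N N' : ℕ} [NeZero N] [NeZero N'] (h : N ∣ N') {H : Subgroup (ZMod N)ˣ}
    [hH : Fact ((-1 : (ZMod N)ˣ) ∈ H)] : Fact ((-1 : (ZMod N')ˣ) ∈ HM h H) :=
  ⟨neg_mem_HM h H hH.out⟩

variable {q M : ℕ} [NeZero q] [NeZero M] {H : Subgroup (ZMod M)ˣ}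
  [hH : Fact ((-1 : (ZMod M)ˣ) ∈ H)]

theorem nz_Gq {γ : SL(2, ℤ)} (hγ : γ ∈ Gamma0 (q * M)) : Nz (Gq q M H) γ := nz_GH hγ

theorem Gq_le : Gq q M H ≤ GH M H := GH_HM_le _ _

theorem exists_dd_M (q : ℕ) [NeZero q] (u : (ZMod M)ˣ) : ∃ γ ∈ Gamma0 (q * M), dd M γ = u := by
  obtain ⟨w, hw⟩ := ZMod.unitsMap_surjective (dvd_mul_left M q) u
  obtain ⟨γ, h1, h2⟩ := exists_dd_unit w
  refine ⟨γ, h1, ?_⟩
  rw [← dd_cast (dvd_mul_left M q) γ, h2, ← hw]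
  rfl

theorem diaFq_of_level {γ : SL(2, ℤ)} (hγ : γ ∈ Gamma0 (q * M)) {x : LaurentSeries ℂ}
    (hx : x ∈ MFunG (GH M H)) : diaF (Γ := Gq q M H) γ x = diaF (Γ := GH M H) γ x :=
  diaF_mono Gq_le (nz_GH (Gamma0_le (dvd_mul_left M q) hγ)) (nz_Gq hγ) hx

theorem diaFq_FF {γ : SL(2, ℤ)} (hγ : γ ∈ Gamma0 (q * M)) {x : LaurentSeries ℂ}
    (hx : x ∈ FF ℂ (q * M)) : diaF (Γ := Gq q M H) γ x = x := by
  haveI : LvlG (Gamma0 (q * M)) := lvl0
  have h1 := FF_le_MFunG (N := q * M) le_rfl hx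
  rw [diaF_mono (GH_le _ _) (Nz.of_mem hγ) (nz_Gq hγ) h1, diaF_of_mem hγ h1]

theorem diaFq_z (hM2 : 2 ≤ M) {γ : SL(2, ℤ)} (hγ : γ ∈ Gamma0 (q * M)) {u : (ZMod M)ˣ}
    (hu : dd M γ = u) (a : (ZMod M)ˣ) :
    diaF (Γ := Gq q M H) γ (cst ℂ (zs H a)) = cst ℂ (zs H (a * u⁻¹)) := by
  rw [diaFq_of_level hγ (z_mem_MFunG hM2 a), diaF_z hM2 (Gamma0_le (dvd_mul_left M q) hγ) hu]

/-- the values of `z` are distinct -/
theorem zq_inj (hM3 : 3 ≤ M) : Function.Injective (fun c : (ZMod M)ˣ ⧸ H => cst ℂ (zq H c)) := by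
  obtain ⟨A, hA⟩ := exists_valuationSubring_charP (p := 0) (Or.inr rfl)
  haveI : CharZero (KA A) := CharP.charP_to_charZero _
  exact zq_injective (p := 0) (⟨by exact_mod_cast NeZero.ne M, hM3, hH.out⟩ : Hyp M A H)

open Classical in
theorem LIZ_mixed (hM3 : 3 ≤ M) {I : Type*} [Fintype I] {y : I → LaurentSeries ℤ}
    (hy : ∀ i, cst ℂ (y i) ∈ FF ℂ (q * M)) (hLI : LIZ ℂ y) :
    LIZ ℂ (fun p : I × Fin H.index => y p.1 * zs H 1 ^ (p.2 : ℕ)) := by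
  intro P hP
  have hM2 : 2 ≤ M := by omega
  let c : Fin H.index → LaurentSeries ℂ := fun s =>
    ∑ i, evT (jqModC ℂ) (P (i, s)) * cst ℂ (y i)
  have hj : jqModC ℂ ∈ FF ℂ (q * M) := jq_mem_FF
  have hcF : ∀ s, c s ∈ FF ℂ (q * M) := fun s =>
    sum_mem fun i _ => mul_mem (evT_mem _ hj _) (hy i)
  have hsum : ∑ s : Fin H.index, c s * cst ℂ (zs H 1) ^ (s : ℕ) = 0 := by
    rw [← hP, Fintype.sum_prod_type_right]
    refine Finset.sum_congr rfl fun s _ => ?_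
    rw [Finset.sum_mul]
    refine Finset.sum_congr rfl fun i _ => ?_
    simp only [cst, map_mul, map_pow]
    ring
  have hroot : ∀ a : (ZMod M)ˣ, ∑ s : Fin H.index, c s * cst ℂ (zs H a) ^ (s : ℕ) = 0 := by
    intro a
    obtain ⟨γ, hγ, hγa⟩ := exists_dd_M (M := M) q a⁻¹
    have hz := z_mem_MFunG (H := H) hM2 1
    have hz' : cst ℂ (zs H 1) ∈ MFunG (Gq q M H) := MFunG_mono Gq_le hz
    have hc' : ∀ s, c s ∈ MFunG (Gq q M H) := fun s => FF_le_MFunG (GH_le _ _) (hcF s)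
    let D := diaM (nz_Gq (H := H) hγ)
    have h1 : D (∑ s : Fin H.index, ⟨c s, hc' s⟩ * ⟨_, hz'⟩ ^ (s : ℕ)) = 0 := by
      have h2 : (∑ s : Fin H.index, (⟨c s, hc' s⟩ : MFunG (Gq q M H)) * ⟨_, hz'⟩ ^ (s : ℕ)) = 0 := by
        apply Subtype.ext
        refine Eq.trans ?_ hsum
        simp only [AddSubmonoidClass.coe_finsetSum, MulMemClass.coe_mul, SubmonoidClass.coe_pow]
      rw [h2, map_zero]
    rw [map_sum] at h1
    have h2 := congrArg (fun x : MFunG (Gq q M H) => (x : LaurentSeries ℂ)) h1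
    simp only [map_mul, map_pow, AddSubmonoidClass.coe_finsetSum, MulMemClass.coe_mul,
      SubmonoidClass.coe_pow, ZeroMemClass.coe_zero] at h2
    rw [← h2]
    refine Finset.sum_congr rfl fun s _ => ?_
    have e1 : ((D ⟨c s, hc' s⟩ : MFunG (Gq q M H)) : LaurentSeries ℂ) = c s := diaFq_FF hγ (hcF s)
    have e2 : ((D ⟨_, hz'⟩ : MFunG (Gq q M H)) : LaurentSeries ℂ) = cst ℂ (zs H a) := by
      have := diaFq_z (H := H) hM2 hγ hγa 1
      rw [inv_inv, one_mul] at this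
      exact this
    rw [e1, e2]
  have hc : ∀ s, c s = 0 := by
    let p : (LaurentSeries ℂ)[X] := ∑ s : Fin H.index, C (c s) * X ^ (s : ℕ)
    have hp : p = 0 := by
      apply Polynomial.eq_zero_of_natDegree_lt_card_of_eval_eq_zero p (zq_inj (H := H) hM3)
      · intro d
        rw [eval_finsetSum]
        simp only [eval_mul, eval_C, eval_pow, eval_X]
        exact hroot d.out
      · rw [card_quot]
        have h0 : 0 < H.index := Nat.pos_of_ne_zero Subgroup.FiniteIndex.index_ne_zero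
        rcases eq_or_ne p 0 with hp0 | hp0
        · rw [hp0, natDegree_zero]; exact h0
        · exact (Polynomial.natDegree_lt_iff_degree_lt hp0).2 (Polynomial.degree_sum_fin_lt _)
    intro s
    have h1 := congrArg (fun r : (LaurentSeries ℂ)[X] => r.coeff (s : ℕ)) hp
    simp only [p, finsetSum_coeff, coeff_C_mul_X_pow, coeff_zero] at h1
    rw [Finset.sum_eq_single s] at h1
    · rw [if_pos rfl] at h1
      exact h1
    · intro b _ hb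
      rw [if_neg]
      intro h2
      exact hb (Fin.ext h2.symm)
    · intro h2
      exact absurd (Finset.mem_univ _) h2
  rintro ⟨i, s⟩
  exact hLI (fun i => P (i, s)) (hc s) i

/-- **generation** -/
theorem MFunGq_le (hM3 : 3 ≤ M) {F : IntermediateField ℂ (LaurentSeries ℂ)}
    (h1 : FF ℂ (q * M) ≤ F) (h2 : cst ℂ (zs H 1) ∈ F) {x : LaurentSeries ℂ}
    (hx : x ∈ MFunG (Gq q M H)) : x ∈ F := by
  rw [mem_MFunG_iff] at hx
  have hk : ((q * M : ℕ) : ℂ) ≠ 0 := by exact_mod_cast NeZero.ne (q * M)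
  have hz : cst ℂ (zs H 1) ∈ FG (Gq q M H) ℂ :=
    mem_MFunG_iff.1 (MFunG_mono Gq_le (z_mem_MFunG (by omega) 1))
  have hmon : ∀ i, cst ℂ (monos hk i) ∈ FG (Gq q M H) ℂ := fun i =>
    mem_MFunG_iff.1 (FF_le_MFunG (GH_le _ _) (cst_mem_FF (monos_mem hk i)))
  have h4 : ∀ p : Fin (dedekindPsi (q * M)) × Fin H.index,
      cst ℂ (monos hk p.1 * zs H 1 ^ (p.2 : ℕ)) ∈ FG (Gq q M H) ℂ := by
    intro p
    rw [cst, map_mul, map_pow]
    exact mul_mem (hmon _) (pow_mem hz _)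
  have h3 : Module.finrank ℂ⟮jj (Gq q M H) ℂ⟯ (FG (Gq q M H) ℂ) =
      Fintype.card (Fin (dedekindPsi (q * M)) × Fin H.index) := by
    rw [finrank_eq (Gq q M H) ℂ (RingHom.id ℂ), Fintype.card_prod, Fintype.card_fin,
      Fintype.card_fin, ← index_HM (dvd_mul_left M q) H, ← index_GH, Subgroup.index,
      Nat.card_eq_fintype_card]
  have hLI := LIZ_mixed (q := q) (H := H) hM3 (fun i => cst_mem_FF (monos_mem hk i))
    (LIZ_monos hk)
  obtain ⟨Q, hQ, P, hP⟩ := Red.exists_repr_of_finrank (jj (Gq q M H) ℂ)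
    (transcendental_jj (Γ := Gq q M H) (K := ℂ))
    (fun p => (⟨_, h4 p⟩ : FG (Gq q M H) ℂ))
    (by
      intro P hP
      funext i
      refine hLI P ?_ i
      have h2 := congrArg (fun x : FG (Gq q M H) ℂ => (x : LaurentSeries ℂ)) hP
      simp only [AddSubmonoidClass.coe_finsetSum, MulMemClass.coe_mul, ZeroMemClass.coe_zero] at h2
      rw [← h2]
      refine Finset.sum_congr rfl fun i _ => ?_
      congr 1
      exact (coe_aeval_of (FG (Gq q M H) ℂ) j_mem _).symm) h3 ⟨x, hx⟩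
  have h5 := congrArg (fun x : FG (Gq q M H) ℂ => (x : LaurentSeries ℂ)) hP
  simp only [AddSubmonoidClass.coe_finsetSum, MulMemClass.coe_mul] at h5
  have e1 : ∀ Q : ℂ[X], ((aeval (jj (Gq q M H) ℂ) Q : FG (Gq q M H) ℂ) : LaurentSeries ℂ) =
      evT (jqModC ℂ) Q := fun Q => coe_aeval_of (FG (Gq q M H) ℂ) j_mem Q
  simp only [e1] at h5
  have hjF : jqModC ℂ ∈ F := h1 jq_mem_FF
  have h6 : evT (jqModC ℂ) Q * x ∈ F := by
    rw [h5]
    refine sum_mem fun p _ => mul_mem (evT_mem _ hjF _) ?_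
    rw [cst, map_mul, map_pow]
    exact mul_mem (h1 (cst_mem_FF (monos_mem hk _))) (pow_mem h2 _)
  have h7 : x = (evT (jqModC ℂ) Q)⁻¹ * (evT (jqModC ℂ) Q * x) := by
    rw [inv_mul_cancel_left₀ (evT_ne_zero hQ)]
  rw [h7]
  exact mul_mem (inv_mem (evT_mem _ hjF _)) h6

end mixed

end

end Fermat.Agent.SSH
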