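import Fermat.Agent.SSH.WK
import Fermat.Agent.SSH.Unip
import Fermat.Agent.Cov.GoodH

/-!
# The semistable structure at the level `Γ₀(q) ∩ Γ_H(M)`
-/

set_option autoImplicit false
set_option linter.unusedSectionVars false
set_option linter.style.haveILetI false

open UpperHalfPlane ModularForm Complex Matrix.SpecialLinearGroup
open scoped MatrixGroups Manifold
open Fermat.Agent.AL Fermat.Agent.ALCoh Fermat.Agent.KumG Fermat.Agent.Cov CongruenceSubgroup
  ModularCurve Fermat.Agent.ModPoly Fermat.Agent.GamH Polynomial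
  IntermediateField Fermat.Agent.RedMod Fermat.Agent.Red AlgebraicCurve Fermat.Agent.RR

namespace Fermat.Agent.SSH

noncomputable section

section GPF

variable {A K k : Type*} [CommRing A] [IsDomain A] [ValuationRing A]
  [Field K] [IsAlgClosed K] [CharZero K] [Algebra ℚ K] [Algebra A K] [IsFractionRing A K]
  [Field k] [IsAlgClosed k] [Algebra A k]
  (ι : K →+* ℂ) (hk : Function.Surjective (algebraMap A k)) {M : ℕ} [NeZero M]
  (hM : (M : k) ≠ 0) (hM3 : 3 ≤ M) {H : Subgroup (ZMod M)ˣ} [hH : Fact ((-1 : (ZMod M)ˣ) ∈ H)]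

include ι hk hM3 in
theorem gpF : GP A (FG (GH M H) K) (FH k M H) (yF hM H) := by
  rw [FG_eq_FH ι hM3 hH.out]
  exact gpH hk hM hM3 hH.out

theorem spF_aux {F : IntermediateField K (LaurentSeries K)} (e : F = FH K M H)
    (G : GP A F (FH k M H) (yF hM H)) (hk : Function.Surjective (algebraMap A k)) (hM3 : 3 ≤ M) :
    SP G := by
  subst e
  exact spH (K := K) hk hM hM3 hH.out

theorem spF : SP (gpF (A := A) ι hk hM hM3 (H := H)) :=
  spF_aux hM (FG_eq_FH ι hM3 hH.out) _ hk hM3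

theorem genus_aux {F : IntermediateField K (LaurentSeries K)} (e : F = FH K M H)
    [FunField K F] [FunField K (FH K M H)] : rrGenus K F = rrGenus K (FH K M H) := by
  subst e
  rfl

include A ι hk hM hM3 in
theorem rrGenus_F [FunField k (FH k M H)] [FunField K (FG (GH M H) K)] :
    rrGenus k (FH k M H) = rrGenus K (FG (GH M H) K) := by
  haveI := funField_FH (k := K) (H := H) (natCast_K (A := A) hM) hM3 hH.out
  rw [genus_aux (K := K) (FG_eq_FH ι hM3 hH.out)]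
  exact rrGenus_eq_all (A := A) ι hk hM hM3 hH.out

end GPF

section Theta

variable {A K k : Type*} [CommRing A] [IsDomain A] [ValuationRing A]
  [Field K] [IsAlgClosed K] [CharZero K] [Algebra ℚ K] [Algebra A K] [IsFractionRing A K]
  [Field k] [IsAlgClosed k] [Algebra A k]
  (ι : K →+* ℂ) (hk : Function.Surjective (algebraMap A k)) {M : ℕ} [NeZero M]
  (hM : (M : k) ≠ 0) (hM3 : 3 ≤ M) {H : Subgroup (ZMod M)ˣ} [hH : Fact ((-1 : (ZMod M)ˣ) ∈ H)]
  {γ : SL(2, ℤ)} (hγ : γ ∈ Gamma0 M)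

theorem exists_unit_dd (hγ : γ ∈ Gamma0 M) : ∃ u : (ZMod M)ˣ, dd M γ = u :=
  ⟨_, (isUnit_dd hγ).unit_spec.symm⟩

include hM3 in
theorem cst_mono_mem {w : LaurentSeries ℤ} (hw : w ∈ Mono M) : cst K w ∈ FG (GH M H) K :=
  FH_le_FG hM3 hH.out (FF_le_FH (cst_mem_FF hw))

include hM3 in
theorem cst_z_mem (a : (ZMod M)ˣ) : cst K (zs H a) ∈ FG (GH M H) K :=
  cst_mem_FG (z_mem_MFunG (by omega) a)

include hM3 in
theorem diaE_y {u : (ZMod M)ˣ} (hu : dd M γ = u) (p : Fin (dedekindPsi M) × Fin H.index)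
    (h : cst K (yF hM H p) ∈ FG (GH M H) K) :
    (diaE (Γ := GH M H) ι hγ ⟨cst K (yF hM H p), h⟩ : LaurentSeries K) =
      cst K (monos hM p.1 * zs H u⁻¹ ^ (p.2 : ℕ)) := by
  have h1 := cst_mono_mem (K := K) (H := H) hM3 (monos_mem hM p.1)
  have h2 := cst_z_mem (K := K) (H := H) hM3 1
  have e : (⟨cst K (yF hM H p), h⟩ : FG (GH M H) K) = ⟨_, h1⟩ * ⟨_, h2⟩ ^ (p.2 : ℕ) := by
    apply Subtype.ext
    change cst K (yF hM H p) = cst K (monos hM p.1) * cst K (zs H 1) ^ (p.2 : ℕ)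
    rw [yF, cst, map_mul, map_pow]
  have e1 := diaE_mono (K := K) (H := H) ι hγ (monos_mem hM p.1) h1
  have e2 := diaE_z (K := K) ι (by omega) hγ hu 1 h2
  rw [one_mul] at e2
  rw [e, map_mul, map_pow]
  change (diaE (Γ := GH M H) ι hγ ⟨_, h1⟩ : LaurentSeries K) *
    (diaE (Γ := GH M H) ι hγ ⟨_, h2⟩ : LaurentSeries K) ^ (p.2 : ℕ) = _
  rw [e1, e2, cst, cst, cst, map_mul, map_pow]

theorem cst_mem_WL (w : LaurentSeries ℤ) : cst K w ∈ WL A K k := by
  have h2 : cst K w = incL A K (cst A w) := (coeffMap_cst _ _).symm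
  rw [h2]
  exact incL_mem _

theorem exists_θb : ∃ θb : FH k M H ≃ₐ[k] FH k M H, ∀ (x : FG (GH M H) K)
    (h : (x : LaurentSeries K) ∈ WL A K k),
      ∃ h' : (diaE (Γ := GH M H) ι hγ x : LaurentSeries K) ∈ WL A K k,
        πL A K k ⟨diaE (Γ := GH M H) ι hγ x, h'⟩ =
          (θb ⟨πL A K k ⟨x, h⟩, (gpF ι hk hM hM3).πL_mem x⟩ : LaurentSeries k) := by
  refine exists_desc (gpF ι hk hM hM3) (spF (A := A) ι hk hM hM3).fink
    (spF (A := A) ι hk hM hM3).rkk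
    (diaE (Γ := GH M H) ι hγ) (diaE_j ι hγ _) ?_ ?_
  · intro p
    obtain ⟨u, hu⟩ := exists_unit_dd hγ
    rw [diaE_y ι hM hM3 hγ hu]
    exact cst_mem_WL _
  · intro p
    obtain ⟨u, hu⟩ := exists_unit_dd (inv_mem hγ)
    have e : ((diaE (Γ := GH M H) ι hγ).symm ⟨cst K (yF hM H p),
      (gpF (A := A) ι hk hM hM3).yK p⟩ : LaurentSeries K) =
        (diaE (Γ := GH M H) ι (inv_mem hγ) ⟨cst K (yF hM H p), (gpF (A := A) ι hk hM hM3).yK p⟩ :
          LaurentSeries K) := rfl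
    rw [e, diaE_y ι hM hM3 (inv_mem hγ) hu]
    exact cst_mem_WL _

end Theta

section Main

variable {A K k : Type*} [CommRing A] [IsDomain A] [ValuationRing A]
  [Field K] [IsAlgClosed K] [CharZero K] [Algebra ℚ K] [Algebra A K] [IsFractionRing A K]
  [Field k] [IsAlgClosed k] [Algebra A k]
  (ι : K →+* ℂ) (hk : Function.Surjective (algebraMap A k)) {M q : ℕ} [NeZero M]
  [hq : Fact q.Prime]
  (hM : (M : k) ≠ 0) (hM3 : 3 ≤ M) {H : Subgroup (ZMod M)ˣ} [hH : Fact ((-1 : (ZMod M)ˣ) ∈ H)]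
  (D : WData q M H)

/-- the diamond operators -/
def diaD {γ : SL(2, ℤ)} (hγ : γ ∈ Gamma0 (q * M)) :
    Dia (FG (Gq q M H) K) (gpF (A := A) (k := k) ι hk hM hM3) (incl_le K) (wE ι D hM3) where
  D := diaE (Γ := Gq q M H) ι hγ
  θ := diaE (Γ := GH M H) ι (mem_M hγ)
  θb := (exists_θb ι hk hM hM3 (mem_M hγ)).choose
  D_inc := diaE_incl ι hγ
  D_w := diaE_wE ι D hM3 hγ
  θ_j := diaE_j ι (mem_M hγ) _
  red := (exists_θb ι hk hM hM3 (mem_M hγ)).choose_spec
  red' x h := by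
    have hs := (exists_θb (H := H) ι hk hM hM3 (mem_M hγ)).choose_spec
    set θb := (exists_θb (H := H) ι hk hM hM3 (mem_M hγ)).choose
    obtain ⟨θb', hθ'⟩ := exists_θb (H := H) ι hk hM hM3 (inv_mem (mem_M hγ))
    have h1 : ((diaE (Γ := GH M H) ι (mem_M hγ)).symm x : LaurentSeries K) ∈ WL A K k :=
      (hθ' x h).choose
    refine ⟨h1, ?_⟩
    obtain ⟨h2, h3⟩ := hs ((diaE (Γ := GH M H) ι (mem_M hγ)).symm x) h1
    have e : (diaE (Γ := GH M H) ι (mem_M hγ)) ((diaE (Γ := GH M H) ι (mem_M hγ)).symm x) = x :=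
      AlgEquiv.apply_symm_apply _ _
    have h4 : πL A K k ⟨_, h2⟩ = πL A K k ⟨x, h⟩ := πL_congr (by rw [e]) _ _
    rw [h4] at h3
    have h5 : (⟨πL A K k ⟨x, h⟩, (gpF (A := A) ι hk hM hM3).πL_mem x⟩ : FH k M H) =
        θb ⟨πL A K k ⟨_, h1⟩, (gpF (A := A) ι hk hM hM3).πL_mem _⟩ := Subtype.ext h3
    rw [h5, AlgEquiv.symm_apply_apply]

theorem index_eq (hqM : ¬ q ∣ M) : Fintype.card (Fin (dedekindPsi M) × Fin H.index) * (q + 1) =
    (Gq q M H).index := by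
  rw [Fintype.card_prod, Fintype.card_fin, Fintype.card_fin, index_GH, index_HM, mul_comm q M,
    Cosets.dedekindPsi_mul_of_not_dvd hq.out hqM]
  ring

/-- a diamond with the right lower entry -/
theorem exists_γ0 : ∃ γ ∈ Gamma0 (q * M), γ * (D.s)⁻¹ ∈ GH M H := by
  obtain ⟨u, hu⟩ := exists_unit_dd (sQ_mem D.h)
  obtain ⟨γ, hγ, h⟩ := exists_dd_M (M := M) q u
  refine ⟨γ, hγ, ?_⟩
  have h1 := Gamma0_le (dvd_mul_left M q) hγ
  rw [mem_GH_dd (mul_mem h1 (inv_mem (sQ_mem D.h))), dd_mul h1 (inv_mem (sQ_mem D.h)), h, ← hu,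
    mul_comm, dd_inv_mul (sQ_mem D.h)]
  exact ⟨1, one_mem _, by simp⟩

include ι in
theorem rkq_aux {Γ : Subgroup SL(2, ℤ)} [LvlG Γ] [RatG Γ] (h : jqModC K ∈ FG Γ K) :
    Module.finrank K⟮(⟨jqModC K, h⟩ : FG Γ K)⟯ (FG Γ K) = Γ.index := by
  have h1 := finrank_eq Γ K ι
  have h2 : MFLib.idx Γ = Γ.index := by
    rw [Subgroup.index, Nat.card_eq_fintype_card]
  rw [h2] at h1
  exact h1

include ι in
theorem finq_aux {Γ : Subgroup SL(2, ℤ)} [LvlG Γ] [RatG Γ] (h : jqModC K ∈ FG Γ K) :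
    FiniteDimensional K⟮(⟨jqModC K, h⟩ : FG Γ K)⟯ (FG Γ K) := by
  haveI : Nonempty (K →+* ℂ) := ⟨ι⟩
  exact finDim_FG (Γ := Γ) (K := K)

theorem w_inc_aux (x : FG (GH M H) K) :
    (wE ι D hM3 (IntermediateField.inclusion (incl_le K) x) : LaurentSeries K) =
      qExpand K q (diaE (Γ := GH M H) ι (mem_M (exists_γ0 D).choose_spec.1) x :
        LaurentSeries K) := by
  have h1 := diaK_congr (Γ := GH M H) ι (mem_M (exists_γ0 D).choose_spec.1) (sQ_mem D.h)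
      (exists_γ0 D).choose_spec.2 x
  rw [diaE_apply, h1]
  exact wE_level ι D hM3 x

variable (hqM : ¬ q ∣ M) [CharP k q]

/-- **The semistable structure** of level `Γ₀(q) ∩ Γ_H(M)`. -/
def ssd : SSD A (FG (GH M H) K) (FG (Gq q M H) K) (FH k M H) (yF hM H) q where
  G := gpF (A := A) (k := k) ι hk hM hM3
  hle := incl_le K
  w := wE ι D hM3
  w_w := wE_wE ι D hM3
  δ := diaD ι hk hM hM3 D (exists_γ0 D).choose_spec.1
  w_inc := w_inc_aux ι hM3 D
  E_exp := FH_exp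
  E_gal := FH_cstab
  finq := finq_aux ι _
  rkq := by
    rw [index_eq hqM]
    exact rkq_aux ι _

end Main

end

end Fermat.Agent.SSH
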