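import Fermat.Agent.SSH.Frob
import Fermat.Agent.Nod.CuspOrd
import Fermat.Agent.Nod.Modular

/-!
# Poles of `j` and `j(q τ)`
-/

set_option autoImplicit false
set_option linter.style.haveILetI false
set_option linter.unusedSectionVars false

noncomputable section

namespace Fermat.Agent.SSH

open ModularCurve Polynomial IntermediateField Fermat.Agent.ModPoly Fermat.Agent.Red
  Fermat.Agent.RedMod Fermat.Agent.Cov Fermat.Agent.SemiSt AlgebraicCurve Fermat.Agent.Nod
  Fermat.Agent.Curve Fermat.Agent.RR

variable {A K k : Type*} [CommRing A] [IsDomain A] [ValuationRing A]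
  [Field K] [IsAlgClosed K] [CharZero K] [Algebra A K] [IsFractionRing A K]
  [Field k] [IsAlgClosed k] [Algebra A k]
  {FM Fq : IntermediateField K (LaurentSeries K)} {E : IntermediateField k (LaurentSeries k)}
  {ι : Type*} [Fintype ι] {y : ι → LaurentSeries ℤ} {q : ℕ} [hq : Fact q.Prime]
  (S : SSD A FM Fq E y q) {M : ℕ} [NeZero M] (hle : FF K (q * M) ≤ Fq)

namespace SSD

theorem incl_jF : IntermediateField.inclusion hle (jF' K (q * M)) = S.jq := by
  apply Subtype.ext
  change (jF' K (q * M) : LaurentSeries K) = jqModC K
  rw [← jF_eq]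

theorem incl_qe_jF : IntermediateField.inclusion hle (qe K q M (jF' K M)) = S.be S.jM := by
  apply Subtype.ext
  rw [S.coe_be_jM]
  change (qe K q M (jF' K M) : LaurentSeries K) = _
  rw [coe_qe, ← jF_eq]

include hle in
theorem pol [FunField K (FF K (q * M))] [FunField K Fq] : S.Pol where
  cases v hv := by
    have e1 := incl_jF S hle
    have e2 := incl_qe_jF S hle
    rw [← e1, ← e2]
    rw [← e1] at hv
    obtain ⟨u, m, hm, h⟩ := RR.exists_restrict (IntermediateField.inclusion hle) v
      (j := jF' K (q * M)) hv.ne
    have hj0 : jF' K (q * M) ≠ 0 := by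
      intro h0
      rw [h0, map_zero, v.ord_zero] at hv
      exact lt_irrefl _ hv
    have hv' : u.ord (jF' K (q * M)) < 0 := by
      rw [h _ hj0] at hv
      by_contra hcon
      push Not at hcon
      have := mul_nonneg hm.le hcon
      linarith
    have hN : ((q * M : ℕ) : K) ≠ 0 := by
      have := NeZero.ne (q * M)
      exact_mod_cast this
    have hb0 : qe K q M (jF' K M) ≠ 0 := by
      intro h0
      rw [h0, map_zero] at e2
      have h2 : S.jM = 0 := (map_eq_zero S.be).1 e2.symm
      have h3 : Transcendental K S.jM := transcendental_of FM S.G.jK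
      apply h3
      rw [h2]
      exact isAlgebraic_zero
    rcases Nod.pole_cases hN u hv' with h1 | ⟨h1, h2⟩
    · left
      rw [h _ hj0, h _ hb0, h1]
      ring
    · right
      refine ⟨?_, ?_⟩
      · rw [h _ hj0, h _ hb0, h1]
        ring
      · have h3 : IntermediateField.inclusion hle (jF' K (q * M)) ^ q -
          IntermediateField.inclusion hle (qe K q M (jF' K M)) =
            IntermediateField.inclusion hle (jF' K (q * M) ^ q - qe K q M (jF' K M)) := rfl
        rw [h3]
        rcases h2 with h2 | h2
        · left
          rw [h2, map_zero]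
        · by_cases h4 : jF' K (q * M) ^ q - qe K q M (jF' K M) = 0
          · left
            rw [h4, map_zero]
          · right
            rw [h _ hj0, h _ h4]
            calc ((q : ℤ) - 1) * (m * u.ord (jF' K (q * M))) =
                m * (((q : ℤ) - 1) * u.ord (jF' K (q * M))) := by ring
              _ ≤ _ := mul_le_mul_of_nonneg_left h2 hm.le
  reg v hv := by
    have hreg : Reg K (jF' K (q * M)) (qe K q M (jF' K M)) := fun v hv =>
      Ge.of_le (Nod.ge_qe_jF v hv)
    have h1 := reg_map (IntermediateField.inclusion hle) (RR.transcendental_jF _) hreg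
    rw [incl_jF S hle, incl_qe_jF S hle] at h1
    rcases h1 v hv with h2 | h2
    · rw [h2, v.ord_zero]
    · exact h2

end SSD

end Fermat.Agent.SSH
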