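import Fermat.Agent.SSH.Inst
import Fermat.Agent.SSH.Pol

/-!
# Galois compatibility of the semistable structure at the level `Γ₀(q) ∩ Γ_H(M)`
-/

set_option autoImplicit false
set_option linter.unusedSectionVars false
set_option linter.style.haveILetI false

open UpperHalfPlane ModularForm Complex Matrix.SpecialLinearGroup
open scoped MatrixGroups Manifold
open Fermat.Agent.AL Fermat.Agent.ALCoh Fermat.Agent.KumG Fermat.Agent.Cov CongruenceSubgroup
  ModularCurve Fermat.Agent.ModPoly Fermat.Agent.GamH Polynomial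
  IntermediateField Fermat.Agent.RedMod Fermat.Agent.Red AlgebraicCurve Fermat.Agent.RR

namespace Fermat.Agent.SSH

noncomputable section

section Gen

variable {A K k : Type*} [CommRing A] [IsDomain A] [ValuationRing A]
  [Field K] [Algebra A K] [IsFractionRing A K] [Field k] [Algebra A k]
  {FM Fq : IntermediateField K (LaurentSeries K)} {E : IntermediateField k (LaurentSeries k)}
  {ι : Type*} [Fintype ι] {y : ι → LaurentSeries ℤ} {G : GP A FM E y} {hle : FM ≤ Fq}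
  {w : Fq ≃ₐ[K] Fq}

theorem θb_cst (d : Dia Fq G hle w) {a b : LaurentSeries ℤ} (h : cst K a ∈ FM)
    (h' : cst k a ∈ E) (e : (d.θ ⟨cst K a, h⟩ : LaurentSeries K) = cst K b) :
    (d.θb ⟨cst k a, h'⟩ : LaurentSeries k) = cst k b := by
  have h1 := SSD.LR.dia d (x := ⟨cst K a, h⟩) (a := ⟨cst k a, h'⟩) (LR.cst a)
  exact (h1.of_eq e rfl).unique (LR.cst b)

end Gen

section FHgal

variable {k : Type*} [Field k] {N : ℕ} [NeZero N] {H : Subgroup (ZMod N)ˣ}

/-- commutation with coefficientwise maps can be checked on generators -/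
theorem gal_comm (θb : FH k N H ≃ₐ[k] FH k N H)
    (h1 : ∀ (m : ℕ+) (hm : (m : ℕ) ∣ N), ∃ b : LaurentSeries ℤ,
      (θb ⟨Jc 1 m, FF_le_FH (Jc_one_mem hm)⟩ : LaurentSeries k) = cst k b)
    (h2 : ∃ b : LaurentSeries ℤ, (θb (zX k N H) : LaurentSeries k) = cst k b)
    (hE : CStab (FH k N H)) (σ : k ≃+* k) (x : FH k N H) :
    actF hE σ (θb x) = θb (actF hE σ x) := by
  have key : ((actF hE σ).toRingHom.comp θb.toRingEquiv.toRingHom) =
      (θb.toRingEquiv.toRingHom.comp (actF hE σ).toRingHom) := by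
    apply homExt
    · intro c
      change actF hE σ (θb (algebraMap k _ c)) = θb (actF hE σ (algebraMap k _ c))
      rw [AlgEquiv.commutes, actF_algebraMap, AlgEquiv.commutes]
    · intro m hm
      change actF hE σ (θb _) = θb (actF hE σ _)
      haveI : NeZero (m : ℕ) := ⟨m.ne_zero⟩
      have e1 : actF hE σ ⟨Jc 1 m, FF_le_FH (Jc_one_mem hm)⟩ =
          ⟨Jc 1 m, FF_le_FH (Jc_one_mem hm)⟩ := by
        apply Subtype.ext
        rw [coe_actF]
        change coeffMap (σ : k →+* k) (Jc 1 m) = Jc 1 m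
        rw [Jc_one_eq, coeffMap_qExpand, coeffMap_jqModC]
      rw [e1]
      obtain ⟨b, hb⟩ := h1 m hm
      apply Subtype.ext
      rw [coe_actF, hb, coeffMap_cst]
    · change actF hE σ (θb _) = θb (actF hE σ _)
      have e1 : actF hE σ (zX k N H) = zX k N H := by
        apply Subtype.ext
        rw [coe_actF]
        change coeffMap (σ : k →+* k) (cst k (zs H 1)) = cst k (zs H 1)
        rw [coeffMap_cst]
      rw [e1]
      obtain ⟨b, hb⟩ := h2
      apply Subtype.ext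
      rw [coe_actF, hb, coeffMap_cst]
  exact congrArg (fun f : FH k N H →+* FH k N H => f x) key

end FHgal

section Dia

variable {M : ℕ} [NeZero M] {H : Subgroup (ZMod M)ˣ}
  [hH : Fact ((-1 : (ZMod M)ˣ) ∈ H)] {K : Type*} [Field K] [Algebra ℚ K] (ι : K →+* ℂ)

theorem diaE_FF {γ : SL(2, ℤ)} (hγ : γ ∈ Gamma0 M) {w : LaurentSeries ℤ}
    (hw : cst ℂ w ∈ FF ℂ M) (h : cst K w ∈ FG (GH M H) K) :
    (diaE (Γ := GH M H) ι hγ ⟨cst K w, h⟩ : LaurentSeries K) = cst K w := by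
  apply coeffMap_inj ι
  rw [coe_diaE]
  change diaF (Γ := GH M H) γ (coeffMap ι (cst K w)) = coeffMap ι (cst K w)
  rw [coeffMap_cst]
  haveI : LvlG (Gamma0 M) := lvl0
  have h1 := FF_le_MFunG (Γ := Gamma0 M) (N := M) le_rfl hw
  rw [diaF_mono (GH_le _ _) (Nz.of_mem hγ) (nz_GH hγ) h1, diaF_of_mem hγ h1]

end Dia

section Main

variable {A K k : Type*} [CommRing A] [IsDomain A] [ValuationRing A]
  [Field K] [IsAlgClosed K] [CharZero K] [Algebra ℚ K] [Algebra A K] [IsFractionRing A K]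
  [Field k] [IsAlgClosed k] [Algebra A k]
  (ι : K →+* ℂ) (hk : Function.Surjective (algebraMap A k)) {M q : ℕ} [NeZero M]
  [hq : Fact q.Prime]
  (hM : (M : k) ≠ 0) (hM3 : 3 ≤ M) {H : Subgroup (ZMod M)ˣ} [hH : Fact ((-1 : (ZMod M)ˣ) ∈ H)]
  (D : WData q M H)

theorem cst_Jc {F : Type*} [Field F] (m : ℕ+) :
    haveI : NeZero (m : ℕ) := ⟨m.ne_zero⟩
    cst F (qExpand ℤ m (jqModC ℤ)) = (Jc 1 m : LaurentSeries F) := by
  haveI : NeZero (m : ℕ) := ⟨m.ne_zero⟩
  rw [cst, coeffMap_qExpand, coeffMap_jqModC, Jc_one_eq]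

theorem diaD_b_gal {γ : SL(2, ℤ)} (hγ : γ ∈ Gamma0 (q * M)) (σ : k ≃+* k) (x : FH k M H) :
    actF FH_cstab σ ((diaD (A := A) (k := k) ι hk hM hM3 D hγ).θb x) =
      (diaD (A := A) (k := k) ι hk hM hM3 D hγ).θb (actF FH_cstab σ x) := by
  apply gal_comm
  · intro m hm
    haveI : NeZero (m : ℕ) := ⟨m.ne_zero⟩
    have hw : cst ℂ (qExpand ℤ m (jqModC ℤ)) ∈ FF ℂ M := by
      rw [cst_Jc]
      exact Jc_one_mem hm
    have h : cst K (qExpand ℤ m (jqModC ℤ)) ∈ FG (GH M H) K := by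
      rw [cst_Jc]
      exact FH_le_FG hM3 hH.out (FF_le_FH (Jc_one_mem hm))
    have h' : cst k (qExpand ℤ m (jqModC ℤ)) ∈ FH k M H := by
      rw [cst_Jc]
      exact FF_le_FH (Jc_one_mem hm)
    refine ⟨qExpand ℤ m (jqModC ℤ), ?_⟩
    have h1 := θb_cst (diaD (A := A) (k := k) ι hk hM hM3 D hγ) h h'
      (diaE_FF ι (mem_M hγ) hw h)
    refine Eq.trans ?_ h1
    congr 2
    apply Subtype.ext
    exact (cst_Jc m).symm
  · obtain ⟨u, hu⟩ := exists_unit_dd (mem_M hγ)
    have h := cst_z_mem (K := K) (H := H) hM3 1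
    exact ⟨zs H (1 * u⁻¹), θb_cst (diaD (A := A) (k := k) ι hk hM hM3 D hγ) h z_mem_FH
      (diaE_z ι (by omega) (mem_M hγ) hu 1 h)⟩

variable (hqM : ¬ q ∣ M) [CharP k q]

theorem ssd_gal : (ssd (A := A) (k := k) ι hk hM hM3 D hqM).Gal where
  cM := FG_cstab
  cq := FG_cstab
  w_gal σ x := by
    apply Subtype.ext
    rw [coe_actF]
    exact (wE_gal ι D hM3 (σ : K →+* K) x (actF FG_cstab σ x) rfl).symm
  b_gal σ x := diaD_b_gal ι hk hM hM3 D (exists_γ0 D).choose_spec.1 σ x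

end Main

end

end Fermat.Agent.SSH
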