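import Fermat.Agent.SSH.Slash
import Fermat.Agent.Cov.Tower

/-!
# The Atkin-Lehner matrix at the level `Γ₀(q) ∩ Γ_H(M)`
-/

set_option autoImplicit false
set_option linter.unusedSectionVars false

open UpperHalfPlane ModularForm Complex Matrix.SpecialLinearGroup
open scoped MatrixGroups Manifold
open Fermat.Agent.AL Fermat.Agent.ALCoh Fermat.Agent.KumG Fermat.Agent.Cov CongruenceSubgroup

namespace Fermat.Agent.SSH

noncomputable section

variable {q M : ℕ} [NeZero q] [NeZero M]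

/-- the levels -/
abbrev Gq (q M : ℕ) (H : Subgroup (ZMod M)ˣ) : Subgroup SL(2, ℤ) :=
  GH (q * M) (HM (dvd_mul_left M q) H)

theorem Gamma0_le {N N' : ℕ} (h : N ∣ N') : Gamma0 N' ≤ Gamma0 N := fun _ hγ =>
  mem_Gamma0_iff.2 ((Int.natCast_dvd_natCast.2 h).trans (mem_Gamma0_iff.1 hγ))

theorem mem_GH_dd {N : ℕ} {H : Subgroup (ZMod N)ˣ} {γ : SL(2, ℤ)} (hγ : γ ∈ Gamma0 N) :
    γ ∈ GH N H ↔ ∃ u ∈ H, dd N γ = (u : (ZMod N)ˣ) :=
  ⟨fun h => exists_unit_of_mem h, fun ⟨u, hu, h⟩ => ⟨hγ, u, hu, h.symm⟩⟩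

theorem dd_cast {N N' : ℕ} (h : N ∣ N') (γ : SL(2, ℤ)) :
    ZMod.castHom h (ZMod N) (dd N' γ) = dd N γ := by
  simp [dd]

/-- the criterion for membership -/
theorem mem_Gq {H : Subgroup (ZMod M)ˣ} {γ : SL(2, ℤ)} :
    γ ∈ Gq q M H ↔ γ ∈ Gamma0 (q * M) ∧ γ ∈ GH M H := by
  constructor
  · intro h
    exact ⟨h.1, GH_HM_le (dvd_mul_left M q) H h⟩
  · rintro ⟨h0, h1⟩
    rw [mem_GH_dd h0]
    obtain ⟨w, hw⟩ := isUnit_dd h0
    refine ⟨w, ?_, hw.symm⟩
    rw [mem_GH_dd h1.1] at h1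
    obtain ⟨u, hu, h2⟩ := h1
    rw [HM, Subgroup.mem_comap]
    have : ZMod.unitsMap (dvd_mul_left M q) w = u := by
      ext
      rw [← h2, ← dd_cast (dvd_mul_left M q) γ, ← hw]
      rfl
    rw [this]
    exact hu

/-- the Atkin-Lehner matrix -/
def WQ (q M : ℕ) (x y v : ℤ) : M2 := !![q * x, y; q * M, q * v]

variable {x y v : ℤ}

theorem det_WQ (h : x * (q * v) - M * y = 1) : (WQ q M x y v).det = q := by
  rw [WQ, Matrix.det_fin_two_of]
  linear_combination (q : ℤ) * h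

/-- the element of `Γ₀(M)` -/
def sQ (h : x * (q * v) - M * y = 1) : SL(2, ℤ) :=
  mkSL !![x, y; M, q * v] (by rw [Matrix.det_fin_two_of]; linear_combination h)

theorem coe_sQ (h : x * (q * v) - M * y = 1) : (sQ h : M2) = !![x, y; M, q * v] := rfl

theorem sQ_mem (h : x * (q * v) - M * y = 1) : sQ h ∈ Gamma0 M := by
  refine mkSL_mem _ ?_
  simp

theorem dd_sQ (h : x * (q * v) - M * y = 1) : dd M (sQ h) = (q * v : ℤ) := by
  rw [dd]
  change (((!![x, y; (M : ℤ), q * v] : M2) 1 1 : ℤ) : ZMod M) = _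
  simp

theorem sQ_mul_dg (h : x * (q * v) - M * y = 1) : (sQ h : M2) * dg q = WQ q M x y v := by
  rw [coe_sQ, WQ]
  ext i j
  fin_cases i <;> fin_cases j <;> simp [Matrix.mul_apply, Fin.sum_univ_two, mul_comm]

theorem det_of_mul {A B C D : M2} (h : A * B = C * D) (hA : A.det = D.det) (hA0 : A.det ≠ 0) :
    B.det = C.det := by
  have h1 := congrArg Matrix.det h
  rw [Matrix.det_mul, Matrix.det_mul, ← hA, mul_comm] at h1
  exact mul_right_cancel₀ hA0 h1

/-- conjugation by the Atkin-Lehner matrix -/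
theorem WQ_conj (hq : q ≠ 0) (h : x * (q * v) - M * y = 1) {γ : SL(2, ℤ)}
    (hγ : γ ∈ Gamma0 (q * M)) : ∃ δ ∈ Gamma0 (q * M),
      WQ q M x y v * (γ : M2) = (δ : M2) * WQ q M x y v ∧ dd M δ = dd M γ := by
  obtain ⟨c, hc⟩ := mem_Gamma0_iff.1 hγ
  set a := γ 0 0 with ha
  set b := γ 0 1 with hb
  set d := γ 1 1 with hd
  have hγ' : (γ : M2) = !![a, b; (((q * M : ℕ) : ℤ) * c), d] := by
    ext i j
    fin_cases i <;> fin_cases j <;> simp [ha, hb, hd, hc]
  let D : M2 := !![(q * x * a + y * q * M * c) * v - (q * x * b + y * d) * M,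
    -y * (x * a + y * M * c) + x * (q * x * b + y * d);
    q * M * (a * v + q * v ^ 2 * c - M * b - v * d),
    -y * (M * a + v * q * M * c) + x * (q * M * b + q * v * d)]
  have e1 : WQ q M x y v * (γ : M2) = D * WQ q M x y v := by
    rw [hγ', WQ]
    ext i j
    fin_cases i <;> fin_cases j <;>
      simp only [Matrix.mul_apply, Fin.sum_univ_two, Matrix.of_apply, Matrix.cons_val', Fin.isValue,
        Matrix.cons_val_zero, Matrix.cons_val_one, Fin.mk_zero, Fin.mk_one, D] <;>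
      push_cast
    · linear_combination (-(q * x * a + y * (q * M * c)) : ℤ) * h
    · linear_combination (-(q * x * b + y * d) : ℤ) * h
    · linear_combination (-(q * M * a + q * v * (q * M * c)) : ℤ) * h
    · linear_combination (-(q * M * b + q * v * d) : ℤ) * h
  have hdet : D.det = 1 := by
    rw [← det_of_mul e1 rfl (by rw [det_WQ h]; exact_mod_cast hq)]
    exact γ.det_coe
  refine ⟨mkSL D hdet, mkSL_mem hdet ?_, e1, ?_⟩
  · simp only [D, Matrix.of_apply, Matrix.cons_val', Matrix.cons_val_zero, Matrix.cons_val_one]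
    push_cast
    exact ⟨_, rfl⟩
  · have h1 : ((D 1 1 : ℤ) : ZMod M) = ((γ 1 1 : ℤ) : ZMod M) := by
      have h2 : D 1 1 = d + M * (-y * (a + v * q * c) + x * q * b + y * d) := by
        change -y * (M * a + v * q * M * c) + x * (q * M * b + q * v * d) = _
        linear_combination d * h
      rw [h2]
      push_cast
      rw [ZMod.natCast_self]
      ring
    exact h1

theorem ad_WQ (hq : 0 < q) (h : x * (q * v) - M * y = 1) (H : Subgroup (ZMod M)ˣ) :
    Ad (Gq q M H) (Gq q M H) (WQ q M x y v) where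
  det := by rw [det_WQ h]; exact_mod_cast hq
  conj γ hγ := by
    obtain ⟨δ, h1, h2, h3⟩ := WQ_conj hq.ne' h hγ.1
    refine ⟨δ, ?_, h2⟩
    rw [mem_Gq] at hγ ⊢
    refine ⟨h1, ?_⟩
    obtain ⟨-, h4⟩ := hγ
    rw [mem_GH_dd h4.1] at h4
    rw [mem_GH_dd (Gamma0_le (dvd_mul_left M q) h1), h3]
    exact h4

/-- the square -/
def gQ (h : x * (q * v) - M * y = 1) : SL(2, ℤ) :=
  mkSL !![q * x ^ 2 + y * M, y * (x + v); q * M * (x + v), M * y + q * v ^ 2] (by
    rw [Matrix.det_fin_two_of]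
    linear_combination (x * q * v - M * y + 1 : ℤ) * h)

theorem WQ_sq (h : x * (q * v) - M * y = 1) :
    WQ q M x y v * WQ q M x y v = (q : ℤ) • (gQ h : M2) := by
  have e : (gQ h : M2) = !![q * x ^ 2 + y * M, y * (x + v); q * M * (x + v),
    M * y + q * v ^ 2] := rfl
  rw [e, WQ]
  ext i j
  fin_cases i <;> fin_cases j <;> simp [Matrix.mul_apply, Fin.sum_univ_two] <;> ring

theorem gQ_mem0 (h : x * (q * v) - M * y = 1) : gQ h ∈ Gamma0 (q * M) := by
  refine mkSL_mem _ ?_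
  simp only [Matrix.of_apply, Matrix.cons_val', Matrix.cons_val_zero, Matrix.cons_val_one]
  push_cast
  exact ⟨_, rfl⟩

theorem dd_gQ (h : x * (q * v) - M * y = 1) : dd M (gQ h) = q * (v : ZMod M) ^ 2 := by
  have h1 : dd M (gQ h) = ((M * y + q * v ^ 2 : ℤ) : ZMod M) := rfl
  rw [h1]
  push_cast
  rw [ZMod.natCast_self]
  ring

theorem gQ_mem (h : x * (q * v) - M * y = 1) {H : Subgroup (ZMod M)ˣ} {u : (ZMod M)ˣ}
    (hu : u ∈ H) (hv : (q : ZMod M) * (v : ZMod M) ^ 2 = u) : gQ h ∈ Gq q M H := by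
  rw [mem_Gq]
  refine ⟨gQ_mem0 h, ?_⟩
  rw [mem_GH_dd (Gamma0_le (dvd_mul_left M q) (gQ_mem0 h)), dd_gQ]
  exact ⟨u, hu, hv⟩

/-- existence of the matrix -/
theorem exists_WQ (hco : q.Coprime M) (e : (ZMod M)ˣ) :
    ∃ x y v : ℤ, x * (q * v) - M * y = 1 ∧ (v : ZMod M) = e := by
  have h1 : Nat.Coprime (e : ZMod M).val M := ZMod.val_coe_unit_coprime e
  have h2 : Nat.Coprime (q * (e : ZMod M).val) M := hco.mul_left h1
  obtain ⟨s, t, hst⟩ := Nat.isCoprime_iff_coprime.2 h2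
  refine ⟨s, -t, ((e : ZMod M).val : ℤ), ?_, by simp⟩
  push_cast at hst
  linear_combination hst

/-- the diamonds commute with the Atkin-Lehner involution -/
theorem WQ_comm (hq : q ≠ 0) (h : x * (q * v) - M * y = 1) (H : Subgroup (ZMod M)ˣ)
    {γ : SL(2, ℤ)} (hγ : γ ∈ Gamma0 (q * M)) : ∃ δ ∈ Gamma0 (q * M), ∃ ε ∈ Gq q M H,
      WQ q M x y v * (γ : M2) = (δ : M2) * WQ q M x y v ∧ δ = ε * γ := by
  obtain ⟨δ, h1, h2, h3⟩ := WQ_conj hq h hγ
  refine ⟨δ, h1, δ * γ⁻¹, ?_, h2, by group⟩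
  rw [mem_Gq]
  have h4 := mul_mem h1 (inv_mem hγ)
  refine ⟨h4, ?_⟩
  have hM := Gamma0_le (dvd_mul_left M q)
  rw [mem_GH_dd (hM h4), dd_mul (hM h1) (hM (inv_mem hγ)), h3, mul_comm, dd_inv_mul (hM hγ)]
  exact ⟨1, one_mem _, by simp⟩

end

end Fermat.Agent.SSH
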