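import Fermat.Agent.SSH.Model

/-!
# Reductions of functions of semistable level
-/

set_option autoImplicit false
set_option linter.style.haveILetI false
set_option linter.unusedSectionVars false

noncomputable section

namespace Fermat.Agent.SSH

open ModularCurve Polynomial IntermediateField Fermat.Agent.ModPoly Fermat.Agent.Red
  Fermat.Agent.RedMod Fermat.Agent.Cov Fermat.Agent.SemiSt

variable {A K k : Type*} [CommRing A] [IsDomain A] [ValuationRing A]
  [Field K] [Algebra A K] [IsFractionRing A K] [Field k] [Algebra A k]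
  {FM Fq : IntermediateField K (LaurentSeries K)} {E : IntermediateField k (LaurentSeries k)}
  {ι : Type*} [Fintype ι] {y : ι → LaurentSeries ℤ} {q : ℕ} [hq : Fact q.Prime]
  (S : SSD A FM Fq E y q) [CharP k q]

namespace SSD

include S in
theorem jq_mem_E : jqModC k ∈ E := S.G.jk

include S in
theorem ub_mem_E : ub k q ∈ E := sub_mem S.G.jk (pow_mem S.G.jk _)

theorem aeval_mem_E {E : IntermediateField k (LaurentSeries k)} {x : LaurentSeries k} (hx : x ∈ E)
    (P : k[X]) : aeval x P ∈ E := by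
  rw [aeval_eq_sum_range]
  refine sum_mem fun i _ => ?_
  rw [Algebra.smul_def]
  exact mul_mem (E.algebraMap_mem _) (pow_mem hx i)

/-- the reductions of the elements of `WW` -/
theorem mem_of_WW (x : Fq) (h1 : (x : LaurentSeries K) ∈ WL A K k)
    (h2 : (S.w x : LaurentSeries K) ∈ WL A K k) :
    πL A K k ⟨x, h1⟩ ∈ E ∧ πL A K k ⟨S.w x, h2⟩ ∈ E := by
  letI : Algebra A (LaurentSeries k) :=
    ((algebraMap k (LaurentSeries k)).comp (algebraMap A k)).toAlgebra
  letI := algA A Fq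
  haveI := tower_algA A Fq
  have hT : ∀ a : A, algebraMap A (LaurentSeries k) a =
    algebraMap k (LaurentSeries k) (algebraMap A k a) := fun a => rfl
  haveI := IsScalarTower.of_algebraMap_eq (algebraMap_pair hT)
  have hx : x ∈ S.WW := ⟨h1, h2⟩
  obtain ⟨P, hP, Q, hQ⟩ := (S.sg0 hT).π_repr S.G.hk (S.sg0_span hT) ⟨x, hx⟩
  rw [sg0_πt, sg0_π, SemiSt.aeval_prod] at hQ
  simp only [sg0_πy] at hQ
  have h3 := isUnit_aeval_pair (k := k) (q := q) hP
  have hj : jqModC k ∈ E := S.G.jk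
  have hjq : jqModC k ^ q ∈ E := pow_mem hj q
  have hub : ub k q ∈ E := S.ub_mem_E
  have e1 := congrArg Prod.fst hQ
  have e2 := congrArg Prod.snd hQ
  rw [Prod.fst_mul, Prod.fst_sum] at e1
  rw [Prod.snd_mul, Prod.snd_sum] at e2
  constructor
  · have h4 : aeval (jqModC k) P * πL A K k ⟨x, h1⟩ ∈ E := by
      have h5 : aeval (jqModC k) P * πL A K k ⟨x, h1⟩ = _ := e1
      rw [h5]
      refine sum_mem fun i _ => ?_
      rw [Prod.fst_mul, SemiSt.aeval_prod]
      refine mul_mem (aeval_mem_E hj _) ?_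
      rcases i with i | ⟨i, a⟩
      · exact mul_mem hub (S.G.yk i)
      · exact zero_mem _
    have h6 := mul_mem (inv_mem (aeval_mem_E hj P)) h4
    rwa [← mul_assoc, inv_mul_cancel₀ h3.1, one_mul] at h6
  · have h4 : aeval (jqModC k ^ q) P * πL A K k ⟨S.w x, h2⟩ ∈ E := by
      have h5 : aeval (jqModC k ^ q) P * πL A K k ⟨S.w x, h2⟩ = _ := e2
      rw [h5]
      refine sum_mem fun i _ => ?_
      rw [Prod.snd_mul, SemiSt.aeval_prod]
      refine mul_mem (aeval_mem_E hjq _) ?_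
      rcases i with i | ⟨i, a⟩
      · exact zero_mem _
      · exact mul_mem (mul_mem hub (S.G.yk i)) (pow_mem hj _)
    have h6 := mul_mem (inv_mem (aeval_mem_E hjq P)) h4
    rwa [← mul_assoc, inv_mul_cancel₀ h3.2, one_mul] at h6

theorem val_algebraMap_mul (c : K) (x : Fq) :
    ((algebraMap K Fq c * x : Fq) : LaurentSeries K) = HahnSeries.C c * (x : LaurentSeries K) := by
  rw [← algebraMap_eq_C]
  rfl

theorem w_algebraMap_mul (c : K) (x : Fq) :
    (S.w (algebraMap K Fq c * x) : LaurentSeries K) =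
      HahnSeries.C c * (S.w x : LaurentSeries K) := by
  rw [map_mul, AlgEquiv.commutes, val_algebraMap_mul]

/-- scaling for the pair of valuations -/
theorem exists_scale_pair {x : Fq} (hx : x ≠ 0) :
    ∃ c : K, c ≠ 0 ∧ ∃ (a b : LaurentSeries k), LR A (HahnSeries.C c * (x : LaurentSeries K)) a ∧
      LR A (HahnSeries.C c * (S.w x : LaurentSeries K)) b ∧ (a ≠ 0 ∨ b ≠ 0) := by
  letI : Algebra A (LaurentSeries k) :=
    ((algebraMap k (LaurentSeries k)).comp (algebraMap A k)).toAlgebra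
  letI := algA A Fq
  haveI := tower_algA A Fq
  have hT : ∀ a : A, algebraMap A (LaurentSeries k) a =
    algebraMap k (LaurentSeries k) (algebraMap A k a) := fun a => rfl
  haveI := IsScalarTower.of_algebraMap_eq (algebraMap_pair hT)
  obtain ⟨c, hc, h, h'⟩ := exists_scale (S.sg0 hT) (S.sg0_span hT) hx
  have e1 := val_algebraMap_mul (Fq := Fq) c x
  have e2 := S.w_algebraMap_mul c x
  have hr := S.hasRed_of_mem h
  refine ⟨c, hc, _, _, hr.1.of_eq e1 rfl, hr.2.of_eq e2 rfl, ?_⟩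
  by_contra hcon
  push Not at hcon
  apply h'
  exact Prod.ext hcon.1 hcon.2

include S in
/-- **scaling** for the valuation at `∞` -/
theorem exists_scale_one {x : Fq} (hx : x ≠ 0) :
    ∃ c : K, c ≠ 0 ∧ IsU A K k (HahnSeries.C c * (x : LaurentSeries K)) := by
  obtain ⟨c₁, hc₁, a, b, h1, h2, h3⟩ := S.exists_scale_pair hx
  by_cases h4 : a = 0
  swap
  · exact ⟨c₁, hc₁, h1.isU h4⟩
  have h5 : b ≠ 0 := by
    rcases h3 with h3 | h3
    · exact absurd h4 h3
    · exact h3
  -- the inverse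
  set z : Fq := algebraMap K Fq c₁ * x with hz
  have hz0 : z ≠ 0 := mul_ne_zero (by simpa using hc₁) hx
  have e1 : (z : LaurentSeries K) = HahnSeries.C c₁ * (x : LaurentSeries K) :=
    val_algebraMap_mul c₁ x
  have e2 : (S.w z : LaurentSeries K) = HahnSeries.C c₁ * (S.w x : LaurentSeries K) :=
    S.w_algebraMap_mul c₁ x
  obtain ⟨c₂, hc₂, a', b', g1, g2, g3⟩ := S.exists_scale_pair (inv_ne_zero hz0)
  by_cases h6 : a' = 0
  · exfalso
    have h7 : b' ≠ 0 := by
      rcases g3 with g3 | g3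
      · exact absurd h6 g3
      · exact g3
    have e3 : HahnSeries.C c₂ * ((S.w z⁻¹ : Fq) : LaurentSeries K) *
        (HahnSeries.C c₁ * (S.w x : LaurentSeries K)) = HahnSeries.C c₂ := by
      rw [← e2, mul_assoc]
      have e4 : ((S.w z⁻¹ : Fq) : LaurentSeries K) * (S.w z : LaurentSeries K) = 1 := by
        rw [← MulMemClass.coe_mul, ← map_mul, inv_mul_cancel₀ hz0, map_one]
        rfl
      rw [e4, mul_one]
    have e5 : HahnSeries.C c₂ * ((z⁻¹ : Fq) : LaurentSeries K) *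
        (HahnSeries.C c₁ * (x : LaurentSeries K)) = HahnSeries.C c₂ := by
      rw [← e1, mul_assoc, ← MulMemClass.coe_mul, inv_mul_cancel₀ hz0]
      exact mul_one _
    have h8 := (g2.mul h2).of_eq e3 rfl
    have h9 := (g1.mul h1).of_eq e5 rfl
    have h10 := h8.unique h9
    rw [h6, zero_mul] at h10
    exact mul_ne_zero h7 h5 h10
  · have h7 := IsU.inv (A := A) (k := k) (g1.isU h6)
    refine ⟨c₂⁻¹ * c₁, mul_ne_zero (inv_ne_zero hc₂) hc₁, ?_⟩
    have e3 : (HahnSeries.C c₂ * ((z⁻¹ : Fq) : LaurentSeries K))⁻¹ =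
        HahnSeries.C (c₂⁻¹ * c₁) * (x : LaurentSeries K) := by
      have e4 : ((z⁻¹ : Fq) : LaurentSeries K) = (z : LaurentSeries K)⁻¹ := rfl
      rw [mul_inv, e4, inv_inv, e1, map_mul, map_inv₀, mul_assoc]
    rwa [e3] at h7

include S in
/-- the Gauss ring at `∞` is a valuation ring of the function field -/
theorem inv_mem_of_not_mem {x : Fq} (hx : (x : LaurentSeries K) ∉ WL A K k) :
    LR A (x : LaurentSeries K)⁻¹ (0 : LaurentSeries k) := by
  have hx0 : x ≠ 0 := by
    rintro rfl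
    exact hx (zero_mem _)
  obtain ⟨c, hc, hu⟩ := S.exists_scale_one hx0
  have hC : (HahnSeries.C c : LaurentSeries K) ≠ 0 := by
    rw [Ne, map_eq_zero]; exact hc
  obtain ⟨a, ha, ha0⟩ := isU_C_inv (A := A) (k := k) S.G.hk (by
    rintro ⟨b, hb⟩
    apply hx
    have h1 : (x : LaurentSeries K) = HahnSeries.C (algebraMap A K b) *
        (HahnSeries.C c * (x : LaurentSeries K)) := by
      rw [hb, ← mul_assoc, ← map_mul, inv_mul_cancel₀ hc, map_one, one_mul]
    rw [h1]
    exact mul_mem (const_mem_WL b) hu.1)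
  obtain ⟨h2, h3⟩ := hu.inv
  have h4 : HahnSeries.C (algebraMap A K a) * (HahnSeries.C c * (x : LaurentSeries K))⁻¹ =
      (x : LaurentSeries K)⁻¹ := by
    rw [ha, mul_inv, ← mul_assoc, mul_inv_cancel₀ hC, one_mul]
  refine ((LR.const a).mul (LR.of_mem h2)).of_eq h4 ?_
  rw [ha0, map_zero, zero_mul]

include S in
/-- **the reductions of functions of level `q M` at the cusp `∞` have level `M`** -/
theorem red_mem (x : Fq) (h1 : (x : LaurentSeries K) ∈ WL A K k) : πL A K k ⟨x, h1⟩ ∈ E := by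
  by_cases h2 : (S.w x : LaurentSeries K) ∈ WL A K k
  · exact (S.mem_of_WW x h1 h2).1
  have h3 := S.inv_mem_of_not_mem (x := S.w x) h2
  by_cases h5 : (1 : LaurentSeries k) + πL A K k ⟨x, h1⟩ = 0
  · have : πL A K k ⟨x, h1⟩ = -1 := by linear_combination h5
    rw [this]
    exact neg_mem (one_mem _)
  have g1 : LR A ((1 : LaurentSeries K) + (x : LaurentSeries K)) (1 + πL A K k ⟨x, h1⟩) :=
    LR.one.add (LR.of_mem h1)
  have hw0 : (S.w x : LaurentSeries K) ≠ 0 := by
    intro h0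
    apply h2
    rw [h0]
    exact zero_mem _
  have g2 : LR A ((1 : LaurentSeries K) + (S.w x : LaurentSeries K)⁻¹) (1 + 0 : LaurentSeries k) :=
    LR.one.add h3
  have g3 := g1.inv h5
  have g4 := h3.mul (g2.inv (by rw [add_zero]; exact one_ne_zero))
  have c1 : ((1 : LaurentSeries K) + (x : LaurentSeries K))⁻¹ =
      (((1 + x)⁻¹ : Fq) : LaurentSeries K) := rfl
  have c2 : (S.w x : LaurentSeries K)⁻¹ *
        ((1 : LaurentSeries K) + (S.w x : LaurentSeries K)⁻¹)⁻¹ =
      ((S.w (1 + x)⁻¹ : Fq) : LaurentSeries K) := by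
    rw [map_inv₀, map_w_add, map_one]
    change _ = ((1 : LaurentSeries K) + (S.w x : LaurentSeries K))⁻¹
    rw [← mul_inv, mul_add, mul_one, mul_inv_cancel₀ hw0, add_comm]
  have g5 := g3.of_eq c1 rfl
  have g6 := g4.of_eq c2 rfl
  have h6 := (S.mem_of_WW (1 + x)⁻¹ g5.1 g6.1).1
  rw [g5.2] at h6
  have h8 := inv_mem h6
  rw [inv_inv] at h8
  have h9 := sub_mem h8 (one_mem E)
  rwa [add_sub_cancel_left] at h9

include S in
theorem LR_mem {x : Fq} {a : LaurentSeries k} (h : LR A (x : LaurentSeries K) a) : a ∈ E := by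
  rw [← h.2]
  exact S.red_mem x h.1

/-! ### the relative Frobenius -/

/-- the relative Frobenius `x ↦ x(q^q)` -/
def Fr : E →ₐ[k] E :=
  ((SbA 1 (pn q)).comp E.val).codRestrict E.toSubalgebra (fun x => by
    change Sb 1 (pn q) (x : LaurentSeries k) ∈ E
    rw [Sb_one_eq q (pn q) (coe_pn q)]
    exact S.E_exp x.2)

theorem coe_Fr (x : E) : (S.Fr x : LaurentSeries k) = qExpand k q (x : LaurentSeries k) :=
  Sb_one_eq q (pn q) (coe_pn q) (x : LaurentSeries k)

theorem Fr_jE : S.Fr S.jE = S.jE ^ q := by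
  apply Subtype.ext
  rw [coe_Fr, coe_jE, qExpand_jqModC]
  rfl

/-- the relative Frobenius, twisted -/
def sg : E →ₐ[k] E := S.Fr.comp (S.δ.θb : E →ₐ[k] E)

theorem sg_apply (x : E) : S.sg x = S.Fr (S.δ.θb x) := rfl

theorem coe_sg (x : E) : (S.sg x : LaurentSeries k) = qExpand k q (S.δ.θb x : LaurentSeries k) :=
  S.coe_Fr _

theorem sg_jE : S.sg S.jE = S.jE ^ q := by rw [sg_apply, θb_jE, Fr_jE]

section Red

variable [Algebra A Fq] [IsScalarTower A K Fq] [Algebra A E] [IsScalarTower A k E]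

/-- the reduction map of the semistable model -/
def sred : S.WW →ₐ[A] E × E where
  toFun x := (⟨(S.pp2 x).1, S.red_mem x.1 x.2.1⟩, ⟨(S.pp2 x).2, S.red_mem (S.w x.1) x.2.2⟩)
  map_one' := by
    apply Prod.ext
    · apply Subtype.ext
      change (S.pp2 1).1 = 1
      rw [map_one]; rfl
    · apply Subtype.ext
      change (S.pp2 1).2 = 1
      rw [map_one]; rfl
  map_zero' := by
    apply Prod.ext
    · apply Subtype.ext
      change (S.pp2 0).1 = 0
      rw [map_zero]; rfl
    · apply Subtype.ext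
      change (S.pp2 0).2 = 0
      rw [map_zero]; rfl
  map_mul' x y := by
    apply Prod.ext
    · apply Subtype.ext
      change (S.pp2 (x * y)).1 = (S.pp2 x).1 * (S.pp2 y).1
      rw [map_mul]; rfl
    · apply Subtype.ext
      change (S.pp2 (x * y)).2 = (S.pp2 x).2 * (S.pp2 y).2
      rw [map_mul]; rfl
  map_add' x y := by
    apply Prod.ext
    · apply Subtype.ext
      change (S.pp2 (x + y)).1 = (S.pp2 x).1 + (S.pp2 y).1
      rw [map_add]; rfl
    · apply Subtype.ext
      change (S.pp2 (x + y)).2 = (S.pp2 x).2 + (S.pp2 y).2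
      rw [map_add]; rfl
  commutes' a := by
    have h1 := S.pp2_algebraMap a
    rw [Prod.algebraMap_apply, IsScalarTower.algebraMap_apply A k E]
    apply Prod.ext
    · apply Subtype.ext
      change (S.pp2 (algebraMap A _ a)).1 = algebraMap k (LaurentSeries k) (algebraMap A k a)
      rw [h1, algebraMap_eq_C]
    · apply Subtype.ext
      change (S.pp2 (algebraMap A _ a)).2 = algebraMap k (LaurentSeries k) (algebraMap A k a)
      rw [h1, algebraMap_eq_C]

theorem coe_sred_fst {x : Fq} (hx : x ∈ S.WW) :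
    ((S.sred ⟨x, hx⟩).1 : LaurentSeries k) = πL A K k ⟨x, hx.1⟩ := rfl

theorem coe_sred_snd {x : Fq} (hx : x ∈ S.WW) :
    ((S.sred ⟨x, hx⟩).2 : LaurentSeries k) = πL A K k ⟨S.w x, hx.2⟩ := rfl

theorem sred_w {x : Fq} (hx : x ∈ S.WW) :
    S.sred ⟨S.w x, S.w_mem_WW hx⟩ = (S.sred ⟨x, hx⟩).swap := by
  apply Prod.ext
  · rfl
  · apply Subtype.ext
    rw [coe_sred_snd]
    change πL A K k ⟨(S.w (S.w x) : LaurentSeries K), _⟩ = πL A K k ⟨(x : LaurentSeries K), _⟩
    congr 2
    rw [S.w_w]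

variable {S} in
theorem HasRed.sred {x : Fq} {a b : E} (h : S.HasRed x a b) (hx : x ∈ S.WW) :
    S.sred ⟨x, hx⟩ = (a, b) :=
  Prod.ext (Subtype.ext (h.1.πL hx.1)) (Subtype.ext (h.2.πL hx.2))

theorem hasRed_sred {x : Fq} (hx : x ∈ S.WW) :
    S.HasRed x (S.sred ⟨x, hx⟩).1 (S.sred ⟨x, hx⟩).2 := S.hasRed_of_mem hx

omit [Algebra A Fq] [IsScalarTower A K Fq] [Algebra A E] [IsScalarTower A k E] in
variable {S} in
/-- elements of level `M` -/
theorem hasRed_inc {x : FM} {a : E} (h : LR A (x : LaurentSeries K) (a : LaurentSeries k)) :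
    S.HasRed (S.inc x) a (S.sg a : LaurentSeries k) := by
  rw [coe_sg]
  exact HasRed.inc h

omit [Algebra A Fq] [IsScalarTower A K Fq] [Algebra A E] [IsScalarTower A k E] in
variable {S} in
theorem hasRed_be {x : FM} {a : E} (h : LR A (x : LaurentSeries K) (a : LaurentSeries k)) :
    S.HasRed (S.be x) (S.sg a : LaurentSeries k) a := (hasRed_inc h).w

theorem sred_inc {x : FM} {a : E} (h : LR A (x : LaurentSeries K) (a : LaurentSeries k))
    (hx : S.inc x ∈ S.WW) : S.sred ⟨S.inc x, hx⟩ = (a, S.sg a) := (hasRed_inc h).sred hx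

theorem sred_be {x : FM} {a : E} (h : LR A (x : LaurentSeries K) (a : LaurentSeries k))
    (hx : S.be x ∈ S.WW) : S.sred ⟨S.be x, hx⟩ = (S.sg a, a) := (hasRed_be h).sred hx

theorem sred_jq (h : S.jq ∈ S.WW) : S.sred ⟨S.jq, h⟩ = (S.jE, S.jE ^ q) :=
  HasRed.sred (a := S.jE) (b := S.jE ^ q) hasRed_jq h

/-- the function `j - j^(q^2)` -/
def uE : E := S.jE - S.jE ^ (q * q)

theorem coe_uE : (S.uE : LaurentSeries k) = ub k q := rfl

/-- reductions of the generators -/
def yE : ι ⊕ (ι × Fin q) → E × E :=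
  Sum.elim (fun i => (S.uE * ⟨cst k (y i), S.G.yk i⟩, 0))
    (fun x => (0, S.uE * ⟨cst k (y x.1), S.G.yk x.1⟩ * S.jE ^ (x.2 : ℕ)))

theorem coe_yE (i : ι ⊕ (ι × Fin q)) :
    (((S.yE i).1 : LaurentSeries k), ((S.yE i).2 : LaurentSeries k)) = yr k y q i := by
  rcases i with i | ⟨i, a⟩
  · rfl
  · rfl

theorem sred_y (i : ι ⊕ (ι × Fin q)) (h : S.yy i ∈ S.WW) : S.sred ⟨S.yy i, h⟩ = S.yE i := by
  have h1 := hasRed_y (S := S) i
  rw [← S.coe_yE i] at h1
  exact HasRed.sred (a := (S.yE i).1) (b := (S.yE i).2) h1 h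

/-- the product of the inclusions -/
def valP (E : IntermediateField k (LaurentSeries k)) : (E × E) →ₐ[k] LaurentSeries k × LaurentSeries k :=
  AlgHom.prodMap E.val E.val

/-- **Gauss data of the semistable model** -/
def sgauss : GaussData A K Fq k (E × E) (ι ⊕ (ι × Fin q)) where
  W := S.WW
  π := S.sred
  t := S.jq
  ht := (hasRed_jq (S := S)).mem
  y := S.yy
  hy i := (hasRed_y (S := S) i).mem
  isUnit_of x hx := by
    have h1 := Prod.isUnit_iff.1 hx
    exact S.isUnit_of_pp2 x (fun h0 => h1.1.ne_zero (Subtype.ext h0))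
      (fun h0 => h1.2.ne_zero (Subtype.ext h0))
  indep P hP := by
    rw [finsum_eq_sum_of_fintype] at hP
    refine indep_aux (k := k) (q := q) S.G.indep P ?_
    have h1 := congrArg (valP E) hP
    rw [map_sum, map_zero] at h1
    rw [← h1]
    refine Finset.sum_congr rfl fun i _ => ?_
    rw [map_mul, sred_jq, ← aeval_algHom_apply, sred_y, ← S.coe_yE i]
    rfl
  isUnit_t P hP := by
    rw [sred_jq, SemiSt.aeval_prod]
    have h2 := isUnit_aeval_pair (k := k) (q := q) hP
    refine Prod.isUnit_iff.2 ⟨IsUnit.mk0 _ fun h0 => h2.1 ?_, IsUnit.mk0 _ fun h0 => h2.2 ?_⟩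
    · have h3 := congrArg E.val h0
      rw [← aeval_algHom_apply, map_zero] at h3
      exact h3
    · have h3 := congrArg E.val h0
      rw [← aeval_algHom_apply, map_zero, map_pow] at h3
      exact h3

theorem sgauss_W : S.sgauss.W = S.WW := rfl

theorem sgauss_t : S.sgauss.t = S.jq := rfl

theorem sgauss_πt : S.sgauss.π ⟨S.sgauss.t, S.sgauss.ht⟩ = (S.jE, S.jE ^ q) := S.sred_jq _

theorem sgauss_span (x : Fq) : ∃ P : K[X], P ≠ 0 ∧
    ∃ Q : ι ⊕ (ι × Fin q) → K[X], aeval S.sgauss.t P * x = S.sgauss.comb Q :=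
  hspan_of S.sgauss S.jq rfl S.nonempty_ι' S.finq
    (S.rkq.trans (card_ι' (ι := ι) (q := q)).symm) x

end Red

end SSD

end Fermat.Agent.SSH
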