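import Fermat.Agent.SSH.Data

/-!
# The semistable model
-/

set_option autoImplicit false
set_option linter.style.haveILetI false
set_option linter.unusedSectionVars false

noncomputable section

namespace Fermat.Agent.SSH

open ModularCurve Polynomial IntermediateField Fermat.Agent.ModPoly Fermat.Agent.Red
  Fermat.Agent.RedMod Fermat.Agent.Cov Fermat.Agent.SemiSt

variable {A K k : Type*} [CommRing A] [IsDomain A] [ValuationRing A]
  [Field K] [Algebra A K] [IsFractionRing A K] [Field k] [Algebra A k]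
  {FM Fq : IntermediateField K (LaurentSeries K)} {E : IntermediateField k (LaurentSeries k)}
  {ι : Type*} [Fintype ι] {y : ι → LaurentSeries ℤ} {q : ℕ} [hq : Fact q.Prime]
  (S : SSD A FM Fq E y q)

theorem LR.mem {x : LaurentSeries K} {a : LaurentSeries k} (h : LR A x a) : x ∈ WL A K k := h.1

theorem LR.πL {x : LaurentSeries K} {a : LaurentSeries k} (h : LR A x a) (h' : x ∈ WL A K k) :
    RedMod.πL A K k ⟨x, h'⟩ = a := h.2

theorem LR.of_mem {x : LaurentSeries K} (h : x ∈ WL A K k) :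
    LR A x (RedMod.πL A K k ⟨x, h⟩) := ⟨h, rfl⟩

theorem LR.inv {x : LaurentSeries K} {a : LaurentSeries k} (h : LR A x a) (ha : a ≠ 0) :
    LR A x⁻¹ a⁻¹ := by
  obtain ⟨h1, rfl⟩ := h
  have hx : x ≠ 0 := by
    rintro rfl
    exact ha (map_zero _)
  exact ⟨inv_mem_WL h1 ha, πL_inv h1 (inv_mem_WL h1 ha) hx⟩

theorem LR.isU {x : LaurentSeries K} {a : LaurentSeries k} (h : LR A x a) (ha : a ≠ 0) :
    IsU A K k x := ⟨h.1, by rw [h.2]; exact ha⟩

theorem LR.zero : LR A (0 : LaurentSeries K) (0 : LaurentSeries k) :=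
  ⟨zero_mem _, map_zero _⟩

theorem LR.one : LR A (1 : LaurentSeries K) (1 : LaurentSeries k) :=
  ⟨one_mem _, map_one _⟩

namespace SSD

/-- the second embedding of the function field -/
def φ2 : Fq →ₐ[K] LaurentSeries K := Fq.val.comp (S.w : Fq →ₐ[K] Fq)

theorem φ2_apply (x : Fq) : S.φ2 x = (S.w x : LaurentSeries K) := rfl

section WW

variable [Algebra A Fq] [IsScalarTower A K Fq]

/-- the ring of functions regular at both generic points of the special fibre -/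
def WW : Subalgebra A Fq := Wφ A k Fq.val ⊓ Wφ A k S.φ2

theorem mem_WW {x : Fq} : x ∈ S.WW ↔
    (x : LaurentSeries K) ∈ WL A K k ∧ (S.w x : LaurentSeries K) ∈ WL A K k := Iff.rfl

theorem w_mem_WW {x : Fq} (hx : x ∈ S.WW) : S.w x ∈ S.WW := by
  rw [mem_WW] at hx ⊢
  exact ⟨hx.2, by rw [S.w_w]; exact hx.1⟩

variable {S} in
theorem HasRed.mem {x : Fq} {a b : LaurentSeries k} (h : S.HasRed x a b) : x ∈ S.WW :=
  ⟨h.1.1, h.2.1⟩

/-- the pair of reductions, as a ring homomorphism -/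
def pp2 : S.WW →+* LaurentSeries k × LaurentSeries k :=
  RingHom.prod ((πφ A k Fq.val).comp (Subalgebra.inclusion inf_le_left).toRingHom)
    ((πφ A k S.φ2).comp (Subalgebra.inclusion inf_le_right).toRingHom)

theorem pp2_fst {x : Fq} (hx : x ∈ S.WW) : (S.pp2 ⟨x, hx⟩).1 = πL A K k ⟨x, hx.1⟩ := rfl

theorem pp2_snd {x : Fq} (hx : x ∈ S.WW) : (S.pp2 ⟨x, hx⟩).2 = πL A K k ⟨S.w x, hx.2⟩ := rfl

variable {S} in
theorem HasRed.pp2 {x : Fq} {a b : LaurentSeries k} (h : S.HasRed x a b) (hx : x ∈ S.WW) :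
    S.pp2 ⟨x, hx⟩ = (a, b) :=
  Prod.ext ((S.pp2_fst hx).trans (h.1.πL hx.1)) ((S.pp2_snd hx).trans (h.2.πL hx.2))

theorem hasRed_of_mem {x : Fq} (hx : x ∈ S.WW) :
    S.HasRed x (S.pp2 ⟨x, hx⟩).1 (S.pp2 ⟨x, hx⟩).2 :=
  ⟨LR.of_mem hx.1, LR.of_mem hx.2⟩

theorem pp2_algebraMap (a : A) : S.pp2 (algebraMap A S.WW a) =
    (HahnSeries.C (algebraMap A k a), HahnSeries.C (algebraMap A k a)) := by
  apply Prod.ext
  · exact πφ_algebraMap Fq.val a
  · exact πφ_algebraMap S.φ2 a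

theorem isUnit_of_pp2 (x : S.WW) (h1 : (S.pp2 x).1 ≠ 0) (h2 : (S.pp2 x).2 ≠ 0) : IsUnit x := by
  have hx0 : (x : Fq) ≠ 0 := by
    intro h0
    apply h1
    have : x = 0 := Subtype.ext h0
    rw [this, map_zero]
    rfl
  have hinv : (x : Fq)⁻¹ ∈ S.WW :=
    ⟨inv_mem_Wφ _ x.2.1 h1, inv_mem_Wφ _ x.2.2 h2⟩
  refine ⟨⟨x, ⟨(x : Fq)⁻¹, hinv⟩, ?_, ?_⟩, rfl⟩
  · exact Subtype.ext (mul_inv_cancel₀ hx0)
  · exact Subtype.ext (inv_mul_cancel₀ hx0)

include S in
theorem nonempty_ι' : Nonempty (ι ⊕ (ι × Fin q)) := by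
  haveI := S.G.nonempty
  exact ⟨Sum.inl (Classical.arbitrary _)⟩


theorem card_ι' : Fintype.card (ι ⊕ (ι × Fin q)) = Fintype.card ι * (q + 1) := by
  rw [Fintype.card_sum, Fintype.card_prod, Fintype.card_fin]
  ring

section Pre

variable [Algebra A (LaurentSeries k)]
  (hT : ∀ a : A, algebraMap A (LaurentSeries k) a = algebraMap k (LaurentSeries k) (algebraMap A k a))
  [CharP k q]

/-- Gauss data with values in pairs of Laurent series -/
def sg0 : GaussData A K Fq k (LaurentSeries k × LaurentSeries k) (ι ⊕ (ι × Fin q)) where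
  W := S.WW
  π :=
    { S.pp2 with
      commutes' := by
        intro a
        refine (S.pp2_algebraMap a).trans ?_
        rw [Prod.algebraMap_apply, hT, algebraMap_eq_C] }
  t := S.jq
  ht := (hasRed_jq (S := S)).mem
  y := S.yy
  hy i := (hasRed_y (S := S) i).mem
  isUnit_of x hx := by
    have h1 := Prod.isUnit_iff.1 hx
    exact S.isUnit_of_pp2 x h1.1.ne_zero h1.2.ne_zero
  indep P hP := by
    rw [finsum_eq_sum_of_fintype] at hP
    refine indep_aux (k := k) (q := q) S.G.indep P ?_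
    rw [← hP]
    refine Finset.sum_congr rfl fun i _ => ?_
    congr 1
    · congr 2
      exact ((hasRed_jq (S := S)).pp2 _).symm
    · exact ((hasRed_y (S := S) i).pp2 _).symm
  isUnit_t P hP := by
    have e1 : aeval (S.pp2 ⟨S.jq, (hasRed_jq (S := S)).mem⟩) P =
        (aeval (jqModC k) P, aeval (jqModC k ^ q) P) := by
      rw [(hasRed_jq (S := S)).pp2, SemiSt.aeval_prod]
    have h2 := isUnit_aeval_pair (k := k) (q := q) hP
    exact (congrArg IsUnit e1).mpr (Prod.isUnit_iff.2 ⟨IsUnit.mk0 _ h2.1, IsUnit.mk0 _ h2.2⟩)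

theorem sg0_W : (S.sg0 hT).W = S.WW := rfl

theorem sg0_t : (S.sg0 hT).t = S.jq := rfl

theorem sg0_π (x : Fq) (hx : x ∈ S.WW) : (S.sg0 hT).π ⟨x, hx⟩ = S.pp2 ⟨x, hx⟩ := rfl

theorem sg0_πt : (S.sg0 hT).π ⟨(S.sg0 hT).t, (S.sg0 hT).ht⟩ = (jqModC k, jqModC k ^ q) :=
  (hasRed_jq (S := S)).pp2 _

theorem sg0_πy (i : ι ⊕ (ι × Fin q)) :
    (S.sg0 hT).π ⟨(S.sg0 hT).y i, (S.sg0 hT).hy i⟩ = yr k y q i :=
  (hasRed_y (S := S) i).pp2 _

theorem sg0_span (x : Fq) : ∃ P : K[X], P ≠ 0 ∧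
    ∃ Q : ι ⊕ (ι × Fin q) → K[X], aeval (S.sg0 hT).t P * x = (S.sg0 hT).comb Q := by
  haveI := IsScalarTower.of_algebraMap_eq (algebraMap_pair hT)
  exact hspan_of (S.sg0 hT) S.jq rfl S.nonempty_ι' S.finq
    (S.rkq.trans (card_ι' (ι := ι) (q := q)).symm) x

end Pre

end WW

end SSD

end Fermat.Agent.SSH
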