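import Fermat.Agent.SSH.Gal
import Fermat.Agent.Nod.ScaleM

/-!
# Scaling functions modulo `m`-th powers in a semistable structure
-/

set_option autoImplicit false
set_option linter.style.haveILetI false
set_option linter.unusedSectionVars false

noncomputable section

namespace Fermat.Agent.SSH

open ModularCurve Polynomial IntermediateField Fermat.Agent.ModPoly Fermat.Agent.Red
  Fermat.Agent.RedMod Fermat.Agent.Cov Fermat.Agent.SemiSt AlgebraicCurve Fermat.Agent.Nod

variable {A K k : Type*} [CommRing A] [IsDomain A] [ValuationRing A]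
  [Field K] [Algebra A K] [IsFractionRing A K] [Field k] [Algebra A k]
  {FM Fq : IntermediateField K (LaurentSeries K)} {E : IntermediateField k (LaurentSeries k)}
  {ι : Type*} [Fintype ι] {y : ι → LaurentSeries ℤ} {q : ℕ} [hq : Fact q.Prime]
  (S : SSD A FM Fq E y q)

namespace SSD

/-- the difference of the valuations of `f` at the two components is the valuation of `c` -/
def Sl (f : Fq) (c : K) : Prop :=
  ∃ a : K, a ≠ 0 ∧ IsU A K k (HahnSeries.C a * (f : LaurentSeries K)) ∧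
    IsU A K k (HahnSeries.C (a * c⁻¹) * (S.w f : LaurentSeries K))

variable {S}

theorem w_inv (f : Fq) : S.w f⁻¹ = (S.w f)⁻¹ := map_inv₀ _ _

theorem Sl.mul {f g : Fq} {c d : K} (hf : S.Sl f c) (hg : S.Sl g d) : S.Sl (f * g) (c * d) := by
  obtain ⟨a, ha, h1, h2⟩ := hf
  obtain ⟨b, hb, h3, h4⟩ := hg
  refine ⟨a * b, mul_ne_zero ha hb, (h1.mul h3).of_eq ?_, (h2.mul h4).of_eq ?_⟩
  · rw [map_mul]
    change _ = HahnSeries.C a * HahnSeries.C b * ((f : LaurentSeries K) * (g : LaurentSeries K))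
    ring
  · rw [S.coe_w_mul, mul_inv]
    simp only [map_mul]
    ring

theorem Sl.inv {f : Fq} {c : K} (hf : S.Sl f c) : S.Sl f⁻¹ c⁻¹ := by
  obtain ⟨a, ha, h1, h2⟩ := hf
  refine ⟨a⁻¹, inv_ne_zero ha, h1.inv.of_eq ?_, h2.inv.of_eq ?_⟩
  · rw [mul_inv, map_inv₀]
    rfl
  · have e : ((S.w f⁻¹ : Fq) : LaurentSeries K) = (S.w f : LaurentSeries K)⁻¹ := by
      rw [w_inv]; rfl
    rw [e, _root_.mul_inv (HahnSeries.C (a * c⁻¹)), ← map_inv₀, _root_.mul_inv a]

theorem Sl.one : S.Sl (1 : Fq) 1 := by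
  have e : ((S.w 1 : Fq) : LaurentSeries K) = 1 := by rw [map_one]; rfl
  refine ⟨1, one_ne_zero, isU_one.of_eq ?_, isU_one.of_eq ?_⟩
  · rw [map_one, one_mul]; rfl
  · rw [inv_one, mul_one, map_one, one_mul, e]

theorem Sl.pow {f : Fq} {c : K} (hf : S.Sl f c) (n : ℕ) : S.Sl (f ^ n) (c ^ n) := by
  induction n with
  | zero => rw [pow_zero, pow_zero]; exact Sl.one
  | succ n ih => rw [pow_succ, pow_succ]; exact ih.mul hf

theorem Sl.unit {f : Fq} {c : K} (hf : S.Sl f c) (u : Aˣ) : S.Sl f (c * algebraMap A K u) := by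
  obtain ⟨a, ha, h1, h2⟩ := hf
  refine ⟨a, ha, h1, ((isU_C_unit (A := A) (K := K) (k := k) u⁻¹).mul h2).of_eq ?_⟩
  have e : (algebraMap A K (↑u⁻¹ : A)) = (algebraMap A K u)⁻¹ := by
    apply eq_inv_of_mul_eq_one_left
    rw [← map_mul, Units.inv_mul, map_one]
  rw [e, ← mul_assoc, ← map_mul, mul_inv]
  congr 2
  ring

theorem Sl.ne_zero {g : Fq} {c : K} (h : S.Sl g c) : g ≠ 0 := by
  rintro rfl
  obtain ⟨a, ha, h1, h2⟩ := h
  apply h1.ne_zero
  exact mul_zero _

variable [CharP k q]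

theorem exists_sl {f : Fq} (hf : f ≠ 0) : ∃ c : K, c ≠ 0 ∧ S.Sl f c := by
  obtain ⟨a, ha, h1⟩ := S.exists_scale_one hf
  have hwf : S.w f ≠ 0 := fun h => hf (by
    have := congrArg S.w h
    rwa [S.w_w, map_zero] at this)
  obtain ⟨b, hb, h2⟩ := S.exists_scale_one hwf
  refine ⟨a / b, div_ne_zero ha hb, a, ha, h1, h2.of_eq ?_⟩
  congr 2
  field_simp

theorem LR.isU' {x : LaurentSeries K} {a : LaurentSeries k} (h : LR A x a) (ha : a ≠ 0) :
    IsU A K k x := ⟨h.1, by rw [h.2]; exact ha⟩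

/-- the reductions of `w uu = j(q τ) - j^q` -/
theorem hasRed_wuu : S.HasRed (S.w S.uu) 0 (ub k q) := hasRed_uu.w

include S in
theorem red_eq_zero_of_not_unit' {a : A} (ha : ¬ IsUnit a) : algebraMap A k a = 0 := by
  by_contra h
  exact ha (isUnit_of_red_ne_zero S.G.hk h)

/-- `uu` has a nontrivial slope -/
theorem exists_sl_uu : ∃ α : A, α ≠ 0 ∧ algebraMap A k α = 0 ∧
    S.Sl S.uu (algebraMap A K α) ∧
    ∀ r b : A, algebraMap A k r = 0 → algebraMap A k b = 0 → α = r * b →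
      S.Sl (S.uu + algebraMap K _ (algebraMap A K r)) (algebraMap A K r) := by
  have hu := hasRed_uu (S := S)
  have hub := ub_ne_zero (k := k) (q := q)
  have hu0 : S.uu ≠ 0 := by
    intro h
    have h1 := hu.1
    rw [h] at h1
    exact hub (h1.unique LR.zero)
  have hw0 : S.w S.uu ≠ 0 := fun h => hu0 (by
    have := congrArg S.w h
    rwa [S.w_w, map_zero] at this)
  obtain ⟨c, hc, h2⟩ := S.exists_scale_one hw0
  have hcA : ¬ ∃ a : A, algebraMap A K a = c := by
    rintro ⟨a, rfl⟩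
    obtain ⟨h5, h6⟩ := h2
    have h7 := (LR.const (k := k) a).mul hu.2
    apply h6
    rw [h7.πL h5, mul_zero]
  obtain ⟨α, hα, hα0⟩ := isU_C_inv (A := A) (k := k) S.G.hk (c := c⁻¹) (by rwa [inv_inv])
  have hαne : α ≠ 0 := by
    rintro rfl
    rw [map_zero] at hα
    exact inv_ne_zero hc hα.symm
  have hU0 : IsU A K k (S.uu : LaurentSeries K) := hu.1.isU hub
  have hcα : c = (algebraMap A K α)⁻¹ := by rw [hα, inv_inv]
  refine ⟨α, hαne, hα0, ⟨1, one_ne_zero, hU0.of_eq ?_, h2.of_eq ?_⟩, ?_⟩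
  · rw [map_one, one_mul]
  · rw [one_mul, hcα]
  intro r b hr hb hrb
  have hr0 : algebraMap A K r ≠ 0 := by
    intro h
    apply hαne
    have : r = 0 := IsFractionRing.injective A K (h.trans (map_zero _).symm)
    rw [hrb, this, zero_mul]
  have e0 := coe_algebraMap (Fq := Fq) (algebraMap A K r)
  refine ⟨1, one_ne_zero, ?_, ?_⟩
  · have e : ((S.uu + algebraMap K _ (algebraMap A K r) : Fq) : LaurentSeries K) =
        (S.uu : LaurentSeries K) + HahnSeries.C (algebraMap A K r) := by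
      rw [← e0]
      rfl
    rw [map_one, one_mul, e]
    refine (hu.1.add (LR.const r)).isU ?_
    rw [hr, map_zero, add_zero]
    exact hub
  · have e : (S.w (S.uu + algebraMap K _ (algebraMap A K r)) : LaurentSeries K) =
        (S.w S.uu : LaurentSeries K) + HahnSeries.C (algebraMap A K r) := by
      rw [S.coe_w_add, S.coe_w_algebraMap]
    obtain ⟨g1, g2⟩ := h2
    have e3 : HahnSeries.C (algebraMap A K b) * (HahnSeries.C c * (S.w S.uu : LaurentSeries K)) +
        1 = HahnSeries.C (1 * (algebraMap A K r)⁻¹) *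
        (S.w (S.uu + algebraMap K _ (algebraMap A K r)) : LaurentSeries K) := by
      have hb0 : algebraMap A K b ≠ 0 := by
        intro h
        apply hαne
        have : b = 0 := IsFractionRing.injective A K (h.trans (map_zero _).symm)
        rw [hrb, this, mul_zero]
      have e4 : (algebraMap A K r)⁻¹ = algebraMap A K b * c := by
        rw [hcα, hrb, map_mul]
        field_simp
      have e5 : (HahnSeries.C (algebraMap A K r)⁻¹ : LaurentSeries K) *
          HahnSeries.C (algebraMap A K r) = 1 := by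
        rw [← map_mul, inv_mul_cancel₀ hr0, map_one]
      rw [e, one_mul, mul_add, e5, e4, map_mul]
      ring
    have g3 := (((LR.const (k := k) b).mul (LR.of_mem g1)).add LR.one).of_eq e3 rfl
    refine g3.isU ?_
    rw [hb, map_zero, zero_mul, zero_add]
    exact one_ne_zero

/-- every slope is attained -/
theorem exists_of_slope (hrank : ∀ a c : A, algebraMap A k a = 0 → c ≠ 0 → ∃ n : ℕ, c ∣ a ^ n)
    {c : K} (hc : c ≠ 0) : ∃ g : Fq, g ≠ 0 ∧ S.Sl g c := by
  classical
  obtain ⟨α, hα, hα0, hx0, hxr⟩ := exists_sl_uu (S := S)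
  have key : ∀ c : A, c ≠ 0 → ∃ g : Fq, S.Sl g (algebraMap A K c) := by
    intro c hc
    have hex := hrank α c hα0 hc
    set n := Nat.find hex with hn
    have hdvd : c ∣ α ^ n := Nat.find_spec hex
    rcases Nat.eq_zero_or_pos n with h0 | hpos
    · rw [h0, pow_zero] at hdvd
      obtain ⟨u, rfl⟩ := isUnit_of_dvd_one hdvd
      refine ⟨1, ?_⟩
      have := (Sl.one (S := S)).unit u
      rwa [one_mul] at this
    · have hnd : ¬ c ∣ α ^ (n - 1) := Nat.find_min hex (by omega)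
      obtain ⟨r, hr⟩ := (ValuationRing.dvd_total c (α ^ (n - 1))).resolve_left hnd
      have hrnu : ¬ IsUnit r := by
        intro hu
        obtain ⟨u, rfl⟩ := hu
        apply hnd
        refine ⟨↑u⁻¹, ?_⟩
        rw [hr, mul_assoc, Units.mul_inv, mul_one]
      have hrα : r ∣ α := by
        have h1 : α ^ (n - 1) * r ∣ α ^ (n - 1) * α := by
          rw [← hr, ← pow_succ, Nat.sub_add_cancel hpos]
          exact hdvd
        exact (mul_dvd_mul_iff_left (pow_ne_zero _ hα)).1 h1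
      obtain ⟨b, hb⟩ := hrα
      by_cases hbu : IsUnit b
      · obtain ⟨u, rfl⟩ := hbu
        refine ⟨S.uu ^ (n - 1) * S.uu, ?_⟩
        have h2 := (hx0.pow (n - 1)).mul (hx0.unit u⁻¹)
        have e : algebraMap A K α ^ (n - 1) * (algebraMap A K α * algebraMap A K ↑u⁻¹) =
            algebraMap A K c := by
          rw [hr, map_mul, map_pow]
          congr 1
          rw [hb, ← map_mul, mul_assoc, Units.mul_inv, mul_one]
        rwa [e] at h2
      · refine ⟨S.uu ^ (n - 1) * (S.uu + algebraMap K _ (algebraMap A K r)), ?_⟩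
        have h2 := (hx0.pow (n - 1)).mul (hxr r b (red_eq_zero_of_not_unit' (S := S) hrnu)
          (red_eq_zero_of_not_unit' (S := S) hbu) hb)
        have e : algebraMap A K α ^ (n - 1) * algebraMap A K r = algebraMap A K c := by
          rw [hr, map_mul, map_pow]
        rwa [e] at h2
  rcases ValuationRing.isInteger_or_isInteger A c with ⟨a, ha⟩ | ⟨a, ha⟩
  · obtain ⟨g, hg⟩ := key a (by
      rintro rfl
      rw [map_zero] at ha
      exact hc ha.symm)
    rw [ha] at hg
    exact ⟨g, hg.ne_zero, hg⟩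
  · obtain ⟨g, hg⟩ := key a (by
      rintro rfl
      rw [map_zero] at ha
      exact inv_ne_zero hc ha.symm)
    rw [ha] at hg
    have := hg.inv
    rw [inv_inv] at this
    exact ⟨_, this.ne_zero, this⟩

/-- **scaling modulo `m`-th powers** -/
theorem exists_scale_kummer [IsAlgClosed K] [Algebra A Fq] [IsScalarTower A K Fq] [Algebra A E]
    [IsScalarTower A k E]
    (hrank : ∀ a c : A, algebraMap A k a = 0 → c ≠ 0 → ∃ n : ℕ, c ∣ a ^ n) {m : ℕ} (hm : m ≠ 0)
    {f : Fq} (hf : f ≠ 0) : ∃ g : Fq, g ≠ 0 ∧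
      ∃ hW : f * g ^ m ∈ S.WW, (S.sred ⟨_, hW⟩).1 ≠ 0 ∧ (S.sred ⟨_, hW⟩).2 ≠ 0 := by
  obtain ⟨c, hc, hs⟩ := exists_sl (S := S) hf
  obtain ⟨d, hd⟩ := IsAlgClosed.exists_pow_nat_eq c (Nat.pos_of_ne_zero hm)
  have hd0 : d ≠ 0 := by
    rintro rfl
    rw [zero_pow hm] at hd
    exact hc hd.symm
  obtain ⟨g, hg, hgs⟩ := exists_of_slope (S := S) hrank (inv_ne_zero hd0)
  obtain ⟨a, ha, h1, h2⟩ := hs.mul (hgs.pow m)
  have e : c * d⁻¹ ^ m = 1 := by
    rw [inv_pow, hd, mul_inv_cancel₀ hc]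
  rw [e, inv_one, mul_one] at h2
  obtain ⟨a', ha'⟩ := IsAlgClosed.exists_pow_nat_eq a (Nat.pos_of_ne_zero hm)
  have ha0 : a' ≠ 0 := by
    rintro rfl
    rw [zero_pow hm] at ha'
    exact ha ha'.symm
  have ha0' : algebraMap K Fq a' ≠ 0 := (_root_.map_ne_zero _).2 ha0
  have e1 : f * (algebraMap K _ a' * g) ^ m = algebraMap K _ a * (f * g ^ m) := by
    rw [mul_pow, ← map_pow, ha']
    ring
  have h1' : IsU A K k ((f * (algebraMap K _ a' * g) ^ m : Fq) : LaurentSeries K) :=
    h1.of_eq (by rw [e1, SSD.val_algebraMap_mul])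
  have h2' : IsU A K k ((S.w (f * (algebraMap K _ a' * g) ^ m) : Fq) :
      LaurentSeries K) := h2.of_eq (by rw [e1, S.w_algebraMap_mul])
  obtain ⟨g1, g2⟩ := h1'
  obtain ⟨g3, g4⟩ := h2'
  refine ⟨_, mul_ne_zero ha0' hg, ⟨g1, g3⟩, ?_, ?_⟩
  · intro h
    exact g2 (congrArg Subtype.val h)
  · intro h
    exact g4 (congrArg Subtype.val h)

end SSD

end Fermat.Agent.SSH
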