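import Fermat.Agent.SSH.Frob
import Fermat.Agent.SSH.Scale

/-!
# Automorphisms of the nodal model of a semistable structure
-/

set_option autoImplicit false
set_option linter.style.haveILetI false
set_option linter.unusedSectionVars false

noncomputable section

namespace Fermat.Agent.SSH

open ModularCurve Polynomial IntermediateField Fermat.Agent.ModPoly Fermat.Agent.Red
  Fermat.Agent.RedMod Fermat.Agent.Cov Fermat.Agent.SemiSt AlgebraicCurve Fermat.Agent.Nod
  Fermat.Agent.Curve Fermat.Agent.RR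

section One

variable {A K k : Type*} [CommRing A] [IsDomain A] [ValuationRing A]
  [Field K] [Algebra A K] [IsFractionRing A K] [Field k] [Algebra A k]
  {FM Fq : IntermediateField K (LaurentSeries K)} {E : IntermediateField k (LaurentSeries k)}
  {ι : Type*} [Fintype ι] {y : ι → LaurentSeries ℤ}

/-- the trivial diamond -/
def Dia.one (G : GP A FM E y) (hle : FM ≤ Fq) (w : Fq ≃ₐ[K] Fq) : Dia Fq G hle w where
  D := AlgEquiv.refl
  θ := AlgEquiv.refl
  θb := AlgEquiv.refl
  D_inc _ := rfl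
  D_w _ := rfl
  θ_j := rfl
  red _ h := ⟨h, rfl⟩
  red' _ h := ⟨h, rfl⟩

end One

section Mem

variable {A K k : Type*} [CommRing A] [IsDomain A] [ValuationRing A]
  [Field K] [Algebra A K] [IsFractionRing A K] [Field k] [Algebra A k]
  {FM Fq : IntermediateField K (LaurentSeries K)} {E : IntermediateField k (LaurentSeries k)}
  {ι : Type*} [Fintype ι] {y : ι → LaurentSeries ℤ} {q : ℕ} [hq : Fact q.Prime]
  (S : SSD A FM Fq E y q) [CharP k q]

namespace SSD

theorem D_jq (d : Dia Fq S.G S.hle S.w) : d.D S.jq = S.jq := by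
  rw [← S.inc_jM]
  refine (d.D_inc S.jM).trans ?_
  congr 1
  exact d.θ_j

/-- reduction of diamond operators -/
theorem dia_red (d : Dia Fq S.G S.hle S.w) {x : Fq} {a b : E}
    (h : S.HasRed x (a : LaurentSeries k) (b : LaurentSeries k)) :
    S.HasRed (d.D x) (d.θb a : LaurentSeries k) (d.θb b : LaurentSeries k) := by
  letI := algA A Fq
  haveI := tower_algA A Fq
  letI := algA A E
  haveI := tower_algA A E
  have h1 := hom_mem S.sgauss S.G.hk S.sgauss_span S.sgauss.W (π' := S.sgauss.π)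
    S.sgauss.isUnit_of (d.D : Fq →ₐ[K] Fq)
    (AlgHom.prodMap (d.θb : E →ₐ[k] E) (d.θb : E →ₐ[k] E)) (by
      have e : (d.D : Fq →ₐ[K] Fq) S.sgauss.t = S.sgauss.t := S.D_jq d
      have hmem : (d.D : Fq →ₐ[K] Fq) S.sgauss.t ∈ S.sgauss.W := by
        rw [e]; exact S.sgauss.ht
      refine ⟨hmem, ?_⟩
      have e2 : (⟨_, hmem⟩ : S.sgauss.W) = ⟨S.sgauss.t, S.sgauss.ht⟩ := Subtype.ext e
      rw [e2, sgauss_πt]
      have h2 : d.θb S.jE = S.jE := SSD.θb_j d
      change _ = (d.θb S.jE, d.θb (S.jE ^ q))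
      rw [map_pow, h2]) (by
      intro i
      obtain ⟨a, b, h1, h2⟩ := hasRed_dia_y d i
      refine ⟨h2.mem, ?_⟩
      refine (h2.sred h2.mem).trans ?_
      have h3 : S.sgauss.π ⟨S.sgauss.y i, S.sgauss.hy i⟩ = (a, b) := h1.sred _
      rw [h3]
      rfl) (x := x) h.mem
  obtain ⟨h2, h3⟩ := h1
  have h4 : S.sgauss.π ⟨x, h.mem⟩ = (a, b) := h.sred _
  rw [h4] at h3
  have h5 := S.hasRed_sred (x := d.D x) h2
  have h6 : S.sred ⟨d.D x, h2⟩ = (d.θb a, d.θb b) := h3
  rw [h6] at h5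
  exact h5

end SSD

end Mem

variable {A K k : Type*} [CommRing A] [IsDomain A] [ValuationRing A]
  [Field K] [IsAlgClosed K] [CharZero K] [Algebra A K] [IsFractionRing A K]
  [Field k] [IsAlgClosed k] [Algebra A k]
  {FM Fq : IntermediateField K (LaurentSeries K)} {E : IntermediateField k (LaurentSeries k)}
  {ι : Type*} [Fintype ι] {y : ι → LaurentSeries ℤ} {q : ℕ} [hq : Fact q.Prime]
  (S : SSD A FM Fq E y q) [CharP k q] [PerfectRing k q]
  [FunField k E] [FunField K FM] [FunField K Fq]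
  [Algebra A Fq] [IsScalarTower A K Fq] [Algebra A E] [IsScalarTower A k E]

namespace SSD

/-- the semilinear automorphism of the special fibre attached to `(R, d)` -/
def gE (R : RedAut A K k) (d : Dia Fq S.G S.hle S.w) : SemilinearAut k E :=
  galF S.E_gal R.σb * SemilinearAut.ofAlgAut d.θb

variable {S} (Γ : S.Gal)

/-- the semilinear automorphism of the generic fibre attached to `(R, d)` -/
def gF (R : RedAut A K k) (d : Dia Fq S.G S.hle S.w) : SemilinearAut K Fq :=
  galF Γ.cq R.σ * SemilinearAut.ofAlgAut d.D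

theorem gE_smul (R : RedAut A K k) (d : Dia Fq S.G S.hle S.w) (x : E) :
    S.gE R d • x = actF S.E_gal R.σb (d.θb x) := rfl

theorem gF_smul (R : RedAut A K k) (d : Dia Fq S.G S.hle S.w) (x : Fq) :
    gF Γ R d • x = actF Γ.cq R.σ (d.D x) := rfl

theorem gF_inv_smul (R : RedAut A K k) (d : Dia Fq S.G S.hle S.w) (x : Fq) :
    (gF Γ R d)⁻¹ • x = d.D.symm (actF Γ.cq R.σ.symm x) := rfl

/-- reduction of the automorphisms -/
theorem HasRed.gal (R : RedAut A K k) (d : Dia Fq S.G S.hle S.w) {x : Fq} {a b : E}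
    (h : S.HasRed x (a : LaurentSeries k) (b : LaurentSeries k)) :
    S.HasRed (gF Γ R d • x) ((S.gE R d • a : E) : LaurentSeries k)
      ((S.gE R d • b : E) : LaurentSeries k) :=
  HasRed.act R Γ (S.dia_red d h)

theorem gal_mem {R : RedAut A K k} {d : Dia Fq S.G S.hle S.w} {x : Fq} (hx : x ∈ S.WW) :
    gF Γ R d • x ∈ S.WW := (HasRed.gal Γ R d (S.hasRed_sred hx)).mem

theorem gal_mem' {R : RedAut A K k} {d : Dia Fq S.G S.hle S.w} {x : Fq} (hx : x ∈ S.WW) :
    (gF Γ R d)⁻¹ • x ∈ S.WW := by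
  rw [gF_inv_smul]
  have h1 := HasRed.act R.symm Γ (S.hasRed_sred hx)
  have h2 := S.hasRed_sred h1.mem
  exact (S.dia_red d.symm h2).mem

theorem sred_gal {R : RedAut A K k} {d : Dia Fq S.G S.hle S.w} {x : Fq} (hx : x ∈ S.WW)
    (hx' : gF Γ R d • x ∈ S.WW) : S.sred ⟨_, hx'⟩ =
      (S.gE R d • (S.sred ⟨x, hx⟩).1, S.gE R d • (S.sred ⟨x, hx⟩).2) :=
  (HasRed.gal Γ R d (S.hasRed_sred hx)).sred hx'

/-- The action of an automorphism fixing the nodes. -/
def nodAut (b : A) (R : RedAut A K k) (d : Dia Fq S.G S.hle S.w)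
    (hP : ∀ P : S.fd.Cand, S.gE R d • P.1 = P.1) :
    NodAut (S.ng b) S.G.hk S.fd.nodes where
  θ := gF Γ R d
  g₁ := S.gE R d
  g₂ := S.gE R d
  base := rfl
  hW x hx := gal_mem Γ hx
  hW' x hx := gal_mem' Γ hx
  hπ x hx := sred_gal Γ hx _
  ht := by
    refine ⟨algebraMap A K b - R.σ (algebraMap A K b), ?_⟩
    have e1 : actF Γ.cq R.σ S.jq = S.jq := by
      apply Subtype.ext
      rw [coe_actF, coe_jq, coeffMap_jqModC]
    have e2 : d.D (S.jq - algebraMap K Fq (algebraMap A K b)) =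
        S.jq - algebraMap K Fq (algebraMap A K b) := by
      have h := d.D.toRingEquiv.toRingHom.map_sub S.jq (algebraMap K Fq (algebraMap A K b))
      refine h.trans ?_
      change d.D S.jq - d.D (algebraMap K Fq (algebraMap A K b)) = _
      rw [S.D_jq d, AlgEquiv.commutes]
    rw [ng_t, gF_smul, e2, map_sub, e1, actF_algebraMap, map_sub]
    ring
  s := Equiv.refl _
  hv j := (hP j.1).symm
  hw j := by
    have h1 : S.fd.g • S.fd.g • S.fd.g • j.1.1 = S.fd.g • j.1.1 := by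
      rw [j.1.2.2]
    have h2 := hP ⟨S.fd.g • j.1.1, by rw [S.fd.ord_g_j]; exact j.1.2.1, h1⟩
    exact h2.symm

theorem nodAut_θ (b : A) (R : RedAut A K k) (d : Dia Fq S.G S.hle S.w)
    (hP : ∀ P : S.fd.Cand, S.gE R d • P.1 = P.1) : (nodAut Γ b R d hP).θ = gF Γ R d := rfl

theorem gE_one {R : RedAut A K k} (h : R.σb = 1) : S.gE R (Dia.one S.G S.hle S.w) = 1 := by
  rw [gE, h, galF_one, one_mul]
  apply Subtype.ext
  apply Prod.ext
  · apply RingEquiv.ext
    intro x
    rfl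
  · rfl

theorem nodAut_isInertial (b : A) (R : RedAut A K k) (h : R.σb = 1)
    (hP : ∀ P : S.fd.Cand, S.gE R (Dia.one S.G S.hle S.w) • P.1 = P.1) :
    (nodAut Γ b R (Dia.one S.G S.hle S.w) hP).IsInertial where
  h₁ := gE_one h
  h₂ := gE_one h
  hs := rfl

theorem fix_of_eq_one {R : RedAut A K k} (h : R.σb = 1) (P : S.fd.Cand) :
    S.gE R (Dia.one S.G S.hle S.w) • P.1 = P.1 := by
  rw [gE_one h, one_smul]

variable (S) in
/-- the square of the inverse of the distinguished diamond -/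
def δ2 : Dia Fq S.G S.hle S.w := S.δ.symm.mul S.δ.symm

theorem comm_aux {G : Type*} [Group G] {a b : G} (h : a * b = b * a) :
    a * a * (b * b) = b * a * (b * a) := by
  rw [(show Commute a b from h).mul_mul_mul_comm, h]

include Γ in
theorem gE_sq {R : RedAut A K k} (h : R.σb = frobeniusEquiv k q * frobeniusEquiv k q) :
    S.gE R S.δ2 = S.fd.g * S.fd.g := by
  have e1 : SemilinearAut.ofAlgAut S.δ2.θb =
      SemilinearAut.ofAlgAut S.δ.θb.symm * SemilinearAut.ofAlgAut S.δ.θb.symm := by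
    rw [← map_mul]
    rfl
  have hc := g_comm Γ (frobeniusEquiv k q)
  rw [gE, h, galF_mul, e1, fd_g]
  exact comm_aux hc

include Γ in
theorem fix_of_eq_sq {R : RedAut A K k} (h : R.σb = frobeniusEquiv k q * frobeniusEquiv k q)
    (P : S.fd.Cand) : S.gE R S.δ2 • P.1 = P.1 := by
  rw [gE_sq Γ h, mul_smul]
  exact P.2.2

end SSD

end Fermat.Agent.SSH
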