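import Fermat.Agent.SSH.NodAut

/-!
# Norms in a semistable structure, and their reductions
-/

set_option autoImplicit false
set_option linter.style.haveILetI false
set_option linter.unusedSectionVars false

noncomputable section

namespace Fermat.Agent.SSH

open ModularCurve Polynomial IntermediateField Fermat.Agent.ModPoly Fermat.Agent.Red
  Fermat.Agent.RedMod Fermat.Agent.Cov Fermat.Agent.SemiSt AlgebraicCurve Fermat.Agent.Nod

theorem sep_char0 {K F : Type*} [Field K] [CharZero K] [Field F] [Algebra K F] (t : F)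
    (h : FiniteDimensional K⟮t⟯ F) : Algebra.IsSeparable K⟮t⟯ F := by
  haveI : CharZero K⟮t⟯ := charZero_of_injective_algebraMap (algebraMap K K⟮t⟯).injective
  haveI : Algebra.IsAlgebraic K⟮t⟯ F := Algebra.IsAlgebraic.of_finite _ _
  exact Algebra.IsAlgebraic.isSeparable_of_perfectField

variable {A K k : Type*} [CommRing A] [IsDomain A] [ValuationRing A]
  [Field K] [IsAlgClosed K] [CharZero K] [Algebra A K] [IsFractionRing A K]
  [Field k] [Algebra A k]
  {FM Fq : IntermediateField K (LaurentSeries K)} {E : IntermediateField k (LaurentSeries k)}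
  {ι : Type*} [Fintype ι] {y : ι → LaurentSeries ℤ} {q : ℕ} [hq : Fact q.Prime]
  (S : SSD A FM Fq E y q)

namespace SSD

/-- the norm from level `q M` to level `M` -/
def Nm : Fq →* FM :=
  letI := algI S.hle
  Algebra.norm FM

/-- the embeddings of level `q M` over level `M` -/
def emb (ζ : Kˣ) : Option (Fin q) → (Fq →+* LaurentSeries K)
  | none => (qExpand K q).comp Fq.val.toRingHom
  | some b => (twist (ζ ^ (b : ℕ))).comp (Fq.val.toRingHom.comp
      (S.w.toRingEquiv.toRingHom.comp S.δ.D.symm.toRingEquiv.toRingHom))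

theorem emb_none (ζ : Kˣ) (x : Fq) : S.emb ζ none x = qExpand K q (x : LaurentSeries K) := rfl

theorem emb_some (ζ : Kˣ) (b : Fin q) (x : Fq) :
    S.emb ζ (some b) x = twist (ζ ^ (b : ℕ)) (S.w (S.δ.D.symm x) : LaurentSeries K) := rfl

theorem D_symm_inc (x : FM) : S.δ.D.symm (S.inc x) = S.inc (S.δ.θ.symm x) := S.δ.symm.D_inc x

theorem D_symm_be (x : FM) : S.δ.D.symm (S.be x) = S.be (S.δ.θ.symm x) := by
  rw [be_apply, be_apply]
  refine (S.δ.symm.D_w (S.inc x)).trans ?_
  congr 1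
  exact S.D_symm_inc x

theorem θ_symm_jM : S.δ.θ.symm S.jM = S.jM := S.δ.symm.θ_j

theorem emb_inc {ζ : Kˣ} (hζ : IsPrimitiveRoot ζ q) (i : Option (Fin q)) (x : FM) :
    S.emb ζ i (S.inc x) = qExpand K q (x : LaurentSeries K) := by
  rcases i with _ | b
  · rw [emb_none, coe_inc]
  · rw [emb_some, D_symm_inc, ← be_apply, coe_be, AlgEquiv.apply_symm_apply]
    apply twist_qExpand
    rw [← pow_mul, mul_comm, pow_mul, hζ.pow_eq_one, one_pow]

theorem emb_injective {ζ : Kˣ} (hζ : IsPrimitiveRoot ζ q) : Function.Injective (S.emb ζ) := by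
  have e0 : S.emb ζ none (S.be S.jM) = Jc 1 (pn q * pn q) := by
    rw [emb_none, coe_be_jM, ← Jc_one_one, ← Sb_one_eq q (pn q) (coe_pn q),
      ← Sb_one_eq q (pn q) (coe_pn q), Sb_Jc, Sb_Jc]
    simp only [one_pow, mul_one]
  have e1 : ∀ b : Fin q, S.emb ζ (some b) (S.be S.jM) = Jc (ζ ^ (b : ℕ)) 1 := by
    intro b
    rw [emb_some, D_symm_be, θ_symm_jM, w_be, coe_inc, coe_jM, ← Jc_one_one]
    have h2 : Sb (ζ ^ (b : ℕ)) 1 (Jc 1 1) = Jc (ζ ^ (b : ℕ)) 1 := by
      rw [Sb_Jc, mul_one, mul_one, PNat.one_coe, pow_one]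
    rw [← h2]
    ext n
    have h3 := Sb_coeff_mul (ζ ^ (b : ℕ)) 1 (Jc 1 1) n
    rw [PNat.one_coe, Nat.cast_one, one_mul] at h3
    rw [h3, twist_coeff]
  intro i i' h
  have h1 := RingHom.congr_fun h (S.be S.jM)
  have hq1 := hq.out.one_lt
  rcases i with _ | b <;> rcases i' with _ | b'
  · rfl
  · exfalso
    rw [e0, e1] at h1
    have h2 := congrArg (fun n : ℕ+ => (n : ℕ)) (Jc_inj_e h1)
    simp only [PNat.mul_coe, coe_pn, PNat.one_coe] at h2
    nlinarith
  · exfalso
    rw [e0, e1] at h1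
    have h2 := congrArg (fun n : ℕ+ => (n : ℕ)) (Jc_inj_e h1)
    simp only [PNat.mul_coe, coe_pn, PNat.one_coe] at h2
    nlinarith
  · rw [e1, e1] at h1
    have h2 := Jc_inj_c h1
    have h3 := hζ.pow_inj b.2 b'.2 h2
    rw [Fin.ext h3]

theorem tower_rel :
    letI := algI S.hle
    FiniteDimensional FM Fq ∧ Algebra.IsSeparable FM Fq ∧ Module.finrank FM Fq = q + 1 := by
  letI := algI S.hle
  haveI := tower_algI S.hle
  haveI := S.finq
  obtain ⟨h1, h2, h3⟩ := RR.tower_of (K := K) (E := FM) (F := Fq) ⟨jqModC K, S.G.jK⟩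
    ⟨jqModC K, S.hle S.G.jK⟩ (Subtype.ext rfl) S.finq (sep_char0 _ S.finq)
  refine ⟨h1, h2, ?_⟩
  have h4 := S.G.rk
  rw [S.rkq, h4] at h3
  haveI := S.G.nonempty
  exact (Nat.eq_of_mul_eq_mul_left Fintype.card_pos h3).symm

/-- **the norm from level `q M` to level `M`, in terms of `q`-expansions** -/
theorem qExpand_Nm {ζ : Kˣ} (hζ : IsPrimitiveRoot ζ q) (x : Fq) :
    qExpand K q (S.Nm x : LaurentSeries K) = qExpand K q (x : LaurentSeries K) *
      ∏ b : Fin q, twist (ζ ^ (b : ℕ)) (S.w (S.δ.D.symm x) : LaurentSeries K) := by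
  letI := algI S.hle
  obtain ⟨i1, i2, i3⟩ := S.tower_rel
  haveI := i1
  haveI := i2
  have h1 := norm_eq_prod_family (E := FM) (F := Fq) (L := LaurentSeries K)
    ((qExpand K q).comp FM.val.toRingHom) (S.emb ζ)
    (fun i x => S.emb_inc hζ i x) (S.emb_injective hζ)
    (by rw [Fintype.card_option, Fintype.card_fin, i3]) x
  rw [Fintype.prod_option] at h1
  exact h1

variable [CharP k q]

include S in
theorem mem_WL_of_qExpand (z : FM) (h : qExpand K q (z : LaurentSeries K) ∈ WL A K k) :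
    (z : LaurentSeries K) ∈ WL A K k := by
  rcases eq_or_ne z 0 with rfl | hz
  · exact zero_mem _
  have hz' : S.inc z ≠ 0 := fun h0 => hz (S.inc.toRingHom.injective (h0.trans (map_zero _).symm))
  obtain ⟨c, hc, hu⟩ := S.exists_scale_one hz'
  rw [coe_inc] at hu
  by_contra hcon
  obtain ⟨a, ha, ha0⟩ := isU_C_inv (A := A) (k := k) S.G.hk (c := c) (by
    rintro ⟨b, hb⟩
    apply hcon
    have h1 : (z : LaurentSeries K) = HahnSeries.C (algebraMap A K b) *
        (HahnSeries.C c * (z : LaurentSeries K)) := by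
      rw [hb, ← mul_assoc, ← map_mul, inv_mul_cancel₀ hc, map_one, one_mul]
    rw [h1]
    exact mul_mem (const_mem_WL b) hu.1)
  obtain ⟨h2, h3⟩ := hu
  have e1 : HahnSeries.C (algebraMap A K a) * qExpand K q (z : LaurentSeries K) =
      qExpand K q (HahnSeries.C c * (z : LaurentSeries K)) := by
    rw [map_mul, ha]
    congr 1
    rw [← Sb_one_eq q (pn q) (coe_pn q), Sb_C]
  have h4 := ((LR.const (k := k) a).mul (LR.of_mem h)).of_eq e1 rfl
  have h5 := h4.unique (LR.exp (q := q) (LR.of_mem h2))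
  rw [ha0, map_zero, zero_mul] at h5
  exact h3 ((map_eq_zero _).1 h5.symm)

/-- **reduction of norms** -/
theorem Nm_red {x : Fq} {a b : E} (h : S.HasRed x (a : LaurentSeries k) (b : LaurentSeries k)) :
    LR A (S.Nm x : LaurentSeries K) ((a : LaurentSeries k) *
      coeffMap (frobenius k q) (S.δ.θb.symm b : LaurentSeries k)) := by
  obtain ⟨ζ, hζ⟩ := Cusp.exists_zeta (k := K) (N := q) (natCast_ne_zero_K K q)
  have h3 := S.qExpand_Nm hζ x
  have hd : LR A (S.w (S.δ.D.symm x) : LaurentSeries K) (S.δ.θb.symm b : LaurentSeries k) :=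
    (S.dia_red S.δ.symm h).2
  have h4 : ∀ c : Fin q, ∃ h : twist (ζ ^ (c : ℕ)) (S.w (S.δ.D.symm x) : LaurentSeries K) ∈
      WL A K k, πL A K k ⟨_, h⟩ = (S.δ.θb.symm b : LaurentSeries k) := by
    intro c
    have hb : (ζ ^ (c : ℕ)) ^ q = 1 := by
      rw [← pow_mul, mul_comm, pow_mul, hζ.pow_eq_one, one_pow]
    obtain ⟨u, hu, hu1⟩ := exists_root_one (A := A) (k := k) hb
    rw [← hu]
    obtain ⟨h5, h6⟩ := twist_mem_WL (K := K) hu1 hd.1
    exact ⟨h5, h6.trans hd.2⟩
  have h5 : LR A (∏ c : Fin q, twist (ζ ^ (c : ℕ)) (S.w (S.δ.D.symm x) : LaurentSeries K))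
      ((S.δ.θb.symm b : LaurentSeries k) ^ q) := by
    obtain ⟨h6, h7⟩ := πL_prod Finset.univ _ _ h4
    rw [Finset.card_univ, Fintype.card_fin] at h7
    exact ⟨h6, h7⟩
  have h7 := ((LR.exp (q := q) h.1).mul h5).of_eq h3.symm rfl
  have h8 := S.mem_WL_of_qExpand (S.Nm x) h7.1
  refine ⟨h8, ?_⟩
  apply (qExpand k q).injective
  have h9 := (LR.exp (q := q) (LR.of_mem h8)).unique h7
  rw [h9, map_mul]
  congr 1
  exact HeckeProd.pow_eq_qExpand q _

section Pow

variable [PerfectRing k q] {S}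

include S in
theorem isU_of_pow {z : FM} {m : ℕ} (hm : m ≠ 0)
    (h : IsU A K k ((z : LaurentSeries K) ^ m)) : IsU A K k (z : LaurentSeries K) := by
  have h0 : (z : LaurentSeries K) ∈ WL A K k := by
    by_contra hcon
    have h1 := S.inv_mem_of_not_mem (x := S.inc z) hcon
    rw [coe_inc] at h1
    obtain ⟨h3, h4⟩ := h
    have hz0 : (z : LaurentSeries K) ≠ 0 := by
      intro h5
      apply hcon
      rw [h5]
      exact zero_mem _
    have e1 : (z : LaurentSeries K) ^ m * ((z : LaurentSeries K)⁻¹) ^ m = 1 := by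
      rw [← mul_pow, mul_inv_cancel₀ hz0, one_pow]
    have e2 := ((LR.of_mem h3).mul (h1.pow m)).of_eq e1 rfl
    rw [zero_pow hm, mul_zero] at e2
    exact zero_ne_one (e2.unique LR.one)
  refine ⟨h0, ?_⟩
  intro h1
  obtain ⟨h3, h4⟩ := h
  apply h4
  have e1 := (LR.of_mem h0).pow m
  rw [h1, zero_pow hm] at e1
  exact e1.πL h3

/-- consequence of `Nm x = z ^ m` for the reductions of `x` -/
theorem red_of_Nm (Γ : S.Gal) {x : Fq} {a b : E}
    (h : S.HasRed x (a : LaurentSeries k) (b : LaurentSeries k)) (ha : a ≠ 0) (hb : b ≠ 0)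
    {z : FM} {m : ℕ} (hm : m ≠ 0) (hz : S.Nm x = z ^ m) :
    ∃ s : E, a * S.fd.g • b = s ^ m := by
  have h1 := S.Nm_red h
  have hN0 : (a : LaurentSeries k) * coeffMap (frobenius k q) (S.δ.θb.symm b : LaurentSeries k) ≠
      0 := by
    refine mul_ne_zero (fun h0 => ha (Subtype.ext h0)) ?_
    rw [_root_.map_ne_zero]
    intro h0
    apply hb
    have h2 : S.δ.θb.symm b = 0 := Subtype.ext h0
    have h3 := congrArg S.δ.θb h2
    rwa [AlgEquiv.apply_symm_apply, map_zero] at h3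
  have hzm : (S.Nm x : LaurentSeries K) = (z : LaurentSeries K) ^ m := by
    rw [hz, SubmonoidClass.coe_pow]
  have hU : IsU A K k ((z : LaurentSeries K) ^ m) := by
    rw [← hzm]
    exact h1.isU hN0
  obtain ⟨h5, h6⟩ := isU_of_pow (S := S) hm hU
  have h7 : πL A K k ⟨(z : LaurentSeries K), h5⟩ ∈ E := S.G.πL_mem z
  refine ⟨⟨_, h7⟩, ?_⟩
  apply Subtype.ext
  rw [SubmonoidClass.coe_pow, MulMemClass.coe_mul]
  have e1 := ((LR.of_mem h5).pow m).of_eq hzm.symm rfl
  have e2 := h1.unique e1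
  refine Eq.trans ?_ e2
  congr 1
  have e3 : S.fd.g • b = actF S.E_gal (frobeniusEquiv k q) (S.δ.θb.symm b) := by
    rw [fd_g, ← g_comm Γ]
    rfl
  rw [e3, coe_actF]
  rfl

end Pow

end SSD

end Fermat.Agent.SSH
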