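import Fermat.Agent.SSH.Slash

/-!
# Descent of matrix operators to smaller fields of constants
-/

set_option autoImplicit false
set_option linter.unusedSectionVars false

open UpperHalfPlane ModularForm Complex Matrix.SpecialLinearGroup
open scoped MatrixGroups Manifold
open Fermat.Agent.AL Fermat.Agent.MFLib Fermat.Agent.HeckeProd ModularCurve
  Fermat.Agent.ALCoh Fermat.Agent.KumG

namespace Fermat.Agent.SSH

noncomputable section

variable {Γ : Subgroup SL(2, ℤ)} [LvlG Γ] {W : M2}

variable (Γ W) in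
/-- matrix operators commuting with conjugation of the coefficients -/
structure AdQ : Prop extends Ad Γ Γ W where
  endo : ∀ (σ : ℂ →+* ℂ) (x : LaurentSeries ℂ), x ∈ MFunG Γ →
    slF Γ W (coeffMap σ x) = coeffMap σ (slF Γ W x)

variable [RatG Γ] (h : AdQ Γ W)

include h in
/-- these operators preserve rationality -/
theorem AdQ.rat {z : LaurentSeries ℚ} (hz : z ∈ FQG Γ) :
    ∃ z' ∈ FQG Γ, slF Γ W (coeffMap (algebraMap ℚ ℂ) z) = coeffMap (algebraMap ℚ ℂ) z' := by
  obtain ⟨z', hz'⟩ := exists_rat_of_fixed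
    (y := slF Γ W (coeffMap (algebraMap ℚ ℂ) z)) (fun σ => by
      rw [← h.endo σ _ hz, coeffMap_rat])
  refine ⟨z', ?_, hz'.symm⟩
  rw [mem_FQG, hz']
  exact slF_mem h.toAd hz

variable {K : Type*} [Field K] [Algebra ℚ K] (ι : K →+* ℂ)

include h in
theorem AdQ.exists_op (x : FG Γ K) :
    ∃ y : FG Γ K, coeffMap ι y.1 = slF Γ W (coeffMap ι x.1) := by
  have hn := h.toAd
  have hmem : ∀ {x : LaurentSeries K}, x ∈ FG Γ K → coeffMap ι x ∈ MFunG Γ :=
    fun h => coeffMap_mem_MFunG ι h
  let T : Subfield (LaurentSeries K) :=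
    { carrier := {x | x ∈ FG Γ K ∧ ∃ y ∈ FG Γ K, coeffMap ι y = slF Γ W (coeffMap ι x)}
      mul_mem' := by
        rintro x y ⟨hx, a, ha, ha'⟩ ⟨hy, b, hb, hb'⟩
        exact ⟨mul_mem hx hy, a * b, mul_mem ha hb, by
          rw [map_mul, map_mul, slF_mul hn (hmem hx) (hmem hy), ha', hb']⟩
      one_mem' := ⟨one_mem _, 1, one_mem _, by rw [map_one, slF_one hn]⟩
      add_mem' := by
        rintro x y ⟨hx, a, ha, ha'⟩ ⟨hy, b, hb, hb'⟩
        exact ⟨add_mem hx hy, a + b, add_mem ha hb, by
          rw [map_add, map_add, slF_add hn (hmem hx) (hmem hy), ha', hb']⟩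
      zero_mem' := ⟨zero_mem _, 0, zero_mem _, by rw [map_zero, slF_zero hn]⟩
      neg_mem' := by
        rintro x ⟨hx, a, ha, ha'⟩
        exact ⟨neg_mem hx, -a, neg_mem ha, by
          rw [map_neg, map_neg, slF_neg hn (hmem hx), ha']⟩
      inv_mem' := by
        rintro x ⟨hx, a, ha, ha'⟩
        exact ⟨inv_mem hx, a⁻¹, inv_mem ha, by
          rw [map_inv₀, map_inv₀, slF_inv hn (hmem hx), ha']⟩ }
  have key : x.1 ∈ T := by
    refine FG_le (K := K) (Γ := Γ) T ?_ ?_ x.1 x.2
    · intro a
      refine ⟨const_mem a, _, const_mem a, ?_⟩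
      rw [algebraMap_laurentSeries_eq_single, coeffMap_single]
      exact (slF_const hn (ι a)).symm
    · intro z hz
      obtain ⟨z', hz', h⟩ := h.rat hz
      refine ⟨coeffEmb_mem_laurentBaseChange K hz, _, coeffEmb_mem_laurentBaseChange K hz', ?_⟩
      rw [KumG.coeffMap_coeffEmb, KumG.coeffMap_coeffEmb, h]
  obtain ⟨-, y, hy, h⟩ := key
  exact ⟨⟨y, hy⟩, h⟩

/-- the operator over `K` -/
def opK : FG Γ K →+* FG Γ K where
  toFun x := (h.exists_op ι x).choose
  map_one' := Subtype.ext (coeffMap_inj ι (by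
    rw [(h.exists_op ι 1).choose_spec]
    change slF Γ W (coeffMap ι 1) = coeffMap ι 1
    rw [map_one, slF_one h.toAd]))
  map_zero' := Subtype.ext (coeffMap_inj ι (by
    rw [(h.exists_op ι 0).choose_spec]
    change slF Γ W (coeffMap ι 0) = coeffMap ι 0
    rw [map_zero, slF_zero h.toAd]))
  map_mul' x y := Subtype.ext (coeffMap_inj ι (by
    rw [(h.exists_op ι (x * y)).choose_spec]
    change slF Γ W (coeffMap ι (x.1 * y.1)) = coeffMap ι (_ * _)
    rw [map_mul, map_mul, (h.exists_op ι x).choose_spec, (h.exists_op ι y).choose_spec,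
      slF_mul h.toAd (coeffMap_mem_MFunG ι x.2) (coeffMap_mem_MFunG ι y.2)]))
  map_add' x y := Subtype.ext (coeffMap_inj ι (by
    rw [(h.exists_op ι (x + y)).choose_spec]
    change slF Γ W (coeffMap ι (x.1 + y.1)) = coeffMap ι (_ + _)
    rw [map_add, map_add, (h.exists_op ι x).choose_spec, (h.exists_op ι y).choose_spec,
      slF_add h.toAd (coeffMap_mem_MFunG ι x.2) (coeffMap_mem_MFunG ι y.2)]))

theorem coe_opK (x : FG Γ K) :
    coeffMap ι (opK h ι x).1 = slF Γ W (coeffMap ι x.1) :=
  (h.exists_op ι x).choose_spec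

theorem opK_const (a : K) : opK h ι (algebraMap K (FG Γ K) a) =
    algebraMap K (FG Γ K) a := by
  apply Subtype.ext
  apply coeffMap_inj ι
  rw [coe_opK]
  change slF Γ W (coeffMap ι (algebraMap K (LaurentSeries K) a)) =
    coeffMap ι (algebraMap K (LaurentSeries K) a)
  rw [algebraMap_laurentSeries_eq_single, coeffMap_single]
  exact slF_const h.toAd _

/-- compatibility with the Galois action -/
theorem opK_gal (σ : K →+* K) (x : FG Γ K) (y : FG Γ K)
    (hy : y.1 = coeffMap σ x.1) :
    (opK h ι y).1 = coeffMap σ (opK h ι x).1 := by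
  have hstab : ∀ x : FG Γ K, coeffMap σ x.1 ∈ FG Γ K := fun x => by
    refine FG_le (K := K) (Γ := Γ) ((FG Γ K).toSubfield.comap (coeffMap σ)) ?_ ?_ x.1 x.2
    · intro a
      change coeffMap σ _ ∈ FG Γ K
      have : coeffMap σ (algebraMap K (LaurentSeries K) a) =
          algebraMap K (LaurentSeries K) (σ a) := by
        rw [algebraMap_laurentSeries_eq_single, coeffMap_single, algebraMap_laurentSeries_eq_single]
      rw [this]
      exact const_mem _
    · intro z hz
      change coeffMap σ _ ∈ FG Γ K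
      rw [coeffEmb, coeffMap_coeffMap, Subsingleton.elim (σ.comp (algebraMap ℚ K))
        (algebraMap ℚ K)]
      exact coeffEmb_mem_laurentBaseChange K hz
  let A : FG Γ K →+* FG Γ K :=
    ((coeffMap σ).comp (algebraMap (FG Γ K) (LaurentSeries K))).codRestrict (FG Γ K)
      fun x => hstab x
  let E : Subfield (FG Γ K) := RingHom.eqLocusField ((opK h ι).comp A) (A.comp (opK h ι))
  let T : Subfield (LaurentSeries K) := E.map (algebraMap (FG Γ K) (LaurentSeries K))
  have key : x.1 ∈ T := by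
    refine FG_le (K := K) (Γ := Γ) T ?_ ?_ x.1 x.2
    · intro a
      refine ⟨algebraMap K (FG Γ K) a, ?_, rfl⟩
      change opK h ι (A _) = A (opK h ι _)
      have h1 : ∀ b : K, A (algebraMap K (FG Γ K) b) = algebraMap K (FG Γ K) (σ b) := by
        intro b
        apply Subtype.ext
        exact coeffMap_algebraMap σ b
      rw [opK_const, h1, opK_const]
    · intro z hz
      obtain ⟨z', hz', hh⟩ := h.rat hz
      refine ⟨⟨coeffEmb K z, coeffEmb_mem_laurentBaseChange K hz⟩, ?_, rfl⟩
      change opK h ι (A _) = A (opK h ι _)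
      have h1 : ∀ (z : LaurentSeries ℚ) (hz : coeffEmb K z ∈ FG Γ K),
          A ⟨coeffEmb K z, hz⟩ = ⟨coeffEmb K z, hz⟩ := by
        intro z hz
        apply Subtype.ext
        change coeffMap σ (coeffEmb K z) = coeffEmb K z
        rw [coeffEmb, coeffMap_coeffMap]
        congr 2
        exact Subsingleton.elim _ _
      have h2 : opK h ι ⟨coeffEmb K z, coeffEmb_mem_laurentBaseChange K hz⟩ =
          ⟨coeffEmb K z', coeffEmb_mem_laurentBaseChange K hz'⟩ := by
        apply Subtype.ext
        apply coeffMap_inj ι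
        rw [coe_opK, KumG.coeffMap_coeffEmb, hh, KumG.coeffMap_coeffEmb]
      rw [h1, h2, h1]
  obtain ⟨x', hx', hx''⟩ := key
  have hxx : x' = x := Subtype.ext hx''
  subst hxx
  have h3 : y = A x' := Subtype.ext hy
  have h4 : opK h ι (A x') = A (opK h ι x') := hx'
  rw [h3, h4]
  rfl

end

end Fermat.Agent.SSH
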