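import Fermat.Agent.KumG.TT
import Fermat.Agent.KumG.HeckeFam
import Fermat.Agent.ALCoh.Mult2

/-!
# The action of integral matrices on modular functions
-/

set_option autoImplicit false
set_option linter.unusedSectionVars false

open UpperHalfPlane ModularForm Complex Matrix.SpecialLinearGroup
open scoped MatrixGroups Manifold
open Fermat.Agent.AL Fermat.Agent.MFLib Fermat.Agent.HeckeProd ModularCurve
  Fermat.Agent.ALCoh Fermat.Agent.KumG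
open Fermat.Agent.Kum (ql ql_eq_zero ql_smul ql_mul ql_add)

namespace Fermat.Agent.SSH

noncomputable section

variable {Γ Γ' Γ'' Δ : Subgroup SL(2, ℤ)} [LvlG Γ] [LvlG Γ'] [LvlG Γ''] [LvlG Δ] {W V : M2}
  {k l : ℤ} {f g : ℍ → ℂ} {x y : LaurentSeries ℂ}

/-- admissible matrices: `W Γ' W⁻¹ ⊆ Γ` -/
structure Ad (Γ Γ' : Subgroup SL(2, ℤ)) (W : M2) : Prop where
  det : 0 < W.det
  conj : ∀ γ ∈ Γ', ∃ δ ∈ Γ, W * (γ : M2) = (δ : M2) * W

omit [LvlG Γ] [LvlG Γ'] in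
theorem Ad.fam (h : Ad Γ Γ' W) : Fam Γ Γ' (fun _ : Unit => W) :=
  fam_of_choice (fun _ => h.det.ne') (fun γ hγ _ => by
    obtain ⟨δ, hδ, e⟩ := h.conj γ hγ
    exact ⟨(), ⟨δ, hδ⟩, e⟩) (fun _ _ _ _ => rfl)

omit [LvlG Γ] [LvlG Γ'] in
theorem Ad.mul (h : Ad Γ Γ' W) (h' : Ad Γ' Γ'' V) : Ad Γ Γ'' (W * V) where
  det := by rw [Matrix.det_mul]; exact mul_pos h.det h'.det
  conj γ hγ := by
    obtain ⟨δ, hδ, e⟩ := h'.conj γ hγ
    obtain ⟨δ', hδ', e'⟩ := h.conj δ hδ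
    refine ⟨δ', hδ', ?_⟩
    rw [Matrix.mul_assoc, e, ← Matrix.mul_assoc, e', Matrix.mul_assoc]

omit [LvlG Γ] in
theorem Ad.of_nz {γ : SL(2, ℤ)} (h : Nz Γ γ) : Ad Γ Γ (γ : M2) where
  det := by rw [γ.det_coe]; exact one_pos
  conj δ hδ := ⟨_, h δ hδ, by
    rw [← Matrix.SpecialLinearGroup.coe_mul, ← Matrix.SpecialLinearGroup.coe_mul,
      inv_mul_cancel_right]⟩

omit [LvlG Γ] [LvlG Γ'] [LvlG Γ''] in
theorem Ad.mono (h : Ad Γ Γ' W) (hΓ : Γ ≤ Δ) (hΓ' : Γ'' ≤ Γ') : Ad Δ Γ'' W where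
  det := h.det
  conj γ hγ := by
    obtain ⟨δ, hδ, e⟩ := h.conj γ (hΓ' hγ)
    exact ⟨δ, hΓ hδ, e⟩

/-- the translate of a modular function -/
def slF (Γ : Subgroup SL(2, ℤ)) (W : M2) (x : LaurentSeries ℂ) : LaurentSeries ℂ :=
  mop Γ (fun _ : Unit => W) x

theorem prodSl_unit (k : ℤ) (W : M2) (f : ℍ → ℂ) : prodSl k (fun _ : Unit => W) f = sl k W f := by
  rw [prodSl, Finset.univ_unique, Finset.prod_singleton]

theorem slF_rep (h : Ad Γ Γ' W) (hx : RepF Γ x k f g) :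
    RepF Γ' (slF Γ W x) k (sl k W f) (sl k W g) := by
  have h1 := repF_mop h.fam (fun _ => h.det) hx
  rw [prodSl_unit, prodSl_unit] at h1
  exact h1.congrW (by simp)

theorem slF_mem (h : Ad Γ Γ' W) (hx : x ∈ MFunG Γ) : slF Γ W x ∈ MFunG Γ' :=
  mop_mem h.fam (fun _ => h.det) hx

theorem slF_mul (h : Ad Γ Γ' W) (hx : x ∈ MFunG Γ) (hy : y ∈ MFunG Γ) :
    slF Γ W (x * y) = slF Γ W x * slF Γ W y :=
  mop_mul h.fam (fun _ => h.det) hx hy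

theorem slF_one (h : Ad Γ Γ' W) : slF Γ W 1 = 1 := mop_one h.fam (fun _ => h.det)

theorem slF_add (h : Ad Γ Γ' W) (hx : x ∈ MFunG Γ) (hy : y ∈ MFunG Γ) :
    slF Γ W (x + y) = slF Γ W x + slF Γ W y := by
  obtain ⟨k, f, g, hx⟩ := hx
  obtain ⟨k', f', g', hy⟩ := hy
  have e0 := slF_rep h (hx.add hy)
  have e3 := (slF_rep h hx).add (slF_rep h hy)
  rw [sl_mulf h.det, sl_add, sl_mulf h.det, sl_mulf h.det, ← smul_add] at e0
  have hd : ((W.det : ℤ) : ℂ) ≠ 0 := by exact_mod_cast h.det.ne'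
  exact e0.unique (e3.smul hd)

theorem slF_const (h : Ad Γ Γ' W) (c : ℂ) :
    slF Γ W (HahnSeries.C c) = HahnSeries.C c := by
  have h1 := slF_rep h (RepF.const (Γ := Γ) c)
  rw [sl_smul h.det] at h1
  have h2 : slF Γ W (HahnSeries.C c) * ql (sl 0 W 1) = HahnSeries.C c * ql (sl 0 W 1) := by
    rw [h1.eq, ql_smul _ h1.mg.qgG]
  refine mul_right_cancel₀ ?_ h2
  rw [ne_eq, ql_eq_zero h1.mg.qgG]
  exact h1.g0

theorem slF_zero (h : Ad Γ Γ' W) : slF Γ W 0 = 0 := by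
  have := slF_const h 0
  rwa [map_zero] at this

theorem slF_inv (h : Ad Γ Γ' W) (hx : x ∈ MFunG Γ) : slF Γ W x⁻¹ = (slF Γ W x)⁻¹ := by
  rcases eq_or_ne x 0 with rfl | h0
  · rw [inv_zero, slF_zero h, inv_zero]
  · exact mop_inv h.fam (fun _ => h.det) hx h0

theorem slF_neg (h : Ad Γ Γ' W) (hx : x ∈ MFunG Γ) : slF Γ W (-x) = -(slF Γ W x) := by
  have h1 := slF_add h hx (neg_mem hx)
  rw [add_neg_cancel, slF_zero h] at h1
  exact eq_neg_of_add_eq_zero_right h1.symm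

theorem slF_comp (h : Ad Γ Γ' W) (h' : Ad Γ' Γ'' V) (hx : x ∈ MFunG Γ) :
    slF Γ' V (slF Γ W x) = slF Γ (W * V) x := by
  obtain ⟨k, f, g, hx⟩ := hx
  have h1 := slF_rep h' (slF_rep h hx)
  rw [← sl_mul h.det.ne' h'.det.ne', ← sl_mul h.det.ne' h'.det.ne'] at h1
  exact h1.unique (slF_rep (h.mul h') hx)

/-- change of level -/
theorem slF_mono (h : Ad Γ Δ W) (hΓ : Γ' ≤ Γ) (h' : Ad Γ' Γ'' W) (hΔ : Γ'' ≤ Δ)
    (hx : x ∈ MFunG Γ) : slF Γ' W x = slF Γ W x := by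
  obtain ⟨k, f, g, hx⟩ := hx
  have h1 := slF_rep h hx
  have h2 := slF_rep h' (x := x) (k := k) (f := f) (g := g)
    ⟨hx.mf.mono hΓ, hx.mg.mono hΓ, hx.g0, hx.eq⟩
  exact h2.unique ⟨h1.mf.mono hΔ, h1.mg.mono hΔ, h1.g0, h1.eq⟩

theorem slF_SL {γ : SL(2, ℤ)} (h : Nz Γ γ) (hx : x ∈ MFunG Γ) :
    slF Γ (γ : M2) x = diaF (Γ := Γ) γ x := by
  obtain ⟨k, f, g, hx⟩ := hx
  have h1 := slF_rep (Ad.of_nz h) hx
  rw [sl_SL, sl_SL] at h1
  exact h1.unique (diaF_rep h hx)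

/-- scalar multiples -/
theorem slF_scalar {n : ℤ} (hn : n ≠ 0) (h : Ad Γ Γ' W) (hx : x ∈ MFunG Γ) :
    slF Γ (n • W) x = slF Γ W x := by
  obtain ⟨k, f, g, hx⟩ := hx
  have hW : n • W = !![n, 0; 0, n] * W := by
    ext i j
    fin_cases i <;> fin_cases j <;> simp [Matrix.mul_apply, Fin.sum_univ_two]
  have hdn : (!![n, 0; 0, n] : M2).det ≠ 0 := by
    simpa [Matrix.det_fin_two_of] using hn
  have had : Ad Γ Γ' (n • W) := by
    refine ⟨?_, fun γ hγ => ?_⟩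
    · rw [Matrix.det_smul, Fintype.card_fin]
      exact mul_pos (by positivity) h.det
    · obtain ⟨δ, hδ, e⟩ := h.conj γ hγ
      exact ⟨δ, hδ, by rw [Matrix.smul_mul, e, Matrix.mul_smul]⟩
  have h1 := slF_rep had hx
  rw [hW, sl_mul hdn h.det.ne', sl_mul hdn h.det.ne', sl_scalar hn, sl_scalar hn,
    sl_smul h.det, sl_smul h.det, ← hW] at h1
  have hc : (n : ℂ) ^ (k - 2) ≠ 0 := zpow_ne_zero _ (by exact_mod_cast hn)
  exact h1.unique ((slF_rep h hx).smul hc)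

/-- the degeneracy map -/
theorem slF_dg {q : ℕ} [NeZero q] (h : Ad Γ Γ' (dg q)) (hx : x ∈ MFunG Γ) :
    slF Γ (dg q) x = qExpand ℂ q x := by
  obtain ⟨k, f, g, hx⟩ := hx
  have hq : q ≠ 0 := NeZero.ne q
  have h1 := slF_rep h hx
  have key : ∀ f : ℍ → ℂ, QG f → ql (sl k (dg q) f) =
      HahnSeries.C ((q : ℂ) ^ (k - 1)) * qExpand ℂ q (ql f) := by
    intro f hf
    have h1 : sl k (dg q) f = (q : ℂ) ^ (k - 1) • dil q f := by
      rw [sl_def, ← heckeDiagMatrix_eq_toGL hq]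
      funext τ
      rw [slash_heckeDiagMatrix_apply k hq]
      rfl
    rw [h1, ql_smul _ (qg_dil hf), ql_dil hf]
  have h2 := h1.eq
  have h3 : ql (sl k (dg q) g) ≠ 0 := by
    rw [ne_eq, ql_eq_zero h1.mg.qgG]
    exact h1.g0
  refine mul_right_cancel₀ h3 ?_
  rw [h2, key f hx.mf.qgG, key g hx.mg.qgG, ← hx.eq, map_mul]
  ring

/-- elements of the group act trivially -/
theorem slF_of_mem {γ : SL(2, ℤ)} (h : γ ∈ Γ) (hx : x ∈ MFunG Γ) : slF Γ (γ : M2) x = x := by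
  rw [slF_SL (Nz.of_mem h) hx, diaF_of_mem h hx]

/-- equivalent matrices -/
theorem slF_congr {γ : SL(2, ℤ)} (hγ : γ ∈ Γ) (h : Ad Γ Γ' W) (hx : x ∈ MFunG Γ) :
    slF Γ ((γ : M2) * W) x = slF Γ W x := by
  rw [← slF_comp (Ad.of_nz (Nz.of_mem hγ)) h hx, slF_of_mem hγ hx]

end

end Fermat.Agent.SSH
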