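import Fermat.Agent.SSH.InstGal

/-!
# The transfer from the level `Γ₀(q) ∩ Γ_H(M)` to the level `Γ_H(M)`
-/

set_option autoImplicit false
set_option linter.unusedSectionVars false
set_option linter.style.haveILetI false

open UpperHalfPlane ModularForm Complex Matrix.SpecialLinearGroup
open scoped MatrixGroups Manifold
open Fermat.Agent.AL Fermat.Agent.ALCoh Fermat.Agent.KumG Fermat.Agent.Cov CongruenceSubgroup
  ModularCurve Fermat.Agent.ModPoly Fermat.Agent.GamH Fermat.Agent.MFLib Polynomial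
  IntermediateField Fermat.Agent.RedMod Fermat.Agent.HeckeProd
open Fermat.Agent.Kum (ql ql_eq_zero ql_smul ql_mul ql_add)

namespace Fermat.Agent.SSH

noncomputable section

section Gen

variable {Γ' Γ : Subgroup SL(2, ℤ)} {ι κ : Type*} {A : Type*} [AddCommGroup A]

/-- representatives of `Γ' \ Γ` -/
structure IsRepsG (Γ' Γ : Subgroup SL(2, ℤ)) (r : ι → SL(2, ℤ)) : Prop where
  mem : ∀ i, r i ∈ Γ
  inj : ∀ i j, r i * (r j)⁻¹ ∈ Γ' → i = j
  surj : ∀ γ ∈ Γ, ∃ i, γ * (r i)⁻¹ ∈ Γ'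

theorem famTrG [Finite ι] {r : ι → SL(2, ℤ)} (hr : IsRepsG Γ' Γ r) :
    Fam Γ' Γ (fun i => (r i : M2)) :=
  fam_of_choice (fun i => by rw [(r i).det_coe]; exact one_ne_zero) (fun γ hγ i => by
    obtain ⟨j, hj⟩ := hr.surj (r i * γ) (Γ.mul_mem (hr.mem i) hγ)
    refine ⟨j, ⟨_, hj⟩, ?_⟩
    rw [← Matrix.SpecialLinearGroup.coe_mul, ← Matrix.SpecialLinearGroup.coe_mul,
      inv_mul_cancel_right]) (fun i j g h => hr.inj i j (by
    rw [← Matrix.SpecialLinearGroup.coe_mul] at h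
    have h1 : r i = (g : SL(2, ℤ)) * r j := Subtype.ext h
    rw [h1, mul_inv_cancel_right]
    exact g.2))

/-- Transfers do not depend on representatives. -/
theorem famTrG_op_eq [Fintype ι] [Fintype κ] {r : ι → SL(2, ℤ)} {r' : κ → SL(2, ℤ)}
    (hr : IsRepsG Γ' Γ r) (hr' : IsRepsG Γ' Γ r') :
    (famTrG hr).op A = (famTrG hr').op A := by
  choose σ hσ using fun i => hr'.surj (r i) (hr.mem i)
  choose τ hτ using fun i => hr.surj (r' i) (hr'.mem i)
  have hs : Function.Bijective σ := by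
    constructor
    · intro i j hij
      apply hr.inj
      have h1 := Γ'.mul_mem (hσ i) (Γ'.inv_mem (hσ j))
      rw [hij] at h1
      convert h1 using 1
      group
    · intro k
      refine ⟨τ k, hr'.inj _ _ ?_⟩
      have h1 := Γ'.inv_mem (Γ'.mul_mem (hτ k) (hσ (τ k)))
      convert h1 using 1
      group
  refine Fam.op_eq _ _ (Equiv.ofBijective σ hs) (c := 1) (c' := 1) one_ne_zero fun i =>
    ⟨⟨_, hσ i⟩, ?_⟩
  rw [one_smul, one_smul]
  change (r i : M2) = ((r i * (r' (σ i))⁻¹ : SL(2, ℤ)) : M2) * (r' (σ i) : M2)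
  rw [← Matrix.SpecialLinearGroup.coe_mul, inv_mul_cancel_right]

set_option linter.unusedVariables false in
theorem exists_isRepsG [Γ'.FiniteIndex] (hle : Γ' ≤ Γ) :
    ∃ (n : ℕ) (r : Fin n → SL(2, ℤ)), IsRepsG Γ' Γ r := by
  let H : Subgroup Γ := Γ'.subgroupOf Γ
  have : H.FiniteIndex := inferInstance
  have : Finite (Γ ⧸ H) := inferInstance
  obtain ⟨n, ⟨e⟩⟩ := Finite.exists_equiv_fin (Γ ⧸ H)
  refine ⟨n, fun i => (((Quotient.out (e.symm i))⁻¹ : Γ) : SL(2, ℤ)), ?_, ?_, ?_⟩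
  · intro i
    exact ((Quotient.out (e.symm i))⁻¹).2
  · intro i j hij
    apply e.symm.injective
    rw [← QuotientGroup.out_eq' (e.symm i), ← QuotientGroup.out_eq' (e.symm j),
      QuotientGroup.eq, Subgroup.mem_subgroupOf]
    simpa using hij
  · intro γ hγ
    refine ⟨e (QuotientGroup.mk (⟨γ, hγ⟩⁻¹ : Γ)), ?_⟩
    rw [Equiv.symm_apply_apply]
    have h1 : (QuotientGroup.mk (⟨γ, hγ⟩⁻¹ : Γ) : Γ ⧸ H) =
        QuotientGroup.mk (Quotient.out (QuotientGroup.mk (⟨γ, hγ⟩⁻¹ : Γ) : Γ ⧸ H)) :=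
      (QuotientGroup.out_eq' _).symm
    rw [QuotientGroup.eq, Subgroup.mem_subgroupOf] at h1
    simpa using h1

/-- the transfer -/
def trG [Γ'.FiniteIndex] (hle : Γ' ≤ Γ) (A : Type*) [AddCommGroup A] :
    (Additive Γ' →+ A) →+ (Additive Γ →+ A) :=
  (famTrG (exists_isRepsG hle).choose_spec.choose_spec).op A

theorem trG_eq [Γ'.FiniteIndex] (hle : Γ' ≤ Γ) [Fintype ι] {r : ι → SL(2, ℤ)}
    (hr : IsRepsG Γ' Γ r) : trG hle A = (famTrG hr).op A :=
  famTrG_op_eq (exists_isRepsG hle).choose_spec.choose_spec hr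

end Gen

section Reps

variable {q M : ℕ} [hq : Fact q.Prime] [NeZero M] {H : Subgroup (ZMod M)ˣ}
  {x y v : ℤ} (h : x * (q * v) - M * y = 1)

/-- representatives of `Gq \ Γ_H(M)` -/
def rQ (g : SL(2, ℤ)) : Option (Fin q) → SL(2, ℤ)
  | none => 1
  | some b => g * sQ h * ModularGroup.T ^ (b : ℕ)

theorem T_pow_entries (n : ℤ) : (ModularGroup.T ^ n : SL(2, ℤ)) 0 0 = 1 ∧
    (ModularGroup.T ^ n : SL(2, ℤ)) 0 1 = n ∧ (ModularGroup.T ^ n : SL(2, ℤ)) 1 0 = 0 ∧
    (ModularGroup.T ^ n : SL(2, ℤ)) 1 1 = 1 := by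
  have h := ModularGroup.coe_T_zpow n
  refine ⟨?_, ?_, ?_, ?_⟩
  · have := congrFun (congrFun h 0) 0; simpa using this
  · have := congrFun (congrFun h 0) 1; simpa using this
  · have := congrFun (congrFun h 1) 0; simpa using this
  · have := congrFun (congrFun h 1) 1; simpa using this

theorem T_mem_GH (n : ℤ) : (ModularGroup.T ^ n : SL(2, ℤ)) ∈ GH M H := by
  obtain ⟨h1, h2, h3, h4⟩ := T_pow_entries n
  have h0 : (ModularGroup.T ^ n : SL(2, ℤ)) ∈ Gamma0 M := mem_Gamma0_iff.2 (by rw [h3]; simp)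
  rw [mem_GH_dd h0]
  refine ⟨1, one_mem _, ?_⟩
  rw [dd, h4]
  simp

theorem SL_mul_10 (a b : SL(2, ℤ)) : (a * b) 1 0 = a 1 0 * b 0 0 + a 1 1 * b 1 0 := by
  rw [Matrix.SpecialLinearGroup.coe_mul, Matrix.mul_apply, Fin.sum_univ_two]

theorem SL_mul_11 (a b : SL(2, ℤ)) : (a * b) 1 1 = a 1 0 * b 0 1 + a 1 1 * b 1 1 := by
  rw [Matrix.SpecialLinearGroup.coe_mul, Matrix.mul_apply, Fin.sum_univ_two]

theorem SL_inv_entries (a : SL(2, ℤ)) : a⁻¹ 0 0 = a 1 1 ∧ a⁻¹ 0 1 = -a 0 1 ∧ a⁻¹ 1 0 = -a 1 0 ∧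
    a⁻¹ 1 1 = a 0 0 := by
  have h := Matrix.SpecialLinearGroup.SL2_inv_expl a
  refine ⟨?_, ?_, ?_, ?_⟩ <;> rw [h] <;> simp

/-- membership in `Γ₀(q)` of products with elements of `Γ₀(q M)` -/
theorem dvd_mul_right_iff {a b : SL(2, ℤ)} (hb : b ∈ Gamma0 (q * M)) :
    (q : ℤ) ∣ (a * b) 1 0 ↔ (q : ℤ) ∣ a 1 0 := by
  obtain ⟨c, hc⟩ := mem_Gamma0_iff.1 hb
  have hdet := b.det_coe
  rw [Matrix.det_fin_two, hc] at hdet
  push_cast at hdet hc
  rw [SL_mul_10, hc]
  constructor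
  · rintro ⟨e, he⟩
    refine ⟨e * b 1 1 - a 1 0 * (M * c) * b 0 1 - a 1 1 * M * c * b 1 1, ?_⟩
    linear_combination b 1 1 * he - a 1 0 * hdet
  · rintro ⟨e, he⟩
    exact ⟨e * b 0 0 + a 1 1 * M * c, by rw [he]; ring⟩

theorem coprime_q_M (hqM : ¬ q ∣ M) : IsCoprime (q : ℤ) (M : ℤ) :=
  Nat.isCoprime_iff_coprime.2 ((Nat.Prime.coprime_iff_not_dvd hq.out).2 hqM)

theorem mem_Gq_iff (hqM : ¬ q ∣ M) {γ : SL(2, ℤ)} (hγ : γ ∈ GH M H) :
    γ ∈ Gq q M H ↔ (q : ℤ) ∣ γ 1 0 := by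
  rw [mem_Gq]
  constructor
  · intro h
    have h1 := mem_Gamma0_iff.1 h.1
    push_cast at h1
    exact (dvd_mul_right _ _).trans h1
  · intro h
    refine ⟨mem_Gamma0_iff.2 ?_, hγ⟩
    push_cast
    exact (coprime_q_M hqM).mul_dvd h (mem_Gamma0_iff.1 (GH_le _ _ hγ))

theorem isRepsG_rQ (hqM : ¬ q ∣ M) {g : SL(2, ℤ)} (hg : g ∈ Gamma0 (q * M))
    (hgs : g * sQ h ∈ GH M H) : IsRepsG (Gq q M H) (GH M H) (rQ (q := q) h g) where
  mem i := by
    rcases i with _ | b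
    · exact one_mem _
    · refine mul_mem hgs ?_
      have := T_mem_GH (M := M) (H := H) (b : ℕ)
      rwa [zpow_natCast] at this
  inj i j hij := by
    have hsx := coe_sQ h
    have hs10 : (sQ h) 1 0 = M := by
      have := congrFun (congrFun hsx 1) 0; simpa using this
    have hs11 : (sQ h) 1 1 = q * v := by
      have := congrFun (congrFun hsx 1) 1; simpa using this
    have hs00 : (sQ h) 0 0 = x := by
      have := congrFun (congrFun hsx 0) 0; simpa using this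
    have hM : ∀ t : ℤ, (q : ℤ) ∣ t * (M : ℤ) → (q : ℤ) ∣ t := fun t ht =>
      (coprime_q_M hqM).dvd_of_dvd_mul_right ht
    -- the key computation
    have key : ∀ (n : ℤ), g * sQ h * ModularGroup.T ^ n * (g * sQ h)⁻¹ ∈ Gamma0 (q * M) →
        (q : ℤ) ∣ n := by
      intro n hn
      have h1 : sQ h * ModularGroup.T ^ n * (sQ h)⁻¹ ∈ Gamma0 (q * M) := by
        have h2 := mul_mem (mul_mem (inv_mem hg) hn) hg
        have e : g⁻¹ * (g * sQ h * ModularGroup.T ^ n * (g * sQ h)⁻¹) * g =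
            sQ h * ModularGroup.T ^ n * (sQ h)⁻¹ := by group
        rwa [e] at h2
      have h2 := mem_Gamma0_iff.1 h1
      obtain ⟨t1, t2, t3, t4⟩ := T_pow_entries n
      obtain ⟨u1, u2, u3, u4⟩ := SL_inv_entries (sQ h)
      rw [SL_mul_10, SL_mul_10, SL_mul_11, t1, t2, t3, t4, u1, u3, hs10, hs11] at h2
      have h3 : (q : ℤ) ∣ n * (M : ℤ) * (M : ℤ) := by
        have h4 := (dvd_mul_right (q : ℤ) (M : ℤ)).trans (by push_cast at h2; exact h2)
        have h5 : (M : ℤ) * 1 + (q : ℤ) * v * 0 = M := by ring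
        have h6 : n * (M : ℤ) * M = -(((M : ℤ) * 1 + q * v * 0) * (q * v) +
          ((M : ℤ) * n + q * v * 1) * -M) := by ring
        rw [h6]
        exact (dvd_neg).2 h4
      exact hM _ (hM _ h3)
    have hcase : ∀ b : Fin q, ¬ (g * sQ h * ModularGroup.T ^ (b : ℕ)) ∈ Gq q M H := by
      intro b hb
      have h1 := mem_Gamma0_iff.1 (mul_mem (inv_mem hg) (mem_Gq.1 hb).1)
      have e : g⁻¹ * (g * sQ h * ModularGroup.T ^ (b : ℕ)) = sQ h * ModularGroup.T ^ (b : ℕ) := by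
        group
      rw [e] at h1
      obtain ⟨t1, t2, t3, t4⟩ := T_pow_entries ((b : ℕ) : ℤ)
      rw [zpow_natCast] at t1 t2 t3 t4
      rw [SL_mul_10, t1, t3, hs10, mul_one, mul_zero, add_zero] at h1
      push_cast at h1
      have h2 := (dvd_mul_right (q : ℤ) (M : ℤ)).trans h1
      exact hqM (Int.natCast_dvd_natCast.1 h2)
    rcases i with _ | b <;> rcases j with _ | b'
    · rfl
    · exfalso
      apply hcase b'
      have h1 := inv_mem hij
      have e : (rQ (q := q) h g none * (rQ (q := q) h g (some b'))⁻¹)⁻¹ =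
          g * sQ h * ModularGroup.T ^ (b' : ℕ) := by
        change (1 * (g * sQ h * ModularGroup.T ^ (b' : ℕ))⁻¹)⁻¹ = _
        group
      rwa [e] at h1
    · exfalso
      apply hcase b
      have e : rQ (q := q) h g (some b) * (rQ (q := q) h g none)⁻¹ =
          g * sQ h * ModularGroup.T ^ (b : ℕ) := by
        change g * sQ h * ModularGroup.T ^ (b : ℕ) * 1⁻¹ = _
        group
      rwa [e] at hij
    · have h1 := key ((b : ℕ) - (b' : ℕ)) (by
        have e : rQ (q := q) h g (some b) * (rQ (q := q) h g (some b'))⁻¹ =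
            g * sQ h * ModularGroup.T ^ (((b : ℕ) : ℤ) - ((b' : ℕ) : ℤ)) * (g * sQ h)⁻¹ := by
          change g * sQ h * ModularGroup.T ^ (b : ℕ) *
            (g * sQ h * ModularGroup.T ^ (b' : ℕ))⁻¹ = _
          rw [zpow_sub, zpow_natCast, zpow_natCast]
          group
        rw [e] at hij
        exact (mem_Gq.1 hij).1)
      congr 1
      apply Fin.ext
      have h2 := b.2
      have h3 := b'.2
      obtain ⟨c, hc⟩ := h1
      have h4 : c = 0 := by
        by_contra h0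
        have h5 : (q : ℤ) ≤ |(q : ℤ) * c| := by
          rw [abs_mul, Nat.abs_cast]
          exact le_mul_of_one_le_right (by positivity) (Int.one_le_abs h0)
        rw [← hc] at h5
        have h6 : |((b : ℕ) : ℤ) - ((b' : ℕ) : ℤ)| < q := by
          rw [abs_lt]
          constructor <;> omega
        exact absurd h5 (not_le.2 h6)
      rw [h4, mul_zero] at hc
      omega
  surj γ hγ := by
    have hsx := coe_sQ h
    have hs10 : (sQ h) 1 0 = M := by
      have := congrFun (congrFun hsx 1) 0; simpa using this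
    have hs11 : (sQ h) 1 1 = q * v := by
      have := congrFun (congrFun hsx 1) 1; simpa using this
    by_cases hc : (q : ℤ) ∣ γ 1 0
    · refine ⟨none, ?_⟩
      change γ * 1⁻¹ ∈ _
      rw [inv_one, mul_one]
      exact (mem_Gq_iff hqM hγ).2 hc
    · -- invert `c` modulo `q`
      have hcop : IsCoprime (q : ℤ) (γ 1 0) :=
        (Int.prime_iff_natAbs_prime.2 (by simpa using hq.out)).coprime_iff_not_dvd.2 hc
      obtain ⟨a, e, hae⟩ := hcop
      -- b ≡ d e mod q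
      let b : ℕ := ((γ 1 1 * e) % q).toNat
      have hq0 : (0 : ℤ) < q := by exact_mod_cast hq.out.pos
      have hb : ((b : ℕ) : ℤ) = (γ 1 1 * e) % q := Int.toNat_of_nonneg (Int.emod_nonneg _ hq0.ne')
      have hbq : b < q := by
        have := Int.emod_lt_of_pos (γ 1 1 * e) hq0
        omega
      refine ⟨some ⟨b, hbq⟩, ?_⟩
      change γ * (g * sQ h * ModularGroup.T ^ b)⁻¹ ∈ Gq q M H
      have hT : ModularGroup.T ^ b ∈ GH M H := by
        have := T_mem_GH (M := M) (H := H) (b : ℕ)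
        rwa [zpow_natCast] at this
      rw [mem_Gq_iff hqM (mul_mem hγ (inv_mem (mul_mem hgs hT)))]
      have e1 : γ * (g * sQ h * ModularGroup.T ^ b)⁻¹ =
          γ * ModularGroup.T ^ (-(b : ℤ)) * (sQ h)⁻¹ * g⁻¹ := by
        rw [zpow_neg, zpow_natCast]
        group
      rw [e1, dvd_mul_right_iff (inv_mem hg)]
      obtain ⟨t1, t2, t3, t4⟩ := T_pow_entries (-(b : ℤ))
      obtain ⟨u1, u2, u3, u4⟩ := SL_inv_entries (sQ h)
      rw [SL_mul_10, SL_mul_10, SL_mul_11, t1, t2, t3, t4, u1, u3, hs10, hs11, hb]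
      have h3 : (γ 1 1 * e) % q = γ 1 1 * e - q * ((γ 1 1 * e) / q) := by
        have := Int.emod_add_mul_ediv (γ 1 1 * e) q
        linarith
      rw [h3]
      refine ⟨γ 1 0 * v + M * (γ 1 0 * -((γ 1 1 * e) / q)) - M * γ 1 1 * a, ?_⟩
      linear_combination ((M : ℤ) * γ 1 1) * hae

end Reps

end

end Fermat.Agent.SSH
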