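import Fermat.Agent.SSH.WOp
import Fermat.Agent.SSH.Data
import Fermat.Agent.Cov.Orb

/-!
# The involution and the diamonds over a field of constants
-/

set_option autoImplicit false
set_option linter.unusedSectionVars false
set_option linter.style.haveILetI false

open UpperHalfPlane ModularForm Complex Matrix.SpecialLinearGroup
open scoped MatrixGroups Manifold
open Fermat.Agent.AL Fermat.Agent.ALCoh Fermat.Agent.KumG Fermat.Agent.Cov CongruenceSubgroup
  ModularCurve Fermat.Agent.ModPoly Fermat.Agent.GamH Fermat.Agent.MFLib Polynomial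
  IntermediateField Fermat.Agent.RedMod Fermat.Agent.Red

namespace Fermat.Agent.SSH

noncomputable section

section FHlem

variable {k : Type*} [Field k] {N q : ℕ} [NeZero N] {H : Subgroup (ZMod N)ˣ}

theorem qExpand_const [NeZero q] (c : k) :
    qExpand k q (algebraMap k (LaurentSeries k) c) = algebraMap k (LaurentSeries k) c := by
  rw [← Sb_one_eq q (pn q) (coe_pn q), algebraMap_eq_C, Sb_C]

theorem mem_FH_induct {P : LaurentSeries k → Prop} (hz : ∀ w : LaurentSeries ℤ,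
      cst k w ∈ FH k N H → P (cst k w))
    (hc : ∀ c : k, P (algebraMap k (LaurentSeries k) c))
    (ha : ∀ x y, P x → P y → P (x + y)) (hm : ∀ x y, P x → P y → P (x * y))
    (hi : ∀ x, P x → P x⁻¹) {x : LaurentSeries k} (hx : x ∈ FH k N H) : P x := by
  have key : ∀ x ∈ FF k N, P x := by
    intro x hx
    rw [FF_eq_adjoin] at hx
    induction hx using IntermediateField.adjoin_induction with
    | mem x hx =>
      obtain ⟨m, hm, rfl⟩ := hx
      haveI : NeZero (m : ℕ) := ⟨m.ne_zero⟩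
      have h1 : (Jc 1 m : LaurentSeries k) = cst k (qExpand ℤ m (jqModC ℤ)) := by
        rw [cst, coeffMap_qExpand, coeffMap_jqModC, Jc_one_eq]
      have h2 : (Jc 1 m : LaurentSeries k) ∈ FH k N H := FF_le_FH (Jc_one_mem hm)
      rw [h1] at h2 ⊢
      exact hz _ h2
    | algebraMap x => exact hc x
    | add x y _ _ hx hy => exact ha _ _ hx hy
    | inv x _ hx => exact hi _ hx
    | mul x y _ _ hx hy => exact hm _ _ hx hy
  rw [FH] at hx
  induction hx using IntermediateField.adjoin_induction with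
  | mem x hx =>
    rcases hx with hx | hx
    · exact key x hx
    · rw [Set.mem_singleton_iff] at hx
      rw [hx]
      exact hz _ z_mem_FH
  | algebraMap x => exact hc x
  | add x y _ _ hx hy => exact ha _ _ hx hy
  | inv x _ hx => exact hi _ hx
  | mul x y _ _ hx hy => exact hm _ _ hx hy

theorem FH_exp [Fact q.Prime] [CharP k q] {x : LaurentSeries k} (hx : x ∈ FH k N H) :
    qExpand k q x ∈ FH k N H := by
  refine mem_FH_induct (P := fun x => qExpand k q x ∈ FH k N H) ?_ ?_ ?_ ?_ ?_ hx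
  · intro w hw
    rw [SemiSt.qExpand_cst]
    exact pow_mem hw q
  · intro c
    rw [qExpand_const]
    exact (FH k N H).algebraMap_mem c
  · intro x y hx hy; rw [map_add]; exact add_mem hx hy
  · intro x y hx hy; rw [map_mul]; exact mul_mem hx hy
  · intro x hx; rw [map_inv₀]; exact inv_mem hx

theorem FH_cstab : CStab (FH k N H) := by
  intro σ x hx
  refine mem_FH_induct (P := fun x => coeffMap σ x ∈ FH k N H) ?_ ?_ ?_ ?_ ?_ hx
  · intro w hw
    rw [coeffMap_cst]
    exact hw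
  · intro c
    rw [coeffMap_algebraMap]
    exact (FH k N H).algebraMap_mem _
  · intro x y hx hy; rw [map_add]; exact add_mem hx hy
  · intro x y hx hy; rw [map_mul]; exact mul_mem hx hy
  · intro x hx; rw [map_inv₀]; exact inv_mem hx

end FHlem

theorem coe_incl_gen {K L : Type*} [Field K] [Field L] [Algebra K L] {E F : IntermediateField K L}
    (h : E ≤ F) (x : E) : (IntermediateField.inclusion h x).1 = x.1 := rfl

section FGlem

variable {Γ : Subgroup SL(2, ℤ)} [LvlG Γ] {K : Type*} [Field K] [Algebra ℚ K]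

theorem FG_cstab : CStab (FG Γ K) := by
  intro σ x hx
  refine FG_le (K := K) (Γ := Γ) ((FG Γ K).toSubfield.comap (coeffMap σ)) ?_ ?_ x hx
  · intro a
    change coeffMap σ _ ∈ FG Γ K
    rw [coeffMap_algebraMap]
    exact const_mem _
  · intro z hz
    change coeffMap σ _ ∈ FG Γ K
    rw [coeffEmb, coeffMap_coeffMap, Subsingleton.elim (σ.comp (algebraMap ℚ K))
      (algebraMap ℚ K)]
    exact coeffEmb_mem_laurentBaseChange K hz

/-- algebra automorphisms from ring endomorphisms -/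
def mkAlg (f g : FG Γ K →+* FG Γ K) (hf : ∀ a, f (algebraMap K (FG Γ K) a) = algebraMap K _ a)
    (h1 : ∀ x, f (g x) = x) (h2 : ∀ x, g (f x) = x) : FG Γ K ≃ₐ[K] FG Γ K where
  toFun := f
  invFun := g
  left_inv := h2
  right_inv := h1
  map_mul' := map_mul f
  map_add' := map_add f
  commutes' := hf

variable {G : Subgroup SL(2, ℤ)} [DiaG Γ G] (ι : K →+* ℂ) {γ : SL(2, ℤ)}

/-- diamonds as automorphisms -/
def diaE (hγ : γ ∈ G) : FG Γ K ≃ₐ[K] FG Γ K :=
  mkAlg (diaK ι hγ) (diaK ι (inv_mem hγ)) (diaK_const ι hγ)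
    (fun x => by
      rw [← diaK_mul]
      exact diaK_of_mem ι _ (by rw [inv_mul_cancel]; exact one_mem _) x)
    (fun x => by
      rw [← diaK_mul]
      exact diaK_of_mem ι _ (by rw [mul_inv_cancel]; exact one_mem _) x)

theorem diaE_apply (hγ : γ ∈ G) (x : FG Γ K) : diaE ι hγ x = diaK ι hγ x := rfl

theorem coe_diaE (hγ : γ ∈ G) (x : FG Γ K) :
    coeffMap ι (diaE ι hγ x : LaurentSeries K) = diaF (Γ := Γ) γ (coeffMap ι x.1) :=
  coe_diaK ι hγ x

theorem diaE_symm_apply (hγ : γ ∈ G) (x : FG Γ K) :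
    (diaE ι hγ).symm x = diaK ι (inv_mem hγ) x := rfl

end FGlem

section Inst

variable {q M : ℕ} [hq : Fact q.Prime] [NeZero M] {H : Subgroup (ZMod M)ˣ}
  [hH : Fact ((-1 : (ZMod M)ˣ) ∈ H)] {K : Type*} [Field K] [Algebra ℚ K] (ι : K →+* ℂ)

theorem incl_le (K : Type*) [Field K] [Algebra ℚ K] : FG (GH M H) K ≤ FG (Gq q M H) K :=
  FG_mono K Gq_le

section W

variable (D : WData q M H) (hM3 : 3 ≤ M)

/-- the Atkin-Lehner involution over `K` -/
def wE : FG (Gq q M H) K ≃ₐ[K] FG (Gq q M H) K :=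
  mkAlg (opK (adQ_W D hq.out hM3) ι) (opK (adQ_W D hq.out hM3) ι)
    (opK_const (adQ_W D hq.out hM3) ι)
    (fun x => by
      apply Subtype.ext
      apply coeffMap_inj ι
      rw [coe_opK, coe_opK, slF_W_W D (coeffMap_mem_MFunG ι x.2)])
    (fun x => by
      apply Subtype.ext
      apply coeffMap_inj ι
      rw [coe_opK, coe_opK, slF_W_W D (coeffMap_mem_MFunG ι x.2)])

theorem coe_wE (x : FG (Gq q M H) K) : coeffMap ι (wE ι D hM3 x : LaurentSeries K) =
    slF (Gq q M H) D.W (coeffMap ι x.1) := coe_opK (adQ_W D hq.out hM3) ι x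

theorem coe_wE_wE (x : FG (Gq q M H) K) :
    coeffMap ι (wE ι D hM3 (wE ι D hM3 x) : LaurentSeries K) = coeffMap ι x.1 := by
  have h1 : coeffMap ι (wE ι D hM3 (wE ι D hM3 x) : LaurentSeries K) =
      slF (Gq q M H) D.W (slF (Gq q M H) D.W (coeffMap ι x.1)) := by
    rw [coe_wE, coe_wE]
  exact h1.trans (slF_W_W D (coeffMap_mem_MFunG ι x.2))

theorem wE_wE (x : FG (Gq q M H) K) : wE ι D hM3 (wE ι D hM3 x) = x :=
  Subtype.ext (coeffMap_inj ι (coe_wE_wE ι D hM3 x))

theorem wE_gal (σ : K →+* K) (x y : FG (Gq q M H) K)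
    (h : (y : LaurentSeries K) = coeffMap σ x) :
    (wE ι D hM3 y : LaurentSeries K) = coeffMap σ (wE ι D hM3 x : LaurentSeries K) :=
  opK_gal (adQ_W D hq.out hM3) ι σ x y h

theorem coe_wE_level (x : FG (GH M H) K) :
    coeffMap ι (wE ι D hM3 (IntermediateField.inclusion (incl_le K) x) : LaurentSeries K) =
      coeffMap ι (qExpand K q (diaK ι (sQ_mem D.h) x : LaurentSeries K)) := by
  have h1 := coe_wE ι D hM3 (IntermediateField.inclusion (incl_le K) x)
  rw [coe_incl_gen] at h1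
  have h2 : coeffMap ι (qExpand K q (diaK ι (sQ_mem D.h) x : LaurentSeries K)) =
      qExpand ℂ q (diaF (Γ := GH M H) D.s (coeffMap ι x.1)) := by
    rw [coeffMap_qExpand, coe_diaK]
  exact h1.trans ((slF_W_level D (coeffMap_mem_MFunG ι x.2)).trans h2.symm)

theorem wE_level (x : FG (GH M H) K) :
    (wE ι D hM3 (IntermediateField.inclusion (incl_le K) x) : LaurentSeries K) =
      qExpand K q (diaK ι (sQ_mem D.h) x : LaurentSeries K) :=
  coeffMap_inj ι (coe_wE_level ι D hM3 x)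

variable {γ : SL(2, ℤ)} (hγ : γ ∈ Gamma0 (q * M))

include hγ in
theorem mem_M : γ ∈ Gamma0 M := Gamma0_le (dvd_mul_left M q) hγ

theorem diaE_incl (x : FG (GH M H) K) :
    diaE (Γ := Gq q M H) ι hγ (IntermediateField.inclusion (incl_le K) x) =
      IntermediateField.inclusion (incl_le K) (diaE (Γ := GH M H) ι (mem_M hγ) x) := by
  apply Subtype.ext
  apply coeffMap_inj ι
  have h1 := coe_diaE (Γ := Gq q M H) ι hγ (IntermediateField.inclusion (incl_le K) x)
  rw [coe_incl_gen] at h1 ⊢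
  exact h1.trans ((diaFq_of_level hγ (coeffMap_mem_MFunG ι x.2)).trans
    (coe_diaE ι (mem_M hγ) x).symm)

theorem diaE_wE (x : FG (Gq q M H) K) : diaE (Γ := Gq q M H) ι hγ (wE ι D hM3 x) =
    wE ι D hM3 (diaE (Γ := Gq q M H) ι hγ x) := by
  apply Subtype.ext
  apply coeffMap_inj ι
  have hx := coeffMap_mem_MFunG ι x.2
  have hn := nz_Gq (H := H) hγ
  rw [coe_diaE, coe_wE, coe_wE, coe_diaE, ← slF_SL hn (slF_mem D.ad hx), ← slF_SL hn hx,
    slF_comp D.ad (Ad.of_nz hn) hx, slF_comp (Ad.of_nz hn) D.ad hx]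
  obtain ⟨δ, hδ, ε, hε, h1, h2⟩ := WQ_comm hq.out.ne_zero D.h H hγ
  rw [WData.W, h1, h2, Matrix.SpecialLinearGroup.coe_mul, Matrix.mul_assoc]
  exact slF_congr hε ((Ad.of_nz hn).mul D.ad) hx

end W

theorem diaE_j {Γ G : Subgroup SL(2, ℤ)} [LvlG Γ] [DiaG Γ G] {γ : SL(2, ℤ)} (hγ : γ ∈ G)
    (h : jqModC K ∈ FG Γ K) : diaE (Γ := Γ) ι hγ ⟨jqModC K, h⟩ = ⟨jqModC K, h⟩ := by
  apply Subtype.ext
  apply coeffMap_inj ι
  rw [coe_diaE]
  change diaF (Γ := Γ) γ (coeffMap ι (jqModC K)) = coeffMap ι (jqModC K)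
  rw [coeffMap_jqModC]
  exact diaF_top (nz_of_mem Γ hγ) repF_j

theorem diaE_mono {γ : SL(2, ℤ)} (hγ : γ ∈ Gamma0 M) {w : LaurentSeries ℤ}
    (hw : w ∈ Mono M) (h : cst K w ∈ FG (GH M H) K) :
    (diaE (Γ := GH M H) ι hγ ⟨cst K w, h⟩ : LaurentSeries K) = cst K w := by
  apply coeffMap_inj ι
  rw [coe_diaE]
  change diaF (Γ := GH M H) γ (coeffMap ι (cst K w)) = coeffMap ι (cst K w)
  rw [coeffMap_cst]
  haveI : LvlG (Gamma0 M) := lvl0
  have h1 := FF_le_MFunG (Γ := Gamma0 M) (N := M) le_rfl (cst_mem_FF (k := ℂ) hw)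
  rw [diaF_mono (GH_le _ _) (Nz.of_mem hγ) (nz_GH hγ) h1, diaF_of_mem hγ h1]

theorem diaE_z (hM2 : 2 ≤ M) {γ : SL(2, ℤ)} (hγ : γ ∈ Gamma0 M) {u : (ZMod M)ˣ}
    (hu : dd M γ = u) (a : (ZMod M)ˣ) (h : cst K (zs H a) ∈ FG (GH M H) K) :
    (diaE (Γ := GH M H) ι hγ ⟨cst K (zs H a), h⟩ : LaurentSeries K) =
      cst K (zs H (a * u⁻¹)) := by
  apply coeffMap_inj ι
  rw [coe_diaE]
  change diaF (Γ := GH M H) γ (coeffMap ι (cst K (zs H a))) = coeffMap ι (cst K _)
  rw [coeffMap_cst, coeffMap_cst, diaF_z hM2 hγ hu]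

end Inst

end

end Fermat.Agent.SSH
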