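import Fermat.Agent.SSH.Gens
import Fermat.Agent.SSH.OpK

/-!
# The Atkin-Lehner involution at the level `Γ₀(q) ∩ Γ_H(M)`
-/

set_option autoImplicit false
set_option linter.unusedSectionVars false
set_option linter.style.haveILetI false

open UpperHalfPlane ModularForm Complex Matrix.SpecialLinearGroup
open scoped MatrixGroups Manifold
open Fermat.Agent.AL Fermat.Agent.ALCoh Fermat.Agent.KumG Fermat.Agent.Cov CongruenceSubgroup
  ModularCurve Fermat.Agent.ModPoly Fermat.Agent.GamH Fermat.Agent.MFLib Polynomial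
  IntermediateField Fermat.Agent.RedMod

namespace Fermat.Agent.SSH

noncomputable section

/-- data defining the involution -/
structure WData (q M : ℕ) (H : Subgroup (ZMod M)ˣ) where
  x : ℤ
  y : ℤ
  v : ℤ
  h : x * (q * v) - M * y = 1
  sq : ∃ u ∈ H, (q : ZMod M) * (v : ZMod M) ^ 2 = ((u : (ZMod M)ˣ) : ZMod M)

/-- the hypothesis that `q` is a square modulo `H` -/
theorem exists_WData {q M : ℕ} [NeZero q] [NeZero M] {H : Subgroup (ZMod M)ˣ} (hco : q.Coprime M)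
    (hsq : ∃ e : (ZMod M)ˣ, ZMod.unitOfCoprime q hco * e ^ 2 ∈ H) : Nonempty (WData q M H) := by
  obtain ⟨e, he⟩ := hsq
  obtain ⟨x, y, v, h, hv⟩ := exists_WQ hco e
  exact ⟨⟨x, y, v, h, _, he, by rw [hv]; simp⟩⟩

variable {q M : ℕ} [NeZero q] [NeZero M] {H : Subgroup (ZMod M)ˣ}
  [hH : Fact ((-1 : (ZMod M)ˣ) ∈ H)] (D : WData q M H)

/-- the matrix -/
abbrev WData.W : M2 := WQ q M D.x D.y D.v

/-- the matrix in `Γ₀(M)` -/
abbrev WData.s : SL(2, ℤ) := sQ D.h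

omit hH in
theorem WData.ad : Ad (Gq q M H) (Gq q M H) D.W := ad_WQ (NeZero.pos q) D.h H

theorem ad_dg : Ad (GH M H) (Gq q M H) (dg q) where
  det := by
    rw [Matrix.det_fin_two_of, mul_one, mul_zero, sub_zero]
    exact_mod_cast NeZero.pos q
  conj γ hγ := by
    rw [mem_Gq] at hγ
    obtain ⟨h0, h1⟩ := hγ
    obtain ⟨c, hc⟩ := mem_Gamma0_iff.1 h0
    have hdet := γ.det_coe
    rw [Matrix.det_fin_two, hc] at hdet
    push_cast at hdet hc
    have hd : (!![γ 0 0, q * γ 0 1; M * c, γ 1 1] : M2).det = 1 := by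
      rw [Matrix.det_fin_two_of]; linear_combination hdet
    have hmem : mkSL !![γ 0 0, q * γ 0 1; M * c, γ 1 1] hd ∈ Gamma0 M := mkSL_mem _ (by simp)
    refine ⟨mkSL !![γ 0 0, q * γ 0 1; M * c, γ 1 1] hd, ?_, ?_⟩
    · rw [mem_GH_dd hmem]
      rw [mem_GH_dd h1.1] at h1
      exact h1
    · change _ = !![γ 0 0, q * γ 0 1; M * c, γ 1 1] * _
      apply mat_ext <;> simp [Matrix.mul_apply, Fin.sum_univ_two]
      · ring
      · rw [hc]; ring

section F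

variable {x : LaurentSeries ℂ}

theorem slF_W_level (hx : x ∈ MFunG (GH M H)) :
    slF (Gq q M H) D.W x = qExpand ℂ q (diaF (Γ := GH M H) D.s x) := by
  have h1 : Ad (GH M H) (Gq q M H) D.W := D.ad.mono Gq_le le_rfl
  rw [slF_mono h1 Gq_le D.ad le_rfl hx, WData.W, ← sQ_mul_dg D.h,
    ← slF_comp (Ad.of_nz (nz_GH (sQ_mem D.h))) ad_dg hx, slF_SL (nz_GH (sQ_mem D.h)) hx,
    slF_dg ad_dg (diaF_mem (nz_GH (sQ_mem D.h)) hx)]

theorem slF_W_W (hx : x ∈ MFunG (Gq q M H)) :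
    slF (Gq q M H) D.W (slF (Gq q M H) D.W x) = x := by
  obtain ⟨u, hu, hv⟩ := D.sq
  have hg : gQ D.h ∈ Gq q M H := gQ_mem D.h hu hv
  have hq : (q : ℤ) ≠ 0 := by exact_mod_cast NeZero.ne q
  rw [slF_comp D.ad D.ad hx, WData.W, WQ_sq D.h, slF_scalar hq (Ad.of_nz (Nz.of_mem hg)) hx,
    slF_of_mem hg hx]

/-- the functions on which the involution commutes with conjugation -/
def TW (D : WData q M H) (σ : ℂ →+* ℂ) : Subfield (LaurentSeries ℂ) where
  carrier := {y | y ∈ MFunG (Gq q M H) ∧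
    slF (Gq q M H) D.W (coeffMap σ y) = coeffMap σ (slF (Gq q M H) D.W y)}
  mul_mem' := fun {x y} hx hy => ⟨mul_mem hx.1 hy.1, by
    rw [map_mul, slF_mul D.ad (endo_mem_MFunG σ hx.1) (endo_mem_MFunG σ hy.1), hx.2, hy.2,
      slF_mul D.ad hx.1 hy.1, map_mul]⟩
  one_mem' := ⟨one_mem _, by rw [map_one, slF_one D.ad, map_one]⟩
  add_mem' := fun {x y} hx hy => ⟨add_mem hx.1 hy.1, by
    rw [map_add, slF_add D.ad (endo_mem_MFunG σ hx.1) (endo_mem_MFunG σ hy.1), hx.2, hy.2,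
      slF_add D.ad hx.1 hy.1, map_add]⟩
  zero_mem' := ⟨zero_mem _, by rw [map_zero, slF_zero D.ad, map_zero]⟩
  neg_mem' := fun {x} hx => ⟨neg_mem hx.1, by
    rw [map_neg, slF_neg D.ad (endo_mem_MFunG σ hx.1), hx.2, slF_neg D.ad hx.1, map_neg]⟩
  inv_mem' := fun x hx => ⟨inv_mem hx.1, by
    rw [map_inv₀, slF_inv D.ad (endo_mem_MFunG σ hx.1), hx.2, slF_inv D.ad hx.1, map_inv₀]⟩

theorem TW_level {σ : ℂ →+* ℂ} {z : LaurentSeries ℚ}
    (hz : coeffMap (algebraMap ℚ ℂ) z ∈ MFunG (GH M H)) :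
    coeffMap (algebraMap ℚ ℂ) z ∈ TW D σ ∧
      slF (Gq q M H) D.W (coeffMap (algebraMap ℚ ℂ) z) ∈ TW D σ := by
  have h0 : coeffMap (algebraMap ℚ ℂ) z ∈ MFunG (Gq q M H) := MFunG_mono Gq_le hz
  obtain ⟨z', hz', h⟩ := diaF_rat (Γ := GH M H) (sQ_mem D.h) (z := z) hz
  have h1 : slF (Gq q M H) D.W (coeffMap (algebraMap ℚ ℂ) z) =
      coeffMap (algebraMap ℚ ℂ) (qExpand ℚ q z') := by
    rw [slF_W_level D hz, h, coeffMap_qExpand]
  refine ⟨⟨h0, ?_⟩, ⟨slF_mem D.ad h0, ?_⟩⟩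
  · rw [coeffMap_rat, h1, coeffMap_rat]
  · rw [h1, coeffMap_rat, ← h1, slF_W_W D h0, coeffMap_rat]

theorem C_mem_TW (σ : ℂ →+* ℂ) (c : ℂ) : algebraMap ℂ (LaurentSeries ℂ) c ∈ TW D σ := by
  rw [algebraMap_laurentSeries_eq_single]
  refine ⟨const_mem_MFunG c, ?_⟩
  have : coeffMap σ (HahnSeries.C c) = HahnSeries.C (σ c) := coeffMap_single σ 0 c
  change slF (Gq q M H) D.W (coeffMap σ (HahnSeries.C c)) =
    coeffMap σ (slF (Gq q M H) D.W (HahnSeries.C c))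
  rw [slF_const D.ad, this, slF_const D.ad]

theorem cst_eq_rat (w : LaurentSeries ℤ) : cst ℂ w = coeffMap (algebraMap ℚ ℂ) (cst ℚ w) :=
  (coeffMap_cst (algebraMap ℚ ℂ) w).symm

theorem dvd_cases (hq : q.Prime) {m : ℕ} (hm : m ∣ q * M) :
    m ∣ M ∨ ∃ m', m = q * m' ∧ m' ∣ M := by
  by_cases h : q ∣ m
  · obtain ⟨m', rfl⟩ := h
    exact Or.inr ⟨m', rfl, Nat.dvd_of_mul_dvd_mul_left hq.pos hm⟩
  · exact Or.inl ((Nat.Coprime.dvd_of_dvd_mul_left
      ((Nat.Prime.coprime_iff_not_dvd hq).2 h).symm hm))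

theorem slF_W_Jc {m : ℕ+} (hm : (m : ℕ) ∣ M) :
    slF (Gq q M H) D.W (Jc 1 m : LaurentSeries ℂ) = qExpand ℂ q (Jc 1 m) := by
  rw [slF_W_level D (Jc_mem_MFunG (GH_le _ _) hm)]
  congr 1
  haveI : LvlG (Gamma0 M) := lvl0
  have h1 := Jc_mem_MFunG (Γ := Gamma0 M) (N := M) le_rfl hm
  rw [diaF_mono (GH_le _ _) (Nz.of_mem (sQ_mem D.h)) (nz_GH (sQ_mem D.h)) h1,
    diaF_of_mem (sQ_mem D.h) h1]

theorem Jc_mul {R : Type*} [Field R] {m m' : ℕ+} (h : (m : ℕ) = q * m') :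
    (Jc 1 m : LaurentSeries R) = qExpand R q (Jc 1 m') := by
  haveI : NeZero (m : ℕ) := ⟨m.ne_zero⟩
  haveI : NeZero (m' : ℕ) := ⟨m'.ne_zero⟩
  rw [Jc_one_eq, Jc_one_eq, qExpand_qExpand]
  exact qExpand_congr h _

/-- **The Atkin-Lehner involution commutes with conjugation of the coefficients.** -/
theorem adQ_W (hq : q.Prime) (hM3 : 3 ≤ M) : AdQ (Gq q M H) D.W where
  toAd := D.ad
  endo σ x hx := by
    have key : x ∈ (TW D σ).toIntermediateField (C_mem_TW D σ) := by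
      refine MFunGq_le (H := H) hM3 ?_ ?_ hx
      · rw [FF_eq_adjoin, IntermediateField.adjoin_le_iff]
        rintro _ ⟨m, hm, rfl⟩
        have hJ : ∀ m : ℕ+, (Jc 1 m : LaurentSeries ℂ) =
            coeffMap (algebraMap ℚ ℂ) (Jc 1 m : LaurentSeries ℚ) := by
          intro m
          haveI : NeZero (m : ℕ) := ⟨m.ne_zero⟩
          rw [Jc_one_eq, Jc_one_eq, coeffMap_qExpand, coeffMap_jqModC]
        rcases dvd_cases hq hm with h | ⟨m', hm', h⟩
        · have h1 : (Jc 1 m : LaurentSeries ℂ) ∈ MFunG (GH M H) := Jc_mem_MFunG (GH_le _ _) h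
          rw [hJ] at h1 ⊢
          exact (TW_level D h1).1
        · obtain ⟨m'', rfl⟩ : ∃ m'' : ℕ+, (m'' : ℕ) = m' := by
            rcases Nat.eq_zero_or_pos m' with h0 | h0
            · subst h0
              exact absurd (Nat.eq_zero_of_zero_dvd h) (NeZero.ne M)
            · exact ⟨⟨m', h0⟩, rfl⟩
          have h1 : (Jc 1 m'' : LaurentSeries ℂ) ∈ MFunG (GH M H) := Jc_mem_MFunG (GH_le _ _) h
          have h2 : (Jc 1 m : LaurentSeries ℂ) =
              slF (Gq q M H) D.W (Jc 1 m'' : LaurentSeries ℂ) := by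
            rw [slF_W_Jc D h, Jc_mul hm']
          rw [h2]
          rw [hJ] at h1 ⊢
          exact (TW_level D h1).2
      · have h1 := z_mem_MFunG (H := H) (by omega) 1
        rw [cst_eq_rat] at h1 ⊢
        exact (TW_level D h1).1
    exact key.2

end F

end

end Fermat.Agent.SSH
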